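/-
ES chain, package (H1) (helper96): the eigencharacter `𝕋 → ℤ̄` of a normalised eigenform.
-/
import Fermat.Agent.S49.QCoeff
import Fermat.Agent.S22

set_option autoImplicit false

namespace Fermat.Agent.ES.EigenChar

open ModularFormClass CongruenceSubgroup UpperHalfPlane Fermat.Agent.S49

variable {N : ℕ} {g : CuspForm (Gamma0 N) 2}

theorem qCoeff_pow_mul (hg : g.IsNormalizedEigenform) {ℓ : ℕ} (hℓ : ℓ.Prime) (r m : ℕ)
    (hm : ¬ ℓ ∣ m) : qCoeff g (ℓ ^ r * m) = qCoeff g (ℓ ^ r) * qCoeff g m :=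
  hg.qCoeff_mul_of_coprime _ _ (Nat.Coprime.pow_left r ((Nat.Prime.coprime_iff_not_dvd hℓ).mpr hm))

theorem heckeT_eigen (hg : g.IsNormalizedEigenform) {ℓ : ℕ} (hℓ : ℓ.Prime) (hℓN : ¬ ℓ ∣ N) :
    CuspForm.heckeTLin 2 hℓ hℓN g = qCoeff g ℓ • g := by
  rw [← sub_eq_zero]
  apply eq_zero_of_qCoeff
  intro n
  rw [← qCoeffLin_apply, map_sub, map_smul, qCoeffLin_apply, qCoeffLin_apply, qCoeff_heckeTLin,
    smul_eq_mul, sub_eq_zero]
  rcases Nat.eq_zero_or_pos n with rfl | hn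
  · simp [qCoeff_zero_eq]
  obtain ⟨r, m, hm, rfl⟩ := Nat.exists_eq_pow_mul_and_not_dvd hn.ne' ℓ hℓ.ne_one
  have h1 : ℓ * (ℓ ^ r * m) = ℓ ^ (r + 1) * m := by ring
  rw [h1, qCoeff_pow_mul hg hℓ _ _ hm, qCoeff_pow_mul hg hℓ _ _ hm]
  rcases r with _ | r
  · have h2 : ¬ ℓ ∣ ℓ ^ 0 * m := by simpa using hm
    rw [if_neg h2]
    simp [hg.qCoeff_one]
  · have h2 : ℓ ∣ ℓ ^ (r + 1) * m := Dvd.dvd.mul_right (dvd_pow_self ℓ (Nat.succ_ne_zero r)) m
    have h3 : ℓ ^ (r + 1) * m / ℓ = ℓ ^ r * m := by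
      rw [pow_succ, mul_assoc, mul_comm ℓ m, ← mul_assoc]
      exact Nat.mul_div_cancel _ hℓ.pos
    rw [if_pos h2, h3, qCoeff_pow_mul hg hℓ _ _ hm, hg.qCoeff_prime_pow_of_not_dvd ℓ r hℓ hℓN]
    ring

theorem heckeU_eigen [NeZero N] (hg : g.IsNormalizedEigenform) {q : ℕ} (hq : q.Prime)
    (hqN : q ∣ N) : CuspForm.heckeULin 2 hqN g = qCoeff g q • g := by
  rw [← sub_eq_zero]
  apply eq_zero_of_qCoeff
  intro n
  rw [← qCoeffLin_apply, map_sub, map_smul, qCoeffLin_apply, qCoeffLin_apply,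
    qCoeff_heckeULin hq hqN, smul_eq_mul, sub_eq_zero]
  rcases Nat.eq_zero_or_pos n with rfl | hn
  · simp [qCoeff_zero_eq]
  obtain ⟨r, m, hm, rfl⟩ := Nat.exists_eq_pow_mul_and_not_dvd hn.ne' q hq.ne_one
  have h1 : q * (q ^ r * m) = q ^ (r + 1) * m := by ring
  rw [h1, qCoeff_pow_mul hg hq _ _ hm, qCoeff_pow_mul hg hq _ _ hm]
  rcases r with _ | r
  · simp [hg.qCoeff_one]
  · rw [hg.qCoeff_prime_pow_of_dvd q r hq hqN]
    ring

/-- The endomorphisms having `g` as an eigenvector. -/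
def eigenSub (g : CuspForm (Gamma0 N) 2) :
    Subalgebra ℤ (Module.End ℂ (CuspForm (Gamma0 N) 2)) where
  carrier := {x | ∃ c : ℂ, x g = c • g}
  mul_mem' := by
    rintro x y ⟨c, hc⟩ ⟨d, hd⟩
    exact ⟨d * c, by rw [Module.End.mul_apply, hd, map_smul, hc, smul_smul]⟩
  add_mem' := by
    rintro x y ⟨c, hc⟩ ⟨d, hd⟩
    exact ⟨c + d, by rw [LinearMap.add_apply, hc, hd, add_smul]⟩
  algebraMap_mem' := by
    intro r
    refine ⟨(r : ℂ), ?_⟩
    rw [Algebra.algebraMap_eq_smul_one, LinearMap.smul_apply, Module.End.one_apply,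
      Int.cast_smul_eq_zsmul]

theorem heckeAlgebra_le_eigenSub [NeZero N] (S : Set ℕ) (hg : g.IsNormalizedEigenform) :
    CuspForm.heckeAlgebra N 2 S ≤ eigenSub g := by
  refine Algebra.adjoin_le ?_
  rintro x (⟨ℓ, hℓ, hℓN, -, rfl⟩ | ⟨q, hqN, hq, -, rfl⟩)
  · exact ⟨_, heckeT_eigen hg hℓ hℓN⟩
  · exact ⟨_, heckeU_eigen hg hq hqN⟩

theorem apply_eq_smul [NeZero N] (S : Set ℕ) (hg : g.IsNormalizedEigenform)
    (x : CuspForm.heckeAlgebra N 2 S) :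
    (x : Module.End ℂ (CuspForm (Gamma0 N) 2)) g =
      qCoeff ((x : Module.End ℂ (CuspForm (Gamma0 N) 2)) g) 1 • g := by
  obtain ⟨c, hc⟩ := heckeAlgebra_le_eigenSub S hg x.2
  have h1 : qCoeff ((x : Module.End ℂ (CuspForm (Gamma0 N) 2)) g) 1 = c := by
    rw [hc, ← qCoeffLin_apply, map_smul, qCoeffLin_apply, hg.qCoeff_one, smul_eq_mul, mul_one]
  rw [h1, hc]

/-- The eigencharacter with values in `ℂ`. -/
noncomputable def eigenCharC [NeZero N] (S : Set ℕ) (hg : g.IsNormalizedEigenform) :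
    CuspForm.heckeAlgebra N 2 S →+* ℂ where
  toFun x := qCoeff ((x : Module.End ℂ (CuspForm (Gamma0 N) 2)) g) 1
  map_one' := by
    show qCoeff ((1 : Module.End ℂ (CuspForm (Gamma0 N) 2)) g) 1 = 1
    rw [Module.End.one_apply, hg.qCoeff_one]
  map_mul' x y := by
    show qCoeff (((x : Module.End ℂ (CuspForm (Gamma0 N) 2)) *
      (y : Module.End ℂ (CuspForm (Gamma0 N) 2))) g) 1 = _
    rw [Module.End.mul_apply]
    conv_lhs => rw [apply_eq_smul S hg y, map_smul]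
    rw [← qCoeffLin_apply, map_smul, qCoeffLin_apply, smul_eq_mul, mul_comm]
  map_zero' := by
    show qCoeff ((0 : Module.End ℂ (CuspForm (Gamma0 N) 2)) g) 1 = 0
    rw [LinearMap.zero_apply, ← qCoeffLin_apply, map_zero]
  map_add' x y := by
    show qCoeff (((x : Module.End ℂ (CuspForm (Gamma0 N) 2)) +
      (y : Module.End ℂ (CuspForm (Gamma0 N) 2))) g) 1 = _
    rw [LinearMap.add_apply, ← qCoeffLin_apply, map_add, qCoeffLin_apply, qCoeffLin_apply]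

theorem eigenCharC_isIntegral [NeZero N] (S : Set ℕ) (hg : g.IsNormalizedEigenform)
    (x : CuspForm.heckeAlgebra N 2 S) : IsIntegral ℤ (eigenCharC S hg x) := by
  have : Module.Finite ℤ (CuspForm.heckeAlgebra N 2 S) := Fermat.Agent.S22.result N 2 S
  have h1 : IsIntegral ℤ x := Algebra.IsIntegral.isIntegral x
  exact h1.map (eigenCharC S hg).toIntAlgHom

/-- **The eigencharacter** `𝕋 → ℤ̄` of a normalised eigenform. -/
theorem exists_eigenChar [NeZero N] (S : Set ℕ) (hg : g.IsNormalizedEigenform) :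
    ∃ lam : CuspForm.heckeAlgebra N 2 S →+* integralClosure ℤ ℂ,
      (∀ x : CuspForm.heckeAlgebra N 2 S,
        (x : Module.End ℂ (CuspForm (Gamma0 N) 2)) g = ((lam x : integralClosure ℤ ℂ) : ℂ) • g) ∧
      ∀ (ℓ : ℕ) (hℓ : ℓ.Prime) (hℓN : ¬ ℓ ∣ N) (hℓS : ℓ ∉ S),
        ((lam (CuspForm.heckeAlgebra.T hℓ hℓN hℓS) : integralClosure ℤ ℂ) : ℂ) = qCoeff g ℓ := by
  refine ⟨(eigenCharC S hg).codRestrict (integralClosure ℤ ℂ).toSubring
    (fun x => eigenCharC_isIntegral S hg x), fun x => apply_eq_smul S hg x, ?_⟩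
  intro ℓ hℓ hℓN hℓS
  show qCoeff ((CuspForm.heckeTLin 2 hℓ hℓN) g) 1 = qCoeff g ℓ
  rw [heckeT_eigen hg hℓ hℓN, ← qCoeffLin_apply, map_smul, qCoeffLin_apply, hg.qCoeff_one,
    smul_eq_mul, mul_one]

end Fermat.Agent.ES.EigenChar
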