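/-
ES chain, package (G) "Galois facts" (helper96).

Elementary facts on the action of `G_ℚ` on roots of unity, in the elementary form
`IsCyc m g a : ∀ ζ, ζ ^ m = 1 → g ζ = ζ ^ a`, and for Mathlib's `cyclotomicCharacter`.
-/
import Mathlib
import Fermat.Prelude.Def_GaloisRep_Adic

set_option autoImplicit false

namespace Fermat.Agent.ES.RepGalois

local notation "Qb" => AlgebraicClosure ℚ
local notation "GQ" => (AlgebraicClosure ℚ ≃ₐ[ℚ] AlgebraicClosure ℚ)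

theorem isAlgebraicQb : Algebra.IsAlgebraic ℚ Qb := AlgebraicClosure.isAlgebraic ℚ
attribute [local instance] isAlgebraicQb
theorem isAlgClosureQb : IsAlgClosure ℚ Qb := ⟨inferInstance, inferInstance⟩
attribute [local instance] isAlgClosureQb
theorem normalQb : Normal ℚ Qb := IsAlgClosure.normal ℚ Qb
attribute [local instance] normalQb

/-- `g` acts on the `m`-th roots of unity of `ℚ̄` by `ζ ↦ ζ ^ a`. -/
def IsCyc (m : ℕ) (g : GQ) (a : ℕ) : Prop :=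
  ∀ ζ : Qb, ζ ^ m = 1 → g ζ = ζ ^ a

theorem isCyc_one (m : ℕ) : IsCyc m 1 1 := fun ζ _ => by simp

theorem IsCyc.mul {m : ℕ} {g h : GQ} {a b : ℕ} (hg : IsCyc m g a) (hh : IsCyc m h b) :
    IsCyc m (g * h) (a * b) := by
  intro ζ hζ
  rw [AlgEquiv.mul_apply, hh ζ hζ, map_pow, hg ζ hζ, ← pow_mul]

theorem IsCyc.pow {m : ℕ} {g : GQ} {a : ℕ} (hg : IsCyc m g a) (k : ℕ) :
    IsCyc m (g ^ k) (a ^ k) := by
  induction k with
  | zero => simpa using isCyc_one m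
  | succ k ih => rw [pow_succ, pow_succ]; exact ih.mul hg

theorem IsCyc.of_dvd {m m' : ℕ} {g : GQ} {a : ℕ} (hg : IsCyc m g a) (h : m' ∣ m) :
    IsCyc m' g a := by
  intro ζ hζ
  obtain ⟨d, rfl⟩ := h
  exact hg ζ (by rw [pow_mul, hζ, one_pow])

theorem IsCyc.congr {m : ℕ} {g : GQ} {a b : ℕ} (hg : IsCyc m g a) (h : a ≡ b [MOD m]) :
    IsCyc m g b := by
  intro ζ hζ
  rw [hg ζ hζ, pow_eq_pow_mod a hζ, pow_eq_pow_mod b hζ, h]

theorem exists_primitiveRoot (m : ℕ) (hm : 0 < m) : ∃ ζ : Qb, IsPrimitiveRoot ζ m := by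
  have : NeZero m := ⟨hm.ne'⟩
  have : NeZero (m : Qb) := ⟨by exact_mod_cast hm.ne'⟩
  exact HasEnoughRootsOfUnity.exists_primitiveRoot Qb m

theorem IsCyc.modEq {m : ℕ} (hm : 0 < m) {g : GQ} {a b : ℕ} (ha : IsCyc m g a)
    (hb : IsCyc m g b) : a ≡ b [MOD m] := by
  obtain ⟨ζ, hζ⟩ := exists_primitiveRoot m hm
  have h1 : ζ ^ a = ζ ^ b := by rw [← ha ζ hζ.pow_eq_one, hb ζ hζ.pow_eq_one]
  rw [pow_eq_pow_mod a hζ.pow_eq_one, pow_eq_pow_mod b hζ.pow_eq_one] at h1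
  exact hζ.pow_inj (Nat.mod_lt _ hm) (Nat.mod_lt _ hm) h1

theorem exists_isCyc (m : ℕ) (hm : 0 < m) (g : GQ) : ∃ a : ℕ, IsCyc m g a := by
  have : NeZero m := ⟨hm.ne'⟩
  obtain ⟨ζ, hζ⟩ := exists_primitiveRoot m hm
  have h1 : (g ζ) ^ m = 1 := by rw [← map_pow, hζ.pow_eq_one, map_one]
  obtain ⟨a, -, ha⟩ := hζ.eq_pow_of_pow_eq_one h1
  refine ⟨a, fun ξ hξ => ?_⟩
  obtain ⟨b, -, rfl⟩ := hζ.eq_pow_of_pow_eq_one hξ
  rw [map_pow, ← ha, ← pow_mul, ← pow_mul, mul_comm]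

/-! ### Valuation subrings, Frobenius elements, inertia -/

theorem frob_unpack {A : ValuationSubring Qb} {σ : GQ} {ℓ : ℕ} (h : A.IsFrobeniusAt σ ℓ) :
    ∀ a ∈ A, σ a - a ^ ℓ ∈ A.nonunits := by
  obtain ⟨hσ, h⟩ := h
  intro a ha
  have h1 := h (IsLocalRing.residue A ⟨a, ha⟩)
  rw [← IsLocalRing.ResidueField.residue_smul, ← map_pow, ← sub_eq_zero, ← map_sub,
    IsLocalRing.residue_eq_zero_iff, ← ValuationSubring.coe_mem_nonunits_iff] at h1
  exact h1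

theorem inertia_unpack {A : ValuationSubring Qb} {σ : GQ} (hσ : σ ∈ A.inertiaSubgroupIn ℚ) :
    ∀ a ∈ A, σ a - a ∈ A.nonunits := by
  obtain ⟨g, hg, rfl⟩ := hσ
  intro a ha
  have h1 : g • (IsLocalRing.residue A ⟨a, ha⟩) = IsLocalRing.residue A ⟨a, ha⟩ :=
    RingEquiv.congr_fun (MonoidHom.mem_ker.1 hg) (IsLocalRing.residue A ⟨a, ha⟩)
  rw [← IsLocalRing.ResidueField.residue_smul, ← sub_eq_zero, ← map_sub,
    IsLocalRing.residue_eq_zero_iff, ← ValuationSubring.coe_mem_nonunits_iff] at h1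
  exact h1

theorem mem_of_pow_eq_one (A : ValuationSubring Qb) {m : ℕ} (hm : 0 < m) {ζ : Qb}
    (hζ : ζ ^ m = 1) : ζ ∈ A := by
  rw [← ValuationSubring.valuation_le_one_iff]
  have h1 : A.valuation ζ ^ m = 1 := by rw [← map_pow, hζ, map_one]
  exact ((pow_eq_one_iff.mp h1).resolve_right hm.ne').le

/-- Reduction is injective on the `m`-th roots of unity if the residue characteristic does not
divide `m`. -/
theorem eq_of_sub_mem_nonunits (A : ValuationSubring Qb) {q m : ℕ} (hq : q.Prime)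
    (hA : A.LiesOverPrime q) (hqm : ¬ q ∣ m) {ξ ξ' : Qb} (hξ : ξ ^ m = 1) (hξ' : ξ' ^ m = 1)
    (h : ξ - ξ' ∈ A.nonunits) : ξ = ξ' := by
  by_contra hne
  have hm : 0 < m := Nat.pos_of_ne_zero (fun h0 => hqm (h0 ▸ dvd_zero q))
  have hξ'0 : ξ' ≠ 0 := fun h0 => by simp [h0, hm.ne'] at hξ'
  set η : Qb := ξ / ξ' with hη
  have hηm : η ^ m = 1 := by rw [hη, div_pow, hξ, hξ', div_one]
  have hη1 : η ≠ 1 := fun h1 => hne (by rwa [hη, div_eq_one_iff_eq hξ'0] at h1)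
  have hηA : η ∈ A := mem_of_pow_eq_one A hm hηm
  have hinv : ξ'⁻¹ ∈ A := mem_of_pow_eq_one A hm (by rw [inv_pow, hξ', inv_one])
  -- `η - 1` is a nonunit
  have h1 : A.valuation (η - 1) < 1 := by
    have : η - 1 = (ξ - ξ') * ξ'⁻¹ := by rw [hη]; field_simp
    rw [this, map_mul]
    have h2 : A.valuation (ξ - ξ') < 1 := (ValuationSubring.mem_nonunits_iff A).mp h
    have h3 : A.valuation ξ'⁻¹ ≤ 1 := (ValuationSubring.valuation_le_one_iff A _).mpr hinv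
    exact mul_lt_one_of_lt_of_le h2 h3
  -- geometric sum
  have hgeom : ∑ i ∈ Finset.range m, η ^ i = 0 := by
    have := mul_neg_geom_sum η m
    rw [hηm, sub_self] at this
    rcases mul_eq_zero.mp this with h0 | h0
    · exact absurd (sub_eq_zero.mp h0).symm hη1
    · exact h0
  have hpow : ∀ i : ℕ, A.valuation (η ^ i - 1) < 1 := by
    intro i
    have h4 : η ^ i - 1 = (η - 1) * ∑ j ∈ Finset.range i, η ^ j := by
      rw [mul_comm]; exact (geom_sum_mul η i).symm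
    rw [h4, map_mul]
    have h5 : A.valuation (∑ j ∈ Finset.range i, η ^ j) ≤ 1 :=
      (ValuationSubring.valuation_le_one_iff A _).mpr
        (A.toSubring.sum_mem fun j _ => A.toSubring.pow_mem hηA j)
    exact mul_lt_one_of_lt_of_le h1 h5
  have hmval : A.valuation (m : Qb) < 1 := by
    have h6 : (m : Qb) = - ∑ i ∈ Finset.range m, (η ^ i - 1) := by
      rw [Finset.sum_sub_distrib, hgeom]; simp
    rw [h6, Valuation.map_neg]
    exact Valuation.map_sum_lt _ one_ne_zero fun i _ => hpow i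
  have hqval : A.valuation (q : Qb) < 1 := (ValuationSubring.mem_nonunits_iff A).mp hA
  have hcop : Nat.Coprime q m := (Nat.Prime.coprime_iff_not_dvd hq).mpr hqm
  have hbez : ((q : ℤ) * Nat.gcdA q m + (m : ℤ) * Nat.gcdB q m : ℤ) = 1 := by
    have := Nat.gcd_eq_gcd_ab q m
    rw [hcop.gcd_eq_one] at this
    exact_mod_cast this.symm
  have hint : ∀ z : ℤ, A.valuation (z : Qb) ≤ 1 := fun z =>
    (ValuationSubring.valuation_le_one_iff A _).mpr (intCast_mem A z)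
  have h7 : A.valuation (1 : Qb) < 1 := by
    have h8 : (1 : Qb) = (q : Qb) * (Nat.gcdA q m : Qb) + (m : Qb) * (Nat.gcdB q m : Qb) := by
      exact_mod_cast (congrArg (Int.cast : ℤ → Qb) hbez).symm
    rw [h8]
    refine Valuation.map_add_lt _ ?_ ?_
    · rw [map_mul]; exact mul_lt_one_of_lt_of_le hqval (hint _)
    · rw [map_mul]; exact mul_lt_one_of_lt_of_le hmval (hint _)
  rw [map_one] at h7
  exact lt_irrefl _ h7

theorem isCyc_frob {A : ValuationSubring Qb} {σ : GQ} {ℓ m : ℕ} (hℓ : ℓ.Prime)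
    (hA : A.LiesOverPrime ℓ) (hσ : A.IsFrobeniusAt σ ℓ) (hm : ¬ ℓ ∣ m) : IsCyc m σ ℓ := by
  intro ζ hζ
  have hm0 : 0 < m := Nat.pos_of_ne_zero (fun h0 => hm (h0 ▸ dvd_zero ℓ))
  refine eq_of_sub_mem_nonunits A hℓ hA hm ?_ ?_ (frob_unpack hσ ζ (mem_of_pow_eq_one A hm0 hζ))
  · rw [← map_pow, hζ, map_one]
  · rw [← pow_mul, mul_comm, pow_mul, hζ, one_pow]

theorem isCyc_inertia {A : ValuationSubring Qb} {σ : GQ} {q m : ℕ} (hq : q.Prime)
    (hA : A.LiesOverPrime q) (hσ : σ ∈ A.inertiaSubgroupIn ℚ) (hm : ¬ q ∣ m) : IsCyc m σ 1 := by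
  intro ζ hζ
  have hm0 : 0 < m := Nat.pos_of_ne_zero (fun h0 => hm (h0 ▸ dvd_zero q))
  rw [pow_one]
  refine eq_of_sub_mem_nonunits A hq hA hm ?_ hζ
    (inertia_unpack hσ ζ (mem_of_pow_eq_one A hm0 hζ))
  rw [← map_pow, hζ, map_one]

/-! ### Finite level -/

theorem exists_level (m : ℕ) (hm : 0 < m) :
    ∃ L : IntermediateField ℚ Qb, FiniteDimensional ℚ L ∧
      ∀ g h : GQ, (∀ x ∈ L, g x = h x) → ∀ a, IsCyc m g a → IsCyc m h a := by
  have : NeZero m := ⟨hm.ne'⟩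
  obtain ⟨ζ, hζ⟩ := exists_primitiveRoot m hm
  refine ⟨IntermediateField.adjoin ℚ {ζ},
    IntermediateField.adjoin.finiteDimensional (Algebra.IsIntegral.isIntegral ζ), ?_⟩
  intro g h hgh a ha ξ hξ
  obtain ⟨b, -, rfl⟩ := hζ.eq_pow_of_pow_eq_one hξ
  have h1 : g ζ = h ζ := hgh ζ (IntermediateField.mem_adjoin_simple_self ℚ ζ)
  rw [map_pow, ← h1, ← map_pow]
  exact ha _ hξ

/-- Every finite-dimensional subfield of `ℚ̄` is contained in a finite-dimensional normal one. -/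
theorem exists_normal_ge (L : IntermediateField ℚ Qb) (hL : FiniteDimensional ℚ L) :
    ∃ L' : IntermediateField ℚ Qb, FiniteDimensional ℚ L' ∧ Normal ℚ L' ∧ L ≤ L' :=
  ⟨IntermediateField.normalClosure ℚ L Qb, inferInstance, normalClosure.normal ℚ L Qb,
    IntermediateField.le_normalClosure L⟩

/-! ### Complex conjugation -/

theorem exists_complexConj :
    ∃ c : GQ, c * c = 1 ∧ c ≠ 1 ∧ ∀ m : ℕ, 0 < m → IsCyc m c (m - 1) := by
  let ι : Qb →ₐ[ℚ] ℂ := IsAlgClosed.lift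
  let _ : Algebra Qb ℂ := ι.toRingHom.toAlgebra
  have : IsScalarTower ℚ Qb ℂ := IsScalarTower.of_algebraMap_eq (fun x => (ι.commutes x).symm)
  let conj : ℂ ≃ₐ[ℚ] ℂ := Complex.conjAe.restrictScalars ℚ
  let c : GQ := conj.restrictNormal Qb
  have hc : ∀ x : Qb, ι (c x) = (starRingEnd ℂ) (ι x) := fun x =>
    AlgEquiv.restrictNormal_commutes conj Qb x
  have hcyc : ∀ m : ℕ, 0 < m → IsCyc m c (m - 1) := by
    intro m hm ζ hζ
    apply (show Function.Injective ι from ι.injective)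
    have h1 : (ι ζ) ^ m = 1 := by rw [← map_pow, hζ, map_one]
    have h2 : ‖ι ζ‖ = 1 := Complex.norm_eq_one_of_pow_eq_one h1 hm.ne'
    rw [hc, ← Complex.inv_eq_conj h2, map_pow]
    have h3 : (ι ζ) ^ (m - 1) * ι ζ = 1 := by rw [← pow_succ, Nat.sub_add_cancel hm, h1]
    exact (eq_inv_of_mul_eq_one_left h3).symm
  refine ⟨c, ?_, ?_, hcyc⟩
  · ext x
    apply (show Function.Injective ι from ι.injective)
    rw [AlgEquiv.mul_apply, hc, hc, Complex.conj_conj, AlgEquiv.one_apply]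
  · intro h1
    have h2 := (hcyc 4 (by norm_num)).modEq (by norm_num) (h1 ▸ isCyc_one 4)
    exact absurd h2 (by decide)

/-! ### The `p`-adic cyclotomic character -/

section Eps

variable (p : ℕ) [Fact p.Prime]

/-- The `p`-adic cyclotomic character of `G_ℚ` (Mathlib's `cyclotomicCharacter`). -/
noncomputable def eps : GQ →* ℤ_[p]ˣ :=
  (cyclotomicCharacter Qb p).comp (MulSemiringAction.toRingAut GQ Qb)

instance instEnough (i : ℕ) : HasEnoughRootsOfUnity Qb (p ^ i) := by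
  have : NeZero (p ^ i) := ⟨pow_ne_zero _ (Fact.out : p.Prime).ne_zero⟩
  have : NeZero ((p ^ i : ℕ) : Qb) := ⟨by exact_mod_cast (NeZero.ne (p ^ i))⟩
  infer_instance

theorem eps_spec (n : ℕ) (g : GQ) :
    IsCyc (p ^ n) g (((eps p g : ℤ_[p]ˣ) : ℤ_[p]).toZModPow n).val := by
  intro ζ hζ
  exact cyclotomicCharacter.spec p (MulSemiringAction.toRingAut GQ Qb g) ζ hζ

theorem isCyc_iff_eps (n : ℕ) (g : GQ) (a : ℕ) :
    IsCyc (p ^ n) g a ↔ ((eps p g : ℤ_[p]ˣ) : ℤ_[p]).toZModPow n = (a : ZMod (p ^ n)) := by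
  have hpn : 0 < p ^ n := pow_pos (Fact.out : p.Prime).pos n
  have : NeZero (p ^ n) := ⟨hpn.ne'⟩
  constructor
  · intro h
    have h1 := (eps_spec p n g).modEq hpn h
    rw [← ZMod.natCast_eq_natCast_iff, ZMod.natCast_zmod_val] at h1
    exact h1
  · intro h
    refine (eps_spec p n g).congr ?_
    rw [← ZMod.natCast_eq_natCast_iff, ZMod.natCast_zmod_val]
    exact h

theorem eps_eq_natCast_of_isCyc {g : GQ} {a : ℕ} (h : ∀ n, IsCyc (p ^ n) g a) :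
    ((eps p g : ℤ_[p]ˣ) : ℤ_[p]) = (a : ℤ_[p]) := by
  refine PadicInt.ext_of_toZModPow.mp fun n => ?_
  rw [(isCyc_iff_eps p n g a).mp (h n), map_natCast]

theorem not_dvd_pow {q : ℕ} (hq : q.Prime) (hqp : q ≠ p) (n : ℕ) : ¬ q ∣ p ^ n := fun h =>
  hqp ((Nat.prime_dvd_prime_iff_eq hq (Fact.out : p.Prime)).mp (hq.dvd_of_dvd_pow h))

/-- (a) `ε(Frob_ℓ) = ℓ`. -/
theorem eps_frob {A : ValuationSubring Qb} {σ : GQ} {ℓ : ℕ} (hℓ : ℓ.Prime) (hℓp : ℓ ≠ p)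
    (hA : A.LiesOverPrime ℓ) (hσ : A.IsFrobeniusAt σ ℓ) :
    ((eps p σ : ℤ_[p]ˣ) : ℤ_[p]) = (ℓ : ℤ_[p]) :=
  eps_eq_natCast_of_isCyc p fun n => isCyc_frob hℓ hA hσ (not_dvd_pow p hℓ hℓp n)

/-- (c) `ε` is trivial on inertia at `q ≠ p`. -/
theorem eps_inertia {A : ValuationSubring Qb} {σ : GQ} {q : ℕ} (hq : q.Prime) (hqp : q ≠ p)
    (hA : A.LiesOverPrime q) (hσ : σ ∈ A.inertiaSubgroupIn ℚ) : eps p σ = 1 := by
  apply Units.ext
  rw [eps_eq_natCast_of_isCyc p fun n => isCyc_inertia hq hA hσ (not_dvd_pow p hq hqp n)]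
  simp

/-- (b) complex conjugation. -/
theorem exists_conj_eps : ∃ c : GQ, c * c = 1 ∧ c ≠ 1 ∧ (∀ m : ℕ, 0 < m → IsCyc m c (m - 1)) ∧
    ∀ (p : ℕ) [Fact p.Prime], eps p c = -1 := by
  obtain ⟨c, h1, h2, h3⟩ := exists_complexConj
  refine ⟨c, h1, h2, h3, fun p _ => ?_⟩
  apply Units.ext
  refine PadicInt.ext_of_toZModPow.mp fun n => ?_
  have hpn : 0 < p ^ n := pow_pos (Fact.out : p.Prime).pos n
  rw [(isCyc_iff_eps p n c _).mp (h3 _ hpn), Nat.cast_sub hpn]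
  simp

/-- (d) finite level of `ε mod p ^ n`. -/
theorem eps_level (n : ℕ) :
    ∃ L : IntermediateField ℚ Qb, FiniteDimensional ℚ L ∧
      ∀ g h : GQ, (∀ x ∈ L, g x = h x) →
        ((eps p g : ℤ_[p]ˣ) : ℤ_[p]).toZModPow n = ((eps p h : ℤ_[p]ˣ) : ℤ_[p]).toZModPow n := by
  have hpn : 0 < p ^ n := pow_pos (Fact.out : p.Prime).pos n
  have : NeZero (p ^ n) := ⟨hpn.ne'⟩
  obtain ⟨L, hL, h⟩ := exists_level (p ^ n) hpn
  refine ⟨L, hL, fun g g' hgg' => ?_⟩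
  have h1 := h g g' hgg' _ (eps_spec p n g)
  rw [(isCyc_iff_eps p n g' _).mp h1, ZMod.natCast_zmod_val]

/-- (d') the same, as a congruence in `ℤ_[p]`. -/
theorem eps_level' (n : ℕ) :
    ∃ L : IntermediateField ℚ Qb, FiniteDimensional ℚ L ∧
      ∀ g h : GQ, (∀ x ∈ L, g x = h x) →
        ((eps p g : ℤ_[p]ˣ) : ℤ_[p]) - ((eps p h : ℤ_[p]ˣ) : ℤ_[p]) ∈
          (Ideal.span {(p : ℤ_[p]) ^ n} : Ideal ℤ_[p]) := by
  obtain ⟨L, hL, h⟩ := eps_level p n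
  refine ⟨L, hL, fun g g' hgg' => ?_⟩
  rw [← PadicInt.ker_toZModPow, RingHom.mem_ker, map_sub, h g g' hgg', sub_self]

end Eps

end Fermat.Agent.ES.RepGalois
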