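import Mathlib
import Fermat.Prelude.Def_CuspForm_HeckeAlgebra
import Fermat.Prelude.Def_GaloisRep_Adic

/-!
# ES chain : the contract between the geometric part and the (REP) package

`ESModule p N S` is what the geometric/analytic part of the Eichler--Shimura chain has to produce
(the `p`-adic Tate module of `J₀(N)` in disguise):

* `H` : a finite free `ℤ`-module with a *faithful* action `Θ` of the Hecke algebra
  (for instance the parabolic homomorphisms `Γ₀(N) → ℤ`);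
* `Λ` : a `ℤ_[p]`-module which is a base change of `H` along `ι : H → Λ`
  (for instance `ℤ_[p] ⊗[ℤ] H` with `ι = TensorProduct.mk ℤ ℤ_[p] H 1` and
  `TensorProduct.isBaseChange`, or an inverse limit of the `p ^ n`-torsion);
* `ΘΛ` : the Hecke action on `Λ`, compatible with `ι`;
* `ρ` : a `ℤ_[p]`-linear action of `G_ℚ` on `Λ` commuting with the Hecke action, continuous,
  unramified outside `N p`, and satisfying the Eichler--Shimura relation at every Frobenius lift.

From `∀ p N S, Nonempty (ESModule p N S)` and Frobenius density the (REP) package deduces `S30`.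
-/

set_option autoImplicit false

namespace Fermat.Agent.ES.Rep

/-- The absolute Galois group of `ℚ`. -/
abbrev GQ : Type := AlgebraicClosure ℚ ≃ₐ[ℚ] AlgebraicClosure ℚ

/-- The Eichler--Shimura module. -/
structure ESModule (p : ℕ) [Fact p.Prime] (N : ℕ) [NeZero N] (S : Set ℕ) where
  /-- the integral lattice -/
  H : Type
  [instH : AddCommGroup H]
  [freeH : Module.Free ℤ H]
  [finiteH : Module.Finite ℤ H]
  /-- the Hecke action on the lattice -/
  Θ : CuspForm.heckeAlgebra N 2 S →+* Module.End ℤ H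
  Θ_injective : Function.Injective Θ
  /-- the `p`-adic lattice -/
  Λ : Type
  [instΛ : AddCommGroup Λ]
  [modΛ : Module ℤ_[p] Λ]
  /-- the comparison map -/
  ι : H →ₗ[ℤ] Λ
  isBaseChange : IsBaseChange ℤ_[p] ι
  /-- the Hecke action on the `p`-adic lattice -/
  ΘΛ : CuspForm.heckeAlgebra N 2 S →+* Module.End ℤ_[p] Λ
  ΘΛ_ι : ∀ x h, ΘΛ x (ι h) = ι (Θ x h)
  /-- the Galois action -/
  ρ : GQ →* Module.End ℤ_[p] Λ
  comm : ∀ σ x, ρ σ * ΘΛ x = ΘΛ x * ρ σ
  continuous : ∀ n : ℕ, ∃ L : IntermediateField ℚ (AlgebraicClosure ℚ), FiniteDimensional ℚ L ∧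
    ∀ σ : GQ, (∀ x ∈ L, σ x = x) → ∀ v : Λ, ∃ w : Λ, ρ σ v - v = (p : ℤ_[p]) ^ n • w
  eichlerShimura : ∀ (ℓ : ℕ) (hℓ : ℓ.Prime) (hℓN : ¬ ℓ ∣ N) (hℓS : ℓ ∉ S), ℓ ≠ p →
    ∀ A : ValuationSubring (AlgebraicClosure ℚ), A.LiesOverPrime ℓ →
      ∀ σ : GQ, A.IsFrobeniusAt σ ℓ →
        ρ σ * ρ σ - ΘΛ (CuspForm.heckeAlgebra.T hℓ hℓN hℓS) * ρ σ + (ℓ : ℤ_[p]) • 1 = 0
  unramified : ∀ q : ℕ, q.Prime → ¬ q ∣ N → q ≠ p →
    ∀ P : ValuationSubring (AlgebraicClosure ℚ), P.LiesOverPrime q →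
      ∀ σ ∈ P.inertiaSubgroupIn ℚ, ρ σ = 1

attribute [instance] ESModule.instH ESModule.freeH ESModule.finiteH ESModule.instΛ ESModule.modΛ

/-- What the geometric part has to prove. -/
def Stmt_ES : Prop :=
  ∀ (p : ℕ) [Fact p.Prime] (N : ℕ) [NeZero N] (S : Finset ℕ),
    p ∈ S → (∀ q : ℕ, q.Prime → q ∣ N → q ∈ S) → Nonempty (ESModule p N (↑S : Set ℕ))

end Fermat.Agent.ES.Rep
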