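import Mathlib

/-!
# ES / REP : existence of eigenvectors

* `exists_eigenvector` : a character of a finite commutative algebra acting faithfully on a finite
  module over a noetherian domain occurs in the module.
-/

set_option autoImplicit false

namespace Fermat.Agent.ES.Rep

open TensorProduct

section Eigen

theorem exists_eigenvector {R : Type*} [CommRing R] [IsDomain R] [IsNoetherianRing R]
    {A : Type*} [CommRing A] [Algebra R A] [Module.Finite R A]
    {V : Type*} [AddCommGroup V] [Module R V] [Module.Finite R V]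
    (f : A →ₐ[R] Module.End R V) (hf : Function.Injective f) (χ : A →ₐ[R] R) :
    ∃ v : V, v ≠ 0 ∧ ∀ a, f a v = χ a • v := by
  letI : Module A V := Module.compHom V f.toRingHom
  have hsmul : ∀ (a : A) (v : V), a • v = f a v := fun _ _ => rfl
  haveI : IsScalarTower R A V := ⟨fun r a v => by rw [hsmul, hsmul, map_smul]; rfl⟩
  haveI : IsNoetherianRing A := IsNoetherianRing.of_finite R A
  haveI : Module.Finite A V := Module.Finite.of_restrictScalars_finite R A V
  haveI : Algebra.IsIntegral R A := Algebra.IsIntegral.of_finite R A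
  have hann : Module.annihilator A V = ⊥ := by
    rw [eq_bot_iff]
    intro a ha
    rw [Module.mem_annihilator] at ha
    rw [Ideal.mem_bot]
    apply hf
    rw [map_zero]
    ext v
    exact ha v
  let P : Ideal A := RingHom.ker (χ : A →+* R)
  haveI hP : P.IsPrime := RingHom.ker_isPrime _
  have hPcomap : P.comap (algebraMap R A) = ⊥ := by
    rw [eq_bot_iff]
    intro r hr
    have : χ (algebraMap R A r) = 0 := hr
    rw [AlgHom.commutes] at this
    exact this
  have hmin : P ∈ (Module.annihilator A V).minimalPrimes := by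
    rw [hann]
    refine ⟨⟨hP, bot_le⟩, fun Q hQ hQP => ?_⟩
    by_contra hne
    haveI : Q.IsPrime := hQ.1
    have hlt : Q < P := lt_of_le_not_ge hQP hne
    have := Ideal.IsIntegral.comap_lt_comap (R := R) hlt
    rw [hPcomap] at this
    exact not_lt_bot this
  have hass := Module.associatedPrimes.minimalPrimes_annihilator_subset_associatedPrimes A V hmin
  obtain ⟨-, v, hv⟩ := isAssociatedPrime_iff.1 hass
  refine ⟨v, ?_, fun a => ?_⟩
  · rintro rfl
    apply hP.ne_top
    rw [hv, Ideal.eq_top_iff_one, Submodule.mem_colon_singleton]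
    simp
  · have hmem : a - algebraMap R A (χ a) ∈ P := by
      change χ (a - algebraMap R A (χ a)) = 0
      rw [map_sub, AlgHom.commutes]
      simp
    rw [hv, Submodule.mem_colon_singleton, Submodule.mem_bot, hsmul, map_sub, AlgHom.commutes,
      LinearMap.sub_apply, sub_eq_zero] at hmem
    rw [hmem]
    rfl

theorem exists_eigenvector_baseChange
    {O : Type*} [CommRing O] [IsDomain O] [IsNoetherianRing O] [CharZero O]
    {T : Type*} [CommRing T]
    {H : Type*} [AddCommGroup H] [Module.Free ℤ H] [Module.Finite ℤ H]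
    (Θ : T →+* Module.End ℤ H) (hΘ : Function.Injective Θ)
    {V : Type*} [AddCommGroup V] [Module O V]
    (j : H →ₗ[ℤ] V) (hj : IsBaseChange O j)
    (ΘV : T →+* Module.End O V) (hΘV : ∀ x h, ΘV x (j h) = j (Θ x h))
    (χ : T →+* O) :
    ∃ v : V, v ≠ 0 ∧ ∀ x, ΘV x v = χ x • v := by
  haveI : Module.Finite O V := Module.Finite.equiv hj.equiv
  let Θl : T →ₗ[ℤ] Module.End ℤ H := Θ.toIntAlgHom.toLinearMap
  have hΘl : Function.Injective Θl := hΘ
  haveI : Module.Finite ℤ T := Module.Finite.of_injective Θl hΘl
  let f : O ⊗[ℤ] T →ₐ[O] Module.End O V :=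
    Algebra.TensorProduct.lift (Algebra.ofId O (Module.End O V)) ΘV.toIntAlgHom
      (fun a x => Algebra.commutes a (ΘV x))
  let χA : O ⊗[ℤ] T →ₐ[O] O :=
    Algebra.TensorProduct.lift (AlgHom.id O O) χ.toIntAlgHom (fun a x => Commute.all _ _)
  let e := (IsBaseChange.end hj).equiv
  have hend : ∀ x, IsBaseChange.endHom hj (Θ x) = ΘV x := by
    intro x
    apply hj.algHom_ext
    intro h
    rw [IsBaseChange.endHom_comp_apply, hΘV]
  have hftmul : ∀ (a : O) (x : T), f (a ⊗ₜ x) = a • ΘV x := by
    intro a x
    have : f (a ⊗ₜ x) = Algebra.ofId O (Module.End O V) a * ΘV.toIntAlgHom x :=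
      Algebra.TensorProduct.lift_tmul _ _ _ a x
    rw [this]
    ext v
    simp [Algebra.ofId_apply, Module.algebraMap_end_apply]
  have hfe : ∀ z, f z = e (Θl.lTensor O z) := by
    intro z
    induction z using TensorProduct.induction_on with
    | zero => simp
    | tmul a x =>
      rw [LinearMap.lTensor_tmul, IsBaseChange.equiv_tmul]
      change _ = a • IsBaseChange.endHom hj (Θ x)
      rw [hend, hftmul]
    | add x y hx hy => rw [map_add, map_add, map_add, hx, hy]
  have hf : Function.Injective f := by
    intro z w hzw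
    rw [hfe, hfe] at hzw
    exact Module.Flat.lTensor_preserves_injective_linearMap Θl hΘl (e.injective hzw)
  obtain ⟨v, hv, h⟩ := exists_eigenvector f hf χA
  refine ⟨v, hv, fun x => ?_⟩
  have h1 := h (1 ⊗ₜ x)
  have h2 : χA (1 ⊗ₜ x) = χ x := by
    have : χA (1 ⊗ₜ x) = AlgHom.id O O 1 * χ.toIntAlgHom x :=
      Algebra.TensorProduct.lift_tmul _ _ _ 1 x
    rw [this]
    simp
  rw [hftmul, h2, one_smul] at h1
  exact h1

end Eigen

end Fermat.Agent.ES.Rep
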