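import Mathlib

/-!
# ES / REP : pure linear algebra core

`R` a principal ideal domain with `2 ≠ 0`, `M` a finite free `R`-module with an action `ρ` of a
group `G`, `ε : G →* Rˣ` a character, such that `ρ g + ε g • ρ g⁻¹ = t g • 1` for all `g`, and an
element `c` with `c * c = 1`, `ε c = -1`.  Then there is a free module of rank two with an action
of `G` such that `g` has characteristic polynomial `X ^ 2 - t g X + ε g`, which is as continuous
and as unramified as `ρ` and `ε`.
-/

set_option autoImplicit false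

namespace Fermat.Agent.ES.Rep

open Polynomial

section Sat

variable {R : Type*} [CommRing R] [IsDomain R]
variable {M : Type*} [AddCommGroup M] [Module R M]

/-- Saturation of a submodule. -/
def sat (P : Submodule R M) : Submodule R M where
  carrier := {x | ∃ a : R, a ≠ 0 ∧ a • x ∈ P}
  add_mem' := by
    rintro x y ⟨a, ha, hx⟩ ⟨b, hb, hy⟩
    refine ⟨a * b, mul_ne_zero ha hb, ?_⟩
    rw [smul_add, mul_comm a b, mul_smul, mul_comm b a, mul_smul]
    exact P.add_mem (P.smul_mem b hx) (P.smul_mem a hy)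
  zero_mem' := ⟨1, one_ne_zero, by simp⟩
  smul_mem' := by
    rintro r x ⟨a, ha, hx⟩
    exact ⟨a, ha, by rw [smul_comm]; exact P.smul_mem r hx⟩

theorem mem_sat {P : Submodule R M} {x : M} : x ∈ sat P ↔ ∃ a : R, a ≠ 0 ∧ a • x ∈ P := Iff.rfl

theorem le_sat (P : Submodule R M) : P ≤ sat P := fun x hx => ⟨1, one_ne_zero, by simpa using hx⟩

theorem sat_mono {P Q : Submodule R M} (h : P ≤ Q) : sat P ≤ sat Q := by
  rintro x ⟨a, ha, hx⟩
  exact ⟨a, ha, h hx⟩

theorem mem_sat_of_smul_mem {P : Submodule R M} {a : R} (ha : a ≠ 0) {x : M}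
    (hx : a • x ∈ sat P) : x ∈ sat P := by
  obtain ⟨b, hb, h⟩ := hx
  exact ⟨b * a, mul_ne_zero hb ha, by rwa [mul_smul]⟩

theorem sat_le_sat_of_le_sat {P Q : Submodule R M} (h : P ≤ sat Q) : sat P ≤ sat Q := by
  rintro x ⟨a, ha, hx⟩
  exact mem_sat_of_smul_mem ha (h hx)

theorem map_mem_sat {P Q : Submodule R M} (f : M →ₗ[R] M) (h : ∀ x ∈ P, f x ∈ Q) {x : M}
    (hx : x ∈ sat P) : f x ∈ sat Q := by
  obtain ⟨a, ha, hx⟩ := hx
  exact ⟨a, ha, by rw [← map_smul]; exact h _ hx⟩

end Sat

section Mat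

variable {R : Type*} [CommRing R]

theorem cayley_two (A : Matrix (Fin 2) (Fin 2) R) :
    A * A - A.trace • A + A.det • (1 : Matrix (Fin 2) (Fin 2) R) = 0 := by
  ext i j
  fin_cases i <;> fin_cases j <;>
    simp [Matrix.mul_apply, Fin.sum_univ_two, Matrix.trace_fin_two, Matrix.det_fin_two] <;> ring

variable [IsDomain R]

theorem scalar_of_smul_scalar {A : Matrix (Fin 2) (Fin 2) R} {l μ : R} (hl : l ≠ 0)
    (h : l • A = μ • (1 : Matrix (Fin 2) (Fin 2) R)) :
    ∃ l' : R, A = l' • (1 : Matrix (Fin 2) (Fin 2) R) := by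
  refine ⟨A 0 0, ?_⟩
  have e01 := congrFun (congrFun h 0) 1
  have e10 := congrFun (congrFun h 1) 0
  have e00 := congrFun (congrFun h 0) 0
  have e11 := congrFun (congrFun h 1) 1
  simp at e01 e10 e00 e11
  have h01 : A 0 1 = 0 := e01.resolve_left hl
  have h10 : A 1 0 = 0 := e10.resolve_left hl
  have h11 : A 1 1 = A 0 0 := by
    apply mul_left_cancel₀ hl
    rw [e11, e00]
  ext i j
  fin_cases i <;> fin_cases j <;> simp [h01, h10, h11]

theorem trace_det_of_quadratic {A : Matrix (Fin 2) (Fin 2) R} {t e : R}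
    (h : A * A - t • A + e • (1 : Matrix (Fin 2) (Fin 2) R) = 0)
    (hns : ¬ ∃ l : R, A = l • (1 : Matrix (Fin 2) (Fin 2) R)) : A.trace = t ∧ A.det = e := by
  have h1 := cayley_two A
  have h2 : (A.trace - t) • A = (A.det - e) • (1 : Matrix (Fin 2) (Fin 2) R) := by
    have : (A.trace - t) • A - (A.det - e) • (1 : Matrix (Fin 2) (Fin 2) R) =
        (A * A - t • A + e • (1 : Matrix (Fin 2) (Fin 2) R)) -
        (A * A - A.trace • A + A.det • (1 : Matrix (Fin 2) (Fin 2) R)) := by
      simp only [sub_smul]; abel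
    rw [h, h1, sub_zero] at this
    exact sub_eq_zero.1 this
  by_cases hu : A.trace - t = 0
  · rw [hu, zero_smul] at h2
    have h3 := congrFun (congrFun h2 0) 0
    simp at h3
    exact ⟨sub_eq_zero.1 hu, sub_eq_zero.1 h3.symm⟩
  · exact absurd (scalar_of_smul_scalar hu h2) hns

/-- matrix version of the rank two statement -/
theorem matrix_rank_two {G : Type*} [Group G] (ρ : G →* Matrix (Fin 2) (Fin 2) R) (ε : G →* Rˣ)
    (t : G → R) (hrel : ∀ g, ρ g + (ε g : R) • ρ g⁻¹ = t g • (1 : Matrix (Fin 2) (Fin 2) R))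
    (c : G) (hc : c * c = 1) (hεc : ε c = -1)
    (hcns : ¬ ∃ l : R, ρ c = l • (1 : Matrix (Fin 2) (Fin 2) R)) (g : G) :
    (ρ g).trace = t g ∧ (ρ g).det = (ε g : R) := by
  have quad : ∀ g, ρ g * ρ g - t g • ρ g + (ε g : R) • (1 : Matrix (Fin 2) (Fin 2) R) = 0 := by
    intro g
    have h := congrArg (· * ρ g) (hrel g)
    simp only [add_mul, smul_mul_assoc, one_mul] at h
    rw [← map_mul ρ g⁻¹ g, inv_mul_cancel, map_one] at h
    rw [← h]
    abel
  by_cases hs : ∃ l : R, ρ g = l • (1 : Matrix (Fin 2) (Fin 2) R)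
  · obtain ⟨l, hl⟩ := hs
    have hl0 : l ≠ 0 := by
      rintro rfl
      have h1 : ρ g * ρ g⁻¹ = 1 := by rw [← map_mul, mul_inv_cancel, map_one]
      rw [hl, zero_smul, zero_mul] at h1
      exact zero_ne_one h1
    have hcg : ρ (c * g) = l • ρ c := by
      rw [map_mul, hl, Matrix.mul_smul, mul_one]
    have hcgns : ¬ ∃ l' : R, ρ (c * g) = l' • (1 : Matrix (Fin 2) (Fin 2) R) := by
      rintro ⟨μ, hμ⟩
      rw [hcg] at hμ
      exact hcns (scalar_of_smul_scalar hl0 hμ)
    have h1 := (trace_det_of_quadratic (quad (c * g)) hcgns).2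
    have hcq : ρ c * ρ c - (0 : R) • ρ c + (-1 : R) • (1 : Matrix (Fin 2) (Fin 2) R) = 0 := by
      rw [← map_mul, hc, map_one]; simp
    have h2 := (trace_det_of_quadratic hcq hcns).2
    rw [hcg, Matrix.det_smul, h2, map_mul, hεc] at h1
    simp at h1
    have h3 := congrFun (congrFun (quad g) 0) 0
    rw [hl] at h3
    simp at h3
    have hdet : l ^ 2 = (ε g : R) := h1
    have htr : t g = 2 * l := by
      apply mul_right_cancel₀ hl0
      linear_combination (-1 : R) * h3 - hdet
    rw [hl]
    constructor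
    · simp [htr]; ring
    · simp [← hdet]
  · exact trace_det_of_quadratic (quad g) hs
end Mat

section Core

variable {R : Type} [CommRing R] [IsDomain R] [IsPrincipalIdealRing R]
variable {M : Type} [AddCommGroup M] [Module R M] [Module.Free R M] [Module.Finite R M]
variable {G : Type*} [Group G] (ρ : G →* Module.End R M) (ε : G →* Rˣ) (t : G → R)

/-- The span of the orbit of `w`. -/
def orb (w : M) : Submodule R M := Submodule.span R (Set.range fun g => ρ g w)

theorem self_mem_orb (w : M) : w ∈ orb ρ w :=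
  Submodule.subset_span ⟨1, by simp⟩

theorem map_mem_orb (h : G) {w x : M} (hx : x ∈ orb ρ w) : ρ h x ∈ orb ρ w := by
  induction hx using Submodule.span_induction with
  | mem x hx =>
    obtain ⟨g, rfl⟩ := hx
    exact Submodule.subset_span ⟨h * g, by simp [map_mul]⟩
  | zero => simp
  | add x y _ _ hx hy => rw [map_add]; exact Submodule.add_mem _ hx hy
  | smul a x _ hx => rw [map_smul]; exact Submodule.smul_mem _ a hx

theorem map_mem_sat_orb (h : G) {w x : M} (hx : x ∈ sat (orb ρ w)) : ρ h x ∈ sat (orb ρ w) :=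
  map_mem_sat (ρ h) (fun _ hy => map_mem_orb ρ h hy) hx

variable {ρ ε t}

theorem key_rel (hrel : ∀ g, ρ g + (ε g : R) • ρ g⁻¹ = t g • 1) {c : G} (hc : c * c = 1)
    (hεc : ε c = -1) (g : G) :
    ρ c * ρ g + ρ g * ρ c = t g • ρ c + t (c * g) • 1 := by
  have hcinv : c⁻¹ = c := inv_eq_of_mul_eq_one_left hc
  have h1 := hrel (c * g)
  rw [mul_inv_rev, hcinv, map_mul, map_mul, map_mul, hεc] at h1
  have h2 : (ε g : R) • ρ g⁻¹ = t g • 1 - ρ g := by rw [← hrel g]; abel
  have h3 : (ε g : R) • (ρ g⁻¹ * ρ c) = t g • ρ c - ρ g * ρ c := by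
    rw [← smul_mul_assoc, h2, sub_mul, smul_mul_assoc, one_mul]
  have h4 : (((-1 * ε g : Rˣ) : R)) • (ρ g⁻¹ * ρ c) = - (t g • ρ c - ρ g * ρ c) := by
    rw [← h3]; simp
  rw [h4] at h1
  rw [← h1]
  abel

theorem key_apply (hrel : ∀ g, ρ g + (ε g : R) • ρ g⁻¹ = t g • 1) {c : G} (hc : c * c = 1)
    (hεc : ε c = -1) {w : M} {s : R} (hw : ρ c w = s • w) (g : G) :
    ρ c (ρ g w) + s • ρ g w = (s * t g + t (c * g)) • w := by
  have h := congrArg (fun f : Module.End R M => f w) (key_rel hrel hc hεc g)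
  simp only [LinearMap.add_apply, Module.End.mul_apply, LinearMap.smul_apply,
    Module.End.one_apply, hw, map_smul] at h
  rw [h, add_smul, mul_smul, smul_comm]

theorem add_smul_mem_sat (hrel : ∀ g, ρ g + (ε g : R) • ρ g⁻¹ = t g • 1) {c : G} (hc : c * c = 1)
    (hεc : ε c = -1) {w : M} {s : R} (hw : ρ c w = s • w) {x : M} (hx : x ∈ sat (orb ρ w)) :
    ρ c x + s • x ∈ sat (Submodule.span R {w}) := by
  have key : ∀ x ∈ orb ρ w, (ρ c + s • (1 : Module.End R M)) x ∈ Submodule.span R {w} := by
    intro x hx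
    induction hx using Submodule.span_induction with
    | mem x hx =>
      obtain ⟨g, rfl⟩ := hx
      simp only [LinearMap.add_apply, LinearMap.smul_apply, Module.End.one_apply]
      rw [key_apply hrel hc hεc hw g]
      exact Submodule.smul_mem _ _ (Submodule.mem_span_singleton_self w)
    | zero => simp
    | add x y _ _ hx hy => rw [map_add]; exact Submodule.add_mem _ hx hy
    | smul a x _ hx => rw [map_smul]; exact Submodule.smul_mem _ a hx
  exact map_mem_sat (ρ c + s • (1 : Module.End R M)) key hx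

omit [IsPrincipalIdealRing R] [Module.Finite R M] in
theorem exists_coord_ne_zero {w : M} (hw : w ≠ 0) : ∃ φ : M →ₗ[R] R, φ w ≠ 0 := by
  let b := Module.Free.chooseBasis R M
  by_contra h
  push_neg at h
  apply hw
  apply b.repr.injective
  ext i
  simpa using h (b.coord i)

omit [IsPrincipalIdealRing R] [Module.Finite R M] in
theorem eq_zero_of_mem_sat_span {w : M} {φ : M →ₗ[R] R} (hφ : φ w ≠ 0) {x : M}
    (hx : x ∈ sat (Submodule.span R {w})) (h0 : φ x = 0) : x = 0 := by
  obtain ⟨a, ha, hax⟩ := hx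
  obtain ⟨b, hb⟩ := Submodule.mem_span_singleton.1 hax
  have h1 : b * φ w = 0 := by
    have := congrArg φ hb
    rw [map_smul, map_smul, h0, smul_zero, smul_eq_mul] at this
    exact this
  have hb0 : b = 0 := (mul_eq_zero.1 h1).resolve_right hφ
  rw [hb0, zero_smul] at hb
  exact (smul_eq_zero.1 hb.symm).resolve_left ha

theorem finrank_le_one_of_le_sat_span {w : M} (hw : w ≠ 0) {W : Submodule R M}
    (hW : W ≤ sat (Submodule.span R {w})) : Module.finrank R W ≤ 1 := by
  obtain ⟨φ, hφ⟩ := exists_coord_ne_zero (R := R) hw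
  have hinj : Function.Injective (φ.comp W.subtype) := by
    rw [injective_iff_map_eq_zero]
    intro x hx
    exact Subtype.ext (eq_zero_of_mem_sat_span hφ (hW x.2) hx)
  have := LinearMap.finrank_le_finrank_of_injective hinj
  rwa [Module.finrank_self] at this

/-- The stable submodule of rank one or two. -/
theorem exists_stable (h2 : (2 : R) ≠ 0) [Nontrivial M]
    (hrel : ∀ g, ρ g + (ε g : R) • ρ g⁻¹ = t g • 1) {c : G} (hc : c * c = 1) (hεc : ε c = -1) :
    ∃ W : Submodule R M, (∀ g, ∀ x ∈ W, ρ g x ∈ W) ∧ (∀ a : R, a ≠ 0 → ∀ x, a • x ∈ W → x ∈ W) ∧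
      (Module.finrank R W = 1 ∨
        (Module.finrank R W = 2 ∧ ¬ ∃ l : R, ∀ x ∈ W, ρ c x = l • x)) := by
  have hcc : ∀ x, ρ c (ρ c x) = x := by
    intro x
    rw [← Module.End.mul_apply, ← map_mul, hc, map_one, Module.End.one_apply]
  obtain ⟨v, hv⟩ := exists_ne (0 : M)
  obtain ⟨w, s, hw0, hs, hcw⟩ : ∃ (w : M) (s : R), w ≠ 0 ∧ s * s = 1 ∧ ρ c w = s • w := by
    by_cases h : ρ c v + v = 0
    · exact ⟨v, -1, hv, by ring, by rw [neg_one_smul]; exact eq_neg_of_add_eq_zero_left h⟩
    · exact ⟨ρ c v + v, 1, h, by ring, by rw [map_add, hcc, one_smul, add_comm]⟩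
  have hs0 : s ≠ 0 := by rintro rfl; simp at hs
  have h2s : 2 * s ≠ 0 := mul_ne_zero h2 hs0
  by_cases hA : ∀ x ∈ sat (orb ρ w), ρ c x = s • x
  · refine ⟨sat (orb ρ w), fun g x hx => map_mem_sat_orb ρ g hx,
      fun a ha x hx => mem_sat_of_smul_mem ha hx, Or.inl ?_⟩
    have hle : sat (orb ρ w) ≤ sat (Submodule.span R {w}) := by
      intro x hx
      have h1 := add_smul_mem_sat hrel hc hεc hcw hx
      rw [hA x hx, ← add_smul, ← two_mul] at h1
      exact mem_sat_of_smul_mem h2s h1
    have h1 := finrank_le_one_of_le_sat_span hw0 hle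
    haveI : Nontrivial (sat (orb ρ w)) :=
      ⟨⟨⟨w, le_sat _ (self_mem_orb ρ w)⟩, 0, fun h => hw0 (congrArg Subtype.val h)⟩⟩
    have h3 : 0 < Module.finrank R (sat (orb ρ w)) := Module.finrank_pos
    omega
  · push_neg at hA
    obtain ⟨x, hx, hxne⟩ := hA
    set w' := ρ c x - s • x with hw'
    have hw'0 : w' ≠ 0 := sub_ne_zero.2 hxne
    have hw'mem : w' ∈ sat (orb ρ w) :=
      Submodule.sub_mem _ (map_mem_sat_orb ρ c hx) (Submodule.smul_mem _ s hx)
    have hcw' : ρ c w' = (-s) • w' := by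
      rw [hw', map_sub, hcc, map_smul, smul_sub, smul_smul, neg_mul, hs]
      simp only [neg_smul, one_smul]
      abel
    have hle : sat (orb ρ w') ≤ sat (orb ρ w) := by
      apply sat_le_sat_of_le_sat
      apply Submodule.span_le.2
      rintro _ ⟨g, rfl⟩
      exact map_mem_sat_orb ρ g hw'mem
    obtain ⟨φ, hφ⟩ := exists_coord_ne_zero (R := R) hw0
    obtain ⟨φ', hφ'⟩ := exists_coord_ne_zero (R := R) hw'0
    have hinj : Function.Injective
        (((φ.comp (ρ c + s • (1 : Module.End R M))).prod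
          (φ'.comp (ρ c + (-s) • (1 : Module.End R M)))).comp (sat (orb ρ w')).subtype) := by
      rw [injective_iff_map_eq_zero]
      intro y hy
      have hy1 : φ (ρ c y + s • (y : M)) = 0 := congrArg Prod.fst hy
      have hy2 : φ' (ρ c y + (-s) • (y : M)) = 0 := congrArg Prod.snd hy
      have e1 := eq_zero_of_mem_sat_span hφ (add_smul_mem_sat hrel hc hεc hcw (hle y.2)) hy1
      have e2 := eq_zero_of_mem_sat_span hφ' (add_smul_mem_sat hrel hc hεc hcw' y.2) hy2
      have e3 : (2 * s) • (y : M) = 0 := by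
        have : (2 * s) • (y : M) = (ρ c y + s • (y : M)) - (ρ c y + (-s) • (y : M)) := by
          rw [two_mul, add_smul, neg_smul]; abel
        rw [this, e1, e2, sub_zero]
      exact Subtype.ext ((smul_eq_zero.1 e3).resolve_left h2s)
    have h1 := LinearMap.finrank_le_finrank_of_injective hinj
    rw [Module.finrank_prod, Module.finrank_self] at h1
    haveI : Nontrivial (sat (orb ρ w')) :=
      ⟨⟨⟨w', le_sat _ (self_mem_orb ρ w')⟩, 0, fun h => hw'0 (congrArg Subtype.val h)⟩⟩
    have h3 : 0 < Module.finrank R (sat (orb ρ w')) := Module.finrank_pos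
    refine ⟨sat (orb ρ w'), fun g x hx => map_mem_sat_orb ρ g hx,
      fun a ha x hx => mem_sat_of_smul_mem ha hx, ?_⟩
    by_cases h4 : Module.finrank R (sat (orb ρ w')) = 1
    · exact Or.inl h4
    · refine Or.inr ⟨by omega, ?_⟩
      rintro ⟨l, hl⟩
      have hl' : l = -s := by
        have := hl w' (le_sat _ (self_mem_orb ρ w'))
        rw [hcw'] at this
        exact (smul_left_injective R hw'0 this).symm
      have hle' : sat (orb ρ w') ≤ sat (Submodule.span R {w'}) := by
        intro y hy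
        have h5 := add_smul_mem_sat hrel hc hεc hcw' hy
        rw [hl y hy, hl', ← add_smul, ← two_mul] at h5
        exact mem_sat_of_smul_mem (mul_ne_zero h2 (neg_ne_zero.2 hs0)) h5
      have := finrank_le_one_of_le_sat_span hw'0 hle'
      omega

/-- restriction of the action to a stable submodule -/
def restr (ρ : G →* Module.End R M) (W : Submodule R M) (hst : ∀ g, ∀ x ∈ W, ρ g x ∈ W) :
    G →* Module.End R W where
  toFun g := (ρ g).restrict (hst g)
  map_one' := by ext x; simp
  map_mul' g h := by ext x; simp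

theorem restr_apply (W : Submodule R M) (hst : ∀ g, ∀ x ∈ W, ρ g x ∈ W) (g : G) (x : W) :
    ((restr ρ W hst g x : W) : M) = ρ g x := rfl

theorem restr_rel (hrel : ∀ g, ρ g + (ε g : R) • ρ g⁻¹ = t g • 1)
    (W : Submodule R M) (hst : ∀ g, ∀ x ∈ W, ρ g x ∈ W) (g : G) :
    restr ρ W hst g + (ε g : R) • restr ρ W hst g⁻¹ = t g • 1 := by
  ext x
  have h := congrArg (fun f : Module.End R M => f x) (hrel g)
  simpa [restr_apply] using h

theorem coord_mem (W : Submodule R M) (hst : ∀ g, ∀ x ∈ W, ρ g x ∈ W)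
    (hsat : ∀ a : R, a ≠ 0 → ∀ x, a • x ∈ W → x ∈ W) (I : Ideal R) (g : G)
    (h : ∀ v : M, ρ g v - v ∈ I • (⊤ : Submodule R M)) (φ : W →ₗ[R] R) (x : W) :
    φ (restr ρ W hst g x - x) ∈ I := by
  obtain ⟨a, rfl⟩ : ∃ a, I = Ideal.span {a} := (IsPrincipalIdealRing.principal I).principal
  have hx := h x
  rw [Submodule.ideal_span_singleton_smul, Submodule.mem_smul_pointwise_iff_exists] at hx
  obtain ⟨y, -, hy⟩ := hx
  by_cases ha : a = 0
  · subst ha
    rw [zero_smul] at hy
    have : restr ρ W hst g x - x = 0 := Subtype.ext (by simpa [restr_apply] using hy.symm)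
    rw [this, map_zero]
    exact zero_mem _
  · have hyW : y ∈ W := by
      apply hsat a ha
      rw [hy]
      exact W.sub_mem (hst g x x.2) x.2
    have : restr ρ W hst g x - x = a • (⟨y, hyW⟩ : W) :=
      Subtype.ext (by simpa [restr_apply] using hy.symm)
    rw [this, map_smul, smul_eq_mul]
    exact Ideal.mul_mem_right _ _ (Ideal.mem_span_singleton_self a)

omit [IsDomain R] [IsPrincipalIdealRing R] in
theorem end_rank_one {W : Type} [AddCommGroup W] [Module R W] (b : Module.Basis (Fin 1) R W)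
    (f : Module.End R W) (x : W) : f x = (b.coord 0 (f (b 0))) • x := by
  have key : ∀ y : W, y = b.coord 0 y • b 0 := by
    intro y
    conv_lhs => rw [← b.sum_repr y]
    simp
  rw [key x, map_smul, smul_comm]
  congr 1
  exact key _

/-- **Main theorem of the algebraic core.** -/
theorem exists_matrix_rep (h2 : (2 : R) ≠ 0) [Nontrivial M]
    (hrel : ∀ g, ρ g + (ε g : R) • ρ g⁻¹ = t g • 1) {c : G} (hc : c * c = 1) (hεc : ε c = -1) :
    ∃ A : G →* Matrix (Fin 2) (Fin 2) R,
      (∀ g, (A g).trace = t g ∧ (A g).det = (ε g : R)) ∧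
      (∀ (I : Ideal R) (g : G), (∀ v : M, ρ g v - v ∈ I • (⊤ : Submodule R M)) →
        (ε g : R) - 1 ∈ I → ∀ i j, (A g - 1) i j ∈ I) := by
  obtain ⟨W, hst, hsat, hrk⟩ := exists_stable h2 hrel hc hεc
  rcases hrk with hrk | ⟨hrk, hcns⟩
  · -- rank one
    let b : Module.Basis (Fin 1) R W := Module.finBasisOfFinrankEq R W hrk
    have hb0 : b 0 ≠ 0 := b.ne_zero 0
    let ψ : G →* R :=
      { toFun := fun g => b.coord 0 (restr ρ W hst g (b 0))
        map_one' := by simp
        map_mul' := by
          intro g h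
          have h1 := end_rank_one b (restr ρ W hst h) (b 0)
          rw [map_mul, Module.End.mul_apply]
          conv_lhs => rw [h1]
          rw [map_smul, map_smul, smul_eq_mul, mul_comm] }
    have hψ : ∀ g x, restr ρ W hst g x = ψ g • x := fun g x => end_rank_one b _ x
    have hψinv : ∀ g, ψ g * ψ g⁻¹ = 1 := by
      intro g; rw [← map_mul, mul_inv_cancel, map_one]
    let A : G →* Matrix (Fin 2) (Fin 2) R :=
      { toFun := fun g => Matrix.diagonal ![ψ g, (ε g : R) * ψ g⁻¹]
        map_one' := by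
          ext i j
          fin_cases i <;> fin_cases j <;> simp
        map_mul' := by
          intro g h
          rw [Matrix.diagonal_mul_diagonal]
          congr 1
          ext i
          fin_cases i
          · simp
          · simp only [mul_inv_rev, map_mul, Units.val_mul]
            simp
            ring }
    have hA : ∀ g, A g = Matrix.diagonal ![ψ g, (ε g : R) * ψ g⁻¹] := fun g => rfl
    refine ⟨A, fun g => ⟨?_, ?_⟩, ?_⟩
    · rw [hA, Matrix.trace_fin_two]
      simp only [Matrix.diagonal_apply_eq, Matrix.cons_val_zero, Matrix.cons_val_one]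
      have h := congrArg (fun f : Module.End R W => f (b 0)) (restr_rel hrel W hst g)
      simp only [LinearMap.add_apply, LinearMap.smul_apply, Module.End.one_apply, hψ, smul_smul,
        ← add_smul] at h
      exact smul_left_injective R hb0 h
    · rw [hA, Matrix.det_fin_two]
      simp only [Matrix.diagonal_apply_eq, Matrix.cons_val_zero, Matrix.cons_val_one]
      simp
      rw [mul_left_comm, hψinv, mul_one]
    · intro I g hg hεg i j
      have h1 : ψ g - 1 ∈ I := by
        have := coord_mem W hst hsat I g hg (b.coord 0) (b 0)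
        rw [map_sub] at this
        have h0 : b.coord 0 (b 0) = 1 := by simp
        rw [h0] at this
        exact this
      have h3 : ψ g⁻¹ - 1 ∈ I := by
        have : ψ g⁻¹ - 1 = - ψ g⁻¹ * (ψ g - 1) := by
          linear_combination (1 : R) * hψinv g
        rw [this]
        exact Ideal.mul_mem_left _ _ h1
      have h4 : (ε g : R) * ψ g⁻¹ - 1 ∈ I := by
        have : (ε g : R) * ψ g⁻¹ - 1 = (ε g : R) * (ψ g⁻¹ - 1) + ((ε g : R) - 1) := by ring
        rw [this]
        exact I.add_mem (Ideal.mul_mem_left _ _ h3) hεg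
      rw [hA]
      fin_cases i <;> fin_cases j <;> simp [h1, h4]
  · -- rank two
    let b : Module.Basis (Fin 2) R W := Module.finBasisOfFinrankEq R W hrk
    let e := LinearMap.toMatrixAlgEquiv b
    let A : G →* Matrix (Fin 2) (Fin 2) R := (e : Module.End R W →* _).comp (restr ρ W hst)
    have hA : ∀ g, A g = e (restr ρ W hst g) := fun g => rfl
    refine ⟨A, fun g => ?_, ?_⟩
    · apply matrix_rank_two A ε t _ c hc hεc
      · rintro ⟨l, hl⟩
        apply hcns
        refine ⟨l, fun x hx => ?_⟩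
        have h1 : restr ρ W hst c = l • 1 := by
          apply e.injective
          rw [map_smul, map_one, ← hA, hl]
        have h3 := congrArg (fun f : Module.End R W => ((f ⟨x, hx⟩ : W) : M)) h1
        simpa [restr_apply] using h3
      · intro g
        have h := congrArg e (restr_rel hrel W hst g)
        rw [map_add, map_smul, map_smul, map_one] at h
        exact h
    · intro I g hg _ i j
      have := coord_mem W hst hsat I g hg (b.coord i) (b j)
      rw [hA, Matrix.sub_apply]
      have h1 : e (restr ρ W hst g) i j = b.coord i (restr ρ W hst g (b j)) := by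
        simp [e, LinearMap.toMatrixAlgEquiv_apply]
      have h3 : (1 : Matrix (Fin 2) (Fin 2) R) i j = b.coord i (b j) := by
        simp [Matrix.one_apply, Finsupp.single_apply, eq_comm]
      rw [h1, h3, ← map_sub]
      exact this

end Core

end Fermat.Agent.ES.Rep
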