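import Fermat.Agent.ES.RepAdic
import Fermat.Agent.ES.RepCore
import Fermat.Agent.ES.RepEigen
import Fermat.Agent.ES.RepInterface

/-!
# ES / REP : `S30` from `Stmt_ES` and Frobenius density
-/

set_option autoImplicit false

namespace Fermat.Agent.ES.Rep

open TensorProduct Polynomial

section Padic

variable (p : ℕ) [Fact p.Prime] {𝒪 : Type*} [CommRing 𝒪] (I : Ideal 𝒪)

theorem natCast_pow_quot_eq_zero (hp : (p : 𝒪) ∈ I) (n : ℕ) : ((p ^ n : ℕ) : 𝒪 ⧸ I ^ n) = 0 := by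
  rw [← map_natCast (Ideal.Quotient.mk (I ^ n)), Nat.cast_pow]
  exact Ideal.Quotient.eq_zero_iff_mem.2 (Ideal.pow_mem_pow hp n)

/-- `ℤ / p ^ n → 𝒪 / I ^ n`. -/
noncomputable def zmodToQuot (hp : (p : 𝒪) ∈ I) (n : ℕ) : ZMod (p ^ n) →+* 𝒪 ⧸ I ^ n :=
  ZMod.castHom (ringChar.dvd (natCast_pow_quot_eq_zero p I hp n)) (𝒪 ⧸ I ^ n)

/-- The canonical ring homomorphism from `ℤ_[p]` to an `I`-adically complete ring with `p ∈ I`. -/
noncomputable def padicToComplete [IsAdicComplete I 𝒪] (hp : (p : 𝒪) ∈ I) : ℤ_[p] →+* 𝒪 :=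
  IsAdicComplete.liftRingHom I (fun n => (zmodToQuot p I hp n).comp (PadicInt.toZModPow n))
    (by
      intro m n hle
      rw [← PadicInt.zmod_cast_comp_toZModPow m n hle, ← RingHom.comp_assoc, ← RingHom.comp_assoc]
      congr 1
      exact RingHom.ext_zmod _ _)

end Padic

section EigenSub

variable {R : Type} [CommRing R] [IsDomain R] [IsPrincipalIdealRing R]
variable {M : Type} [AddCommGroup M] [Module R M] [Module.Free R M] [Module.Finite R M]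
variable {T : Type*}

theorem free_sub (W : Submodule R M) : Module.Free R W := inferInstance

theorem finite_sub (W : Submodule R M) : Module.Finite R W := inferInstance

/-- The common eigenspace. -/
def eigenSub (Θ : T → Module.End R M) (χ : T → R) : Submodule R M :=
  ⨅ x, LinearMap.ker (Θ x - χ x • (1 : Module.End R M))

omit [IsDomain R] [IsPrincipalIdealRing R] [Module.Free R M] [Module.Finite R M] in
theorem mem_eigenSub {Θ : T → Module.End R M} {χ : T → R} {v : M} :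
    v ∈ eigenSub Θ χ ↔ ∀ x, Θ x v = χ x • v := by
  simp [eigenSub, Submodule.mem_iInf, sub_eq_zero]

omit [IsDomain R] [IsPrincipalIdealRing R] [Module.Free R M] [Module.Finite R M] in
theorem eigenSub_stable {Θ : T → Module.End R M} {χ : T → R} (f : Module.End R M)
    (hf : ∀ x, f * Θ x = Θ x * f) {v : M} (hv : v ∈ eigenSub Θ χ) : f v ∈ eigenSub Θ χ := by
  rw [mem_eigenSub] at hv ⊢
  intro x
  rw [← Module.End.mul_apply, ← hf, Module.End.mul_apply, hv, map_smul]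

omit [IsPrincipalIdealRing R] [Module.Finite R M] in
theorem eigenSub_saturated {Θ : T → Module.End R M} {χ : T → R} (a : R) (ha : a ≠ 0) (v : M)
    (hv : a • v ∈ eigenSub Θ χ) : v ∈ eigenSub Θ χ := by
  rw [mem_eigenSub] at hv ⊢
  intro x
  have := hv x
  rw [map_smul, smul_comm] at this
  exact smul_right_injective M ha this

variable {G : Type*} [Group G] {ρ : G →* Module.End R M}

theorem restr_sub_mem (W : Submodule R M) (hst : ∀ g, ∀ x ∈ W, ρ g x ∈ W)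
    (hsat : ∀ a : R, a ≠ 0 → ∀ x, a • x ∈ W → x ∈ W) (I : Ideal R) (g : G)
    (h : ∀ v : M, ρ g v - v ∈ I • (⊤ : Submodule R M)) (x : W) :
    restr ρ W hst g x - x ∈ I • (⊤ : Submodule R W) := by
  obtain ⟨a, rfl⟩ : ∃ a, I = Ideal.span {a} := (IsPrincipalIdealRing.principal I).principal
  have hx := h x
  rw [Submodule.ideal_span_singleton_smul, Submodule.mem_smul_pointwise_iff_exists] at hx
  obtain ⟨y, -, hy⟩ := hx
  by_cases ha : a = 0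
  · subst ha
    rw [zero_smul] at hy
    have : restr ρ W hst g x - x = 0 := Subtype.ext (by simpa [restr_apply] using hy.symm)
    rw [this]
    exact zero_mem _
  · have hyW : y ∈ W := by
      apply hsat a ha
      rw [hy]
      exact W.sub_mem (hst g x x.2) x.2
    have : restr ρ W hst g x - x = a • (⟨y, hyW⟩ : W) :=
      Subtype.ext (by simpa [restr_apply] using hy.symm)
    rw [this]
    exact Submodule.smul_mem_smul (Ideal.mem_span_singleton_self a) Submodule.mem_top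

end EigenSub

section Main

local notation "Qb" => AlgebraicClosure ℚ

theorem natCast_smul_one {R A : Type*} [CommRing R] [Ring A] [Algebra R A] (n : ℕ) :
    (n : R) • (1 : A) = (n : A) := by
  rw [Nat.cast_smul_eq_nsmul, nsmul_eq_mul, mul_one]

theorem exists_rep_of_ESModule (hFD : Fermat.Agent.FD.Stmt_FD)
    (p : ℕ) [Fact p.Prime] (N : ℕ) [NeZero N] (S : Finset ℕ)
    (hpS : p ∈ S) (hNS : ∀ q : ℕ, q.Prime → q ∣ N → q ∈ S)
    (E : ESModule p N (↑S : Set ℕ))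
    (𝒪' : Type) [CommRing 𝒪'] [IsDomain 𝒪'] [IsDiscreteValuationRing 𝒪']
    [IsAdicComplete (IsLocalRing.maximalIdeal 𝒪') 𝒪'] [CharZero 𝒪']
    (hp : (p : 𝒪') ∈ IsLocalRing.maximalIdeal 𝒪')
    (χ : CuspForm.heckeAlgebra N 2 (↑S : Set ℕ) →+* 𝒪') :
    ∃ r : GaloisRepAdic 𝒪',
      (∀ (ℓ : ℕ) (hℓ : ℓ.Prime) (hℓN : ¬ ℓ ∣ N) (hℓS : ℓ ∉ (↑S : Set ℕ)),
        ∀ A : ValuationSubring Qb, A.LiesOverPrime ℓ →
          ∀ σ : GQ, A.IsFrobeniusAt σ ℓ →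
            LinearMap.charpoly (r.ρ σ) =
              X ^ 2 - C (χ (CuspForm.heckeAlgebra.T hℓ hℓN hℓS)) * X + C ((ℓ : 𝒪'))) ∧
      (∀ q : ℕ, q.Prime → ¬ q ∣ N → q ≠ p → r.IsUnramifiedAt q) := by
  classical
  let φ : ℤ_[p] →+* 𝒪' := padicToComplete p (IsLocalRing.maximalIdeal 𝒪') hp
  letI : Algebra ℤ_[p] 𝒪' := φ.toAlgebra
  haveI : Module.Free ℤ_[p] E.Λ := E.isBaseChange.free
  haveI : Module.Finite ℤ_[p] E.Λ := Module.Finite.equiv E.isBaseChange.equiv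
  let bc : Module.End ℤ_[p] E.Λ →ₐ[ℤ_[p]] Module.End 𝒪' (𝒪' ⊗[ℤ_[p]] E.Λ) :=
    Module.End.baseChangeHom ℤ_[p] 𝒪' E.Λ
  have hbc : ∀ (f : Module.End ℤ_[p] E.Λ) (a : 𝒪') (v : E.Λ), bc f (a ⊗ₜ v) = a ⊗ₜ f v :=
    fun f a v => LinearMap.baseChange_tmul f a v
  let ΘV : CuspForm.heckeAlgebra N 2 (↑S : Set ℕ) →+* Module.End 𝒪' (𝒪' ⊗[ℤ_[p]] E.Λ) :=
    (bc : Module.End ℤ_[p] E.Λ →+* Module.End 𝒪' (𝒪' ⊗[ℤ_[p]] E.Λ)).comp E.ΘΛ
  let ρV : GQ →* Module.End 𝒪' (𝒪' ⊗[ℤ_[p]] E.Λ) :=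
    (bc : Module.End ℤ_[p] E.Λ →* Module.End 𝒪' (𝒪' ⊗[ℤ_[p]] E.Λ)).comp E.ρ
  have hΘV : ∀ x, ΘV x = bc (E.ΘΛ x) := fun x => rfl
  have hρV : ∀ σ, ρV σ = bc (E.ρ σ) := fun σ => rfl
  let j : E.H →ₗ[ℤ] 𝒪' ⊗[ℤ_[p]] E.Λ :=
    ((TensorProduct.mk ℤ_[p] 𝒪' E.Λ 1).restrictScalars ℤ).comp E.ι
  have hj : IsBaseChange 𝒪' j :=
    IsBaseChange.comp E.isBaseChange (TensorProduct.isBaseChange ℤ_[p] E.Λ 𝒪')
  obtain ⟨v0, hv0, hv0e⟩ := exists_eigenvector_baseChange E.Θ E.Θ_injective j hj ΘV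
    (by
      intro x h
      change bc (E.ΘΛ x) ((1 : 𝒪') ⊗ₜ E.ι h) = (1 : 𝒪') ⊗ₜ E.ι (E.Θ x h)
      rw [hbc, E.ΘΛ_ι]) χ
  let W : Submodule 𝒪' (𝒪' ⊗[ℤ_[p]] E.Λ) := eigenSub (fun x => ΘV x) (fun x => χ x)
  have hst : ∀ g, ∀ x ∈ W, ρV g x ∈ W := by
    intro g x hx
    apply eigenSub_stable (ρV g) _ hx
    intro y
    rw [hρV, hΘV, ← map_mul, ← map_mul, E.comm]
  have hsat : ∀ a : 𝒪', a ≠ 0 → ∀ x, a • x ∈ W → x ∈ W := fun a ha x hx =>
    eigenSub_saturated a ha x hx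
  haveI : Nontrivial W :=
    ⟨⟨⟨v0, mem_eigenSub.2 hv0e⟩, 0, fun h => hv0 (congrArg Subtype.val h)⟩⟩
  haveI : Module.Free 𝒪' (𝒪' ⊗[ℤ_[p]] E.Λ) := inferInstance
  haveI : Module.Finite 𝒪' (𝒪' ⊗[ℤ_[p]] E.Λ) := inferInstance
  haveI : Module.Free 𝒪' W := free_sub W
  haveI : Module.Finite 𝒪' W := finite_sub W
  let a : ℕ → 𝒪' := fun ℓ =>
    if h : ℓ.Prime ∧ ¬ ℓ ∣ N ∧ ℓ ∉ (↑S : Set ℕ) then χ (CuspForm.heckeAlgebra.T h.1 h.2.1 h.2.2)
    else 0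
  have hcontV : ∀ n : ℕ, ∃ L : IntermediateField ℚ Qb, FiniteDimensional ℚ L ∧
      ∀ σ : GQ, (∀ x ∈ L, σ x = x) → ∀ v : 𝒪' ⊗[ℤ_[p]] E.Λ, ρV σ v - v ∈
        (IsLocalRing.maximalIdeal 𝒪' ^ n) • (⊤ : Submodule 𝒪' (𝒪' ⊗[ℤ_[p]] E.Λ)) := by
    intro n
    obtain ⟨L, hL, h⟩ := E.continuous n
    refine ⟨L, hL, fun σ hσ v => ?_⟩
    induction v using TensorProduct.induction_on with
    | zero => simp
    | tmul b v =>
      obtain ⟨w, hw⟩ := h σ hσ v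
      rw [hρV, hbc, ← TensorProduct.tmul_sub, hw, TensorProduct.tmul_smul,
        ← algebraMap_smul 𝒪' ((p : ℤ_[p]) ^ n), map_pow, map_natCast]
      exact Submodule.smul_mem_smul (Ideal.pow_mem_pow hp n) Submodule.mem_top
    | add x y hx hy =>
      rw [map_add, add_sub_add_comm]
      exact Submodule.add_mem _ hx hy
  obtain ⟨r, hr1, hr2⟩ := exists_galoisRepAdic p hFD hp φ W (restr ρV W hst)
    (by
      intro n
      obtain ⟨L, hL, h⟩ := hcontV n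
      exact ⟨L, hL, fun σ hσ v => restr_sub_mem W hst hsat _ σ (h σ hσ) v⟩)
    S hpS a
    (by
      intro ℓ hℓ hℓS A hA σ hσ
      have hℓN : ¬ ℓ ∣ N := fun h => hℓS (hNS ℓ hℓ h)
      have hℓS' : ℓ ∉ (↑S : Set ℕ) := by simpa using hℓS
      have hℓp : ℓ ≠ p := fun h => hℓS (h ▸ hpS)
      have haℓ : a ℓ = χ (CuspForm.heckeAlgebra.T hℓ hℓN hℓS') := dif_pos ⟨hℓ, hℓN, hℓS'⟩
      have h1 := congrArg bc (E.eichlerShimura ℓ hℓ hℓN hℓS' hℓp A hA σ hσ)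
      rw [map_add, map_sub, map_mul, map_mul, natCast_smul_one, map_natCast, map_zero,
        ← hρV, ← hΘV] at h1
      ext w
      have h2 := congrArg (fun f : Module.End 𝒪' (𝒪' ⊗[ℤ_[p]] E.Λ) => f (w : 𝒪' ⊗[ℤ_[p]] E.Λ)) h1
      have h3 : ΘV (CuspForm.heckeAlgebra.T hℓ hℓN hℓS') (ρV σ w) =
          χ (CuspForm.heckeAlgebra.T hℓ hℓN hℓS') • ρV σ w :=
        mem_eigenSub.1 (hst σ w w.2) _
      simp only [LinearMap.add_apply, LinearMap.sub_apply, Module.End.mul_apply, h3,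
        LinearMap.zero_apply] at h2
      rw [haℓ]
      simp only [LinearMap.add_apply, LinearMap.sub_apply, Module.End.mul_apply,
        LinearMap.smul_apply, Module.End.one_apply, LinearMap.zero_apply, Submodule.coe_add,
        Submodule.coe_sub, Submodule.coe_smul, restr_apply, Submodule.coe_zero]
      rw [← h2]
      congr 1
      rw [Nat.cast_smul_eq_nsmul]
      simp)
  refine ⟨r, ?_, ?_⟩
  · intro ℓ hℓ hℓN hℓS A hA σ hσ
    have haℓ : a ℓ = χ (CuspForm.heckeAlgebra.T hℓ hℓN hℓS) := dif_pos ⟨hℓ, hℓN, hℓS⟩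
    rw [hr1 ℓ hℓ (by simpa using hℓS) A hA σ hσ, haℓ]
  · intro q hq hqN hqp P hP σ hσ
    apply hr2 q hq hqp P hP σ hσ
    ext w
    rw [restr_apply, hρV, E.unramified q hq hqN hqp P hP σ hσ, map_one]
    rfl

/-- **`S30` from the Eichler--Shimura module and Frobenius density.** -/
theorem S30_of (hFD : Fermat.Agent.FD.Stmt_FD) (hES : Stmt_ES) :
    ∀ (p : ℕ) [Fact p.Prime] (N : ℕ) [NeZero N] (S : Finset ℕ)
      (_hpS : p ∈ S) (_hNS : ∀ q : ℕ, q.Prime → q ∣ N → q ∈ S)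
      (𝒪' : Type) [CommRing 𝒪'] [IsDomain 𝒪'] [IsDiscreteValuationRing 𝒪']
      [IsAdicComplete (IsLocalRing.maximalIdeal 𝒪') 𝒪'] [Finite (IsLocalRing.ResidueField 𝒪')]
      [CharZero 𝒪'] (_hp𝒪' : (p : 𝒪') ∈ IsLocalRing.maximalIdeal 𝒪')
      (χ : CuspForm.heckeAlgebra N 2 (↑S : Set ℕ) →+* 𝒪'),
      ∃ (𝒪'' : Type) (_ : CommRing 𝒪'') (_ : IsDomain 𝒪'') (_ : IsDiscreteValuationRing 𝒪'')
        (_ : IsAdicComplete (IsLocalRing.maximalIdeal 𝒪'') 𝒪'')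
        (_ : Finite (IsLocalRing.ResidueField 𝒪'')) (_ : CharZero 𝒪'')
        (_ : Algebra 𝒪' 𝒪'') (_ : Module.Finite 𝒪' 𝒪'') (_ : IsLocalHom (algebraMap 𝒪' 𝒪'')),
      Function.Injective (algebraMap 𝒪' 𝒪'') ∧
      ∃ ρ : GaloisRepAdic 𝒪'',
        (∀ (ℓ : ℕ) (hℓ : ℓ.Prime) (hℓN : ¬ ℓ ∣ N) (hℓS : ℓ ∉ (↑S : Set ℕ)),
          ∀ A : ValuationSubring (AlgebraicClosure ℚ), A.LiesOverPrime ℓ →
            ∀ σ : AlgebraicClosure ℚ ≃ₐ[ℚ] AlgebraicClosure ℚ, A.IsFrobeniusAt σ ℓ →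
              LinearMap.charpoly (ρ.ρ σ) =
                X ^ 2 - C (algebraMap 𝒪' 𝒪'' (χ (CuspForm.heckeAlgebra.T hℓ hℓN hℓS))) * X
                  + C ((ℓ : 𝒪''))) ∧
        (∀ q : ℕ, q.Prime → ¬ q ∣ N → q ≠ p → ρ.IsUnramifiedAt q) := by
  intro p _ N _ S hpS hNS 𝒪' _ _ _ _ _ _ hp χ
  obtain ⟨E⟩ := hES p N S hpS hNS
  obtain ⟨r, h1, h2⟩ := exists_rep_of_ESModule hFD p N S hpS hNS E 𝒪' hp χ
  exact ⟨𝒪', inferInstance, inferInstance, inferInstance, inferInstance, inferInstance,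
    inferInstance, Algebra.id 𝒪', Module.Finite.self _, ⟨fun a ha => ha⟩, Function.injective_id,
    r, h1, h2⟩

end Main

end Fermat.Agent.ES.Rep
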