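import Mathlib

/-!
# Eisenstein series with bounded weights, and with a character of a subgroup of `SL(2,ℤ)`

For a bounded function `a : (Fin 2 → ℤ) → ℂ` and `k ≥ 3` we study
`wE k a z = ∑' v, a v * (v 0 * z + v 1) ^ (-k)`.
As an application, for every subgroup `Γ ≤ SL(2,ℤ)` and every unitary character `χ` of `Γ` which
is trivial on the elements of `Γ` fixing `∞`, and every even `k ≥ 4`, there is a holomorphic
function `F` on `ℍ` with `F ∣[k] γ = χ γ • F`, bounded at all cusps, tending to `1` at `i∞`.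
-/

set_option autoImplicit false

open UpperHalfPlane ModularForm Matrix Matrix.SpecialLinearGroup EisensteinSeries Filter Topology
open scoped MatrixGroups Manifold ModularForm

namespace Fermat.Agent.ES.EisChar

noncomputable section

/-- The weighted Eisenstein series. -/
def wE (k : ℤ) (a : (Fin 2 → ℤ) → ℂ) (z : ℍ) : ℂ :=
  ∑' v : Fin 2 → ℤ, a v * eisSummand k v z

variable {k : ℤ} {a : (Fin 2 → ℤ) → ℂ} {C : ℝ}

lemma summable_wE (hk : 3 ≤ k) (ha : ∀ v, ‖a v‖ ≤ C) (z : ℍ) :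
    Summable fun v => a v * eisSummand k v z := by
  refine Summable.of_norm_bounded ((summable_norm_eisSummand hk z).mul_left C) ?_
  intro v
  rw [norm_mul]
  exact mul_le_mul_of_nonneg_right (ha v) (norm_nonneg _)

/-- Right multiplication by `g ∈ SL(2,ℤ)` as a permutation of `ℤ²`. -/
def vecMulEquiv (g : SL(2, ℤ)) : (Fin 2 → ℤ) ≃ (Fin 2 → ℤ) where
  toFun v := v ᵥ* (g : Matrix (Fin 2) (Fin 2) ℤ)
  invFun v := v ᵥ* ((g⁻¹ : SL(2, ℤ)) : Matrix (Fin 2) (Fin 2) ℤ)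
  left_inv v := by
    show (v ᵥ* (g : Matrix (Fin 2) (Fin 2) ℤ)) ᵥ*
      ((g⁻¹ : SL(2, ℤ)) : Matrix (Fin 2) (Fin 2) ℤ) = v
    rw [vecMul_vecMul, ← Matrix.SpecialLinearGroup.coe_mul, mul_inv_cancel,
      Matrix.SpecialLinearGroup.coe_one, vecMul_one]
  right_inv v := by
    show (v ᵥ* ((g⁻¹ : SL(2, ℤ)) : Matrix (Fin 2) (Fin 2) ℤ)) ᵥ*
      (g : Matrix (Fin 2) (Fin 2) ℤ) = v
    rw [vecMul_vecMul, ← Matrix.SpecialLinearGroup.coe_mul, inv_mul_cancel,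
      Matrix.SpecialLinearGroup.coe_one, vecMul_one]

theorem wE_tendstoLocallyUniformly (hk : 3 ≤ k) (ha : ∀ v, ‖a v‖ ≤ C) :
    TendstoLocallyUniformly (fun (s : Finset (Fin 2 → ℤ)) ↦ (∑ x ∈ s, a x * eisSummand k x ·))
      (wE k a ·) Filter.atTop := by
  have hk' : (2 : ℝ) < k := by norm_cast
  have p_sum : Summable fun x : Fin 2 → ℤ ↦ ‖x‖ ^ (-k : ℝ) := summable_one_div_norm_rpow hk'
  simp only [tendstoLocallyUniformly_iff_forall_isCompact, wE]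
  intro K hK
  obtain ⟨A, B, hB, HABK⟩ := subset_verticalStrip_of_isCompact hK
  refine (tendstoUniformlyOn_tsum
    (hu := (p_sum.mul_left <| r ⟨⟨A, B⟩, hB⟩ ^ (-k : ℝ)).mul_left C)
    (fun p z hz ↦ ?_)).mono HABK
  rw [norm_mul]
  have h1 : ‖eisSummand k p z‖ ≤ r ⟨⟨A, B⟩, hB⟩ ^ (-k : ℝ) * ‖p‖ ^ (-k : ℝ) := by
    simpa only [eisSummand, one_div, ← _root_.zpow_neg, norm_zpow, ← Real.rpow_intCast,
      Int.cast_neg] using summand_bound_of_mem_verticalStrip (by positivity) p hB hz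
  exact mul_le_mul (ha p) h1 (norm_nonneg _) ((norm_nonneg _).trans (ha p))

lemma wE_tendstoLocallyUniformlyOn (hk : 3 ≤ k) (ha : ∀ v, ‖a v‖ ≤ C) :
    TendstoLocallyUniformlyOn (fun (s : Finset (Fin 2 → ℤ)) ↦
      ↑ₕ(fun (z : ℍ) ↦ ∑ x ∈ s, a x * eisSummand k x z)) (↑ₕ(wE k a))
          Filter.atTop {z : ℂ | 0 < z.im} := by
  rw [← upperHalfPlaneSet, ← range_coe, ← Set.image_univ]
  apply TendstoLocallyUniformlyOn.comp (s := ⊤) _ _ _ (OpenPartialHomeomorph.continuousOn_symm _)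
  · simp only [Set.top_eq_univ, tendstoLocallyUniformlyOn_univ]
    apply wE_tendstoLocallyUniformly hk ha
  · simp only [IsOpenEmbedding.toOpenPartialHomeomorph_target, Set.top_eq_univ,
      Set.mapsTo_range_iff, Set.mem_univ, forall_const]

theorem wE_mdifferentiable (hk : 3 ≤ k) (ha : ∀ v, ‖a v‖ ≤ C) : MDiff (wE k a) := by
  intro τ
  suffices DifferentiableAt ℂ (↑ₕ(wE k a)) τ.1 by
    convert!
      MDifferentiableAt.comp τ (DifferentiableAt.mdifferentiableAt this) τ.mdifferentiable_coe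
    exact funext fun z ↦ (comp_ofComplex (wE k a) z).symm
  refine DifferentiableOn.differentiableAt ?_ (isOpen_upperHalfPlaneSet.mem_nhds τ.2)
  refine (wE_tendstoLocallyUniformlyOn hk ha).differentiableOn
    (Eventually.of_forall fun s ↦ ?_) isOpen_upperHalfPlaneSet
  have : (↑ₕ(fun (z : ℍ) ↦ ∑ x ∈ s, a x * eisSummand k x z)) =
      fun w => ∑ x ∈ s, a x * (↑ₕ(eisSummand k x)) w := by
    funext w
    simp [Function.comp]
  rw [this]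
  exact DifferentiableOn.fun_sum
    fun x _ ↦ (eisSummand_extension_differentiableOn k x).const_mul (a x)

/-- The slash action on weighted Eisenstein series. -/
theorem wE_slash (k : ℤ) (a : (Fin 2 → ℤ) → ℂ) (g : SL(2, ℤ)) :
    wE k a ∣[k] g = wE k (fun v => a (v ᵥ* ((g⁻¹ : SL(2, ℤ)) : Matrix (Fin 2) (Fin 2) ℤ))) := by
  funext z
  rw [ModularForm.SL_slash_apply]
  unfold wE
  rw [← tsum_mul_right, ← (vecMulEquiv g).tsum_eq
    (fun v => a (v ᵥ* ((g⁻¹ : SL(2, ℤ)) : Matrix (Fin 2) (Fin 2) ℤ)) * eisSummand k v z)]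
  refine tsum_congr fun v => ?_
  have h1 : (vecMulEquiv g v) ᵥ* ((g⁻¹ : SL(2, ℤ)) : Matrix (Fin 2) (Fin 2) ℤ) = v :=
    (vecMulEquiv g).left_inv v
  rw [h1, eisSummand_SL2_apply]
  have h2 : denom g z ≠ 0 := denom_ne_zero g z
  have h3 : vecMulEquiv g v = v ᵥ* (g : Matrix (Fin 2) (Fin 2) ℤ) := rfl
  rw [h3, _root_.zpow_neg]
  field_simp

/-- The sum of the norms of all the summands. -/
def nE (k : ℤ) (z : ℍ) : ℝ := ∑' v : Fin 2 → ℤ, ‖eisSummand k v z‖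

lemma norm_wE_le (hk : 3 ≤ k) (ha : ∀ v, ‖a v‖ ≤ C) (z : ℍ) : ‖wE k a z‖ ≤ C * nE k z := by
  unfold wE nE
  rw [← tsum_mul_left]
  refine (norm_tsum_le_tsum_norm (summable_wE hk ha z).norm).trans ?_
  refine (summable_wE hk ha z).norm.tsum_le_tsum (fun v => ?_)
    ((summable_norm_eisSummand hk z).mul_left C)
  rw [norm_mul]
  exact mul_le_mul_of_nonneg_right (ha v) (norm_nonneg _)

lemma nE_T_zpow_smul (k : ℤ) (n : ℤ) (z : ℍ) : nE k (ModularGroup.T ^ n • z) = nE k z := by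
  unfold nE
  rw [← (vecMulEquiv (ModularGroup.T ^ n)).tsum_eq (fun v => ‖eisSummand k v z‖)]
  refine tsum_congr fun v => ?_
  rw [eisSummand_SL2_apply, ModularGroup.denom_apply]
  have h3 : vecMulEquiv (ModularGroup.T ^ n) v =
    v ᵥ* ((ModularGroup.T ^ n : SL(2, ℤ)) : Matrix (Fin 2) (Fin 2) ℤ) := rfl
  rw [h3]
  simp [ModularGroup.coe_T_zpow]

/-- A uniform bound for `nE k` on `{im z ≥ 2}`. -/
lemma nE_le (hk : 3 ≤ k) {z : ℍ} (hz : 2 ≤ z.im) :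
    nE k z ≤ ∑' (x : Fin 2 → ℤ), r ⟨⟨1, 2⟩, Nat.ofNat_pos⟩ ^ (-k) * ‖x‖ ^ (-k) := by
  obtain ⟨n, hn⟩ := (ModularGroup_T_zpow_mem_verticalStrip z (Nat.one_pos))
  rw [← nE_T_zpow_smul k ((1 : ℕ) * n) z]
  unfold nE
  have hk' : (2 : ℝ) < k := by norm_cast
  apply (summable_norm_eisSummand hk _).tsum_le_tsum _
  · exact_mod_cast (summable_one_div_norm_rpow hk').mul_left <| r ⟨⟨1, 2⟩, Nat.ofNat_pos⟩ ^ (-k)
  · intro x
    simp_rw [eisSummand, norm_zpow]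
    exact_mod_cast
      summand_bound_of_mem_verticalStrip (lt_trans two_pos hk').le x two_pos
      (verticalStrip_anti_right 1 hz (by exact_mod_cast hn))

theorem wE_isBoundedAtImInfty (hk : 3 ≤ k) (ha : ∀ v, ‖a v‖ ≤ C) :
    IsBoundedAtImInfty (wE k a) := by
  rw [UpperHalfPlane.isBoundedAtImInfty_iff]
  refine ⟨C * ∑' (x : Fin 2 → ℤ), r ⟨⟨1, 2⟩, Nat.ofNat_pos⟩ ^ (-k) * ‖x‖ ^ (-k), 2, ?_⟩
  intro z hz
  refine (norm_wE_le hk ha z).trans ?_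
  exact mul_le_mul_of_nonneg_left (nE_le hk hz) ((norm_nonneg _).trans (ha 0))

theorem wE_slash_isBoundedAtImInfty (hk : 3 ≤ k) (ha : ∀ v, ‖a v‖ ≤ C) (g : SL(2, ℤ)) :
    IsBoundedAtImInfty (wE k a ∣[k] g) := by
  rw [wE_slash]
  exact wE_isBoundedAtImInfty hk (fun v => ha _)

/-- The constant term of a weighted Eisenstein series. -/
def cT (k : ℤ) (a : (Fin 2 → ℤ) → ℂ) : ℂ :=
  ∑' v : Fin 2 → ℤ, if v 0 = 0 then a v * (v 1 : ℂ) ^ (-k) else 0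

lemma norm_eisSummand_le (k : ℤ) (v : Fin 2 → ℤ) (hv : v 0 ≠ 0) (z : ℍ) :
    ‖eisSummand k v z‖ ≤ (z.im)⁻¹ * ‖eisSummand (k - 1) v z‖ := by
  unfold eisSummand
  set w : ℂ := (v 0 : ℂ) * z + v 1 with hw
  have him : w.im = (v 0 : ℝ) * z.im := by
    simp [hw]
  have h1 : z.im ≤ ‖w‖ := by
    refine le_trans ?_ (Complex.abs_im_le_norm w)
    rw [him, abs_mul, abs_of_pos z.im_pos]
    have : (1 : ℝ) ≤ |(v 0 : ℝ)| := by
      have := Int.one_le_abs hv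
      exact_mod_cast this
    nlinarith [z.im_pos]
  have h0 : 0 < ‖w‖ := lt_of_lt_of_le z.im_pos h1
  rw [norm_zpow, norm_zpow, show -k = -1 + -(k - 1) by ring, zpow_add₀ h0.ne', _root_.zpow_neg_one]
  exact mul_le_mul_of_nonneg_right (inv_anti₀ z.im_pos h1) (zpow_nonneg h0.le _)

lemma wE_sub_cT (hk : 3 ≤ k) (ha : ∀ v, ‖a v‖ ≤ C) (z : ℍ) :
    wE k a z - cT k a = ∑' v : Fin 2 → ℤ, if v 0 = 0 then 0 else a v * eisSummand k v z := by
  have h1 : ∀ v : Fin 2 → ℤ, (if v 0 = 0 then a v * (v 1 : ℂ) ^ (-k) else 0) =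
      Set.indicator {v : Fin 2 → ℤ | v 0 = 0} (fun v => a v * eisSummand k v z) v := by
    intro v
    by_cases hv : v 0 = 0
    · simp [Set.indicator, hv, eisSummand]
    · simp [Set.indicator, hv]
  unfold wE cT
  simp_rw [h1]
  rw [← (summable_wE hk ha z).tsum_sub ((summable_wE hk ha z).indicator _)]
  refine tsum_congr fun v => ?_
  by_cases hv : v 0 = 0
  · simp [Set.indicator, hv]
  · simp [Set.indicator, hv]

theorem wE_tendsto (hk : 4 ≤ k) (ha : ∀ v, ‖a v‖ ≤ C) :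
    Tendsto (wE k a) atImInfty (𝓝 (cT k a)) := by
  have hk3 : 3 ≤ k := by omega
  have hk1 : 3 ≤ k - 1 := by omega
  have hC : 0 ≤ C := (norm_nonneg _).trans (ha 0)
  set M : ℝ := ∑' (x : Fin 2 → ℤ), r ⟨⟨1, 2⟩, Nat.ofNat_pos⟩ ^ (-(k - 1)) * ‖x‖ ^ (-(k - 1))
    with hM
  rw [tendsto_iff_norm_sub_tendsto_zero]
  have hlim : Tendsto (fun z : ℍ => C * M * (z.im)⁻¹) atImInfty (𝓝 0) := by
    have : Tendsto (fun z : ℍ => (z.im)⁻¹) atImInfty (𝓝 0) :=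
      tendsto_inv_atTop_zero.comp tendsto_comap
    simpa using this.const_mul (C * M)
  refine squeeze_zero' (Eventually.of_forall fun z => norm_nonneg _) ?_ hlim
  have hev : ∀ᶠ z : ℍ in atImInfty, 2 ≤ z.im :=
    (tendsto_comap (f := UpperHalfPlane.im) (x := atTop)).eventually (eventually_ge_atTop 2)
  filter_upwards [hev] with z hz
  rw [wE_sub_cT hk3 ha z]
  have hsum : Summable fun v : Fin 2 → ℤ => C * ((z.im)⁻¹ * ‖eisSummand (k - 1) v z‖) :=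
    ((summable_norm_eisSummand hk1 z).mul_left _).mul_left C
  have hle : ∀ v : Fin 2 → ℤ, ‖(if v 0 = 0 then 0 else a v * eisSummand k v z : ℂ)‖ ≤
      C * ((z.im)⁻¹ * ‖eisSummand (k - 1) v z‖) := by
    intro v
    by_cases hv : v 0 = 0
    · simp only [hv, if_true, norm_zero]
      have := z.im_pos
      positivity
    · simp only [hv, if_false, norm_mul]
      exact mul_le_mul (ha v) (norm_eisSummand_le k v hv z) (norm_nonneg _) hC
  refine (tsum_of_norm_bounded hsum.hasSum hle).trans ?_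
  rw [tsum_mul_left, tsum_mul_left]
  have h2 := nE_le hk1 hz
  unfold nE at h2
  have h3 : 0 ≤ (z.im)⁻¹ := (inv_pos.mpr z.im_pos).le
  calc C * ((z.im)⁻¹ * ∑' v : Fin 2 → ℤ, ‖eisSummand (k - 1) v z‖)
      ≤ C * ((z.im)⁻¹ * M) := by gcongr
    _ = C * M * (z.im)⁻¹ := by ring

/-! ### The weights attached to a character -/

section character

variable (Γ : Subgroup SL(2, ℤ)) (χ : Γ →* ℂˣ)

open Classical in
/-- The weight function attached to a character `χ` of `Γ`: `χ(γ)⁻¹` on the bottom row of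
`γ ∈ Γ`, and `0` on the vectors which are not bottom rows of elements of `Γ`. -/
def chiW (v : Fin 2 → ℤ) : ℂ :=
  if h : ∃ γ : Γ, ((γ : SL(2, ℤ)) : Matrix (Fin 2) (Fin 2) ℤ) 1 = v then
    (((χ h.choose)⁻¹ : ℂˣ) : ℂ) else 0

variable {Γ χ}

lemma row_mul (δ γ : SL(2, ℤ)) :
    ((δ * γ : SL(2, ℤ)) : Matrix (Fin 2) (Fin 2) ℤ) 1 =
      ((δ : Matrix (Fin 2) (Fin 2) ℤ) 1) ᵥ* (γ : Matrix (Fin 2) (Fin 2) ℤ) := by
  rw [Matrix.SpecialLinearGroup.coe_mul]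
  funext j
  simp [Matrix.mul_apply, Matrix.vecMul, dotProduct]

lemma chi_eq_of_row_eq (hpar : ∀ γ : Γ, (γ : SL(2, ℤ)) 1 0 = 0 → χ γ = 1) (δ γ : Γ)
    (h : ((δ : SL(2, ℤ)) : Matrix (Fin 2) (Fin 2) ℤ) 1 =
      ((γ : SL(2, ℤ)) : Matrix (Fin 2) (Fin 2) ℤ) 1) : χ δ = χ γ := by
  have h0 : ((δ * γ⁻¹ : Γ) : SL(2, ℤ)) 1 0 = 0 := by
    have e0 := congrFun h 0
    have e1 := congrFun h 1
    have : ((δ * γ⁻¹ : Γ) : SL(2, ℤ)) = (δ : SL(2, ℤ)) * (γ : SL(2, ℤ))⁻¹ := rfl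
    rw [this, Matrix.SpecialLinearGroup.coe_mul, Matrix.SpecialLinearGroup.SL2_inv_expl,
      Matrix.mul_apply, Fin.sum_univ_two, e0, e1]
    simp
    ring
  have h1 := hpar _ h0
  rw [map_mul, map_inv, mul_inv_eq_one] at h1
  exact h1

lemma chiW_row (hpar : ∀ γ : Γ, (γ : SL(2, ℤ)) 1 0 = 0 → χ γ = 1) (γ : Γ) :
    chiW Γ χ (((γ : SL(2, ℤ)) : Matrix (Fin 2) (Fin 2) ℤ) 1) = (((χ γ)⁻¹ : ℂˣ) : ℂ) := by
  have h : ∃ δ : Γ, ((δ : SL(2, ℤ)) : Matrix (Fin 2) (Fin 2) ℤ) 1 =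
      ((γ : SL(2, ℤ)) : Matrix (Fin 2) (Fin 2) ℤ) 1 := ⟨γ, rfl⟩
  unfold chiW
  rw [dif_pos h, chi_eq_of_row_eq hpar _ _ h.choose_spec]

lemma chiW_of_not (v : Fin 2 → ℤ)
    (h : ¬ ∃ γ : Γ, ((γ : SL(2, ℤ)) : Matrix (Fin 2) (Fin 2) ℤ) 1 = v) : chiW Γ χ v = 0 := by
  unfold chiW
  rw [dif_neg h]

lemma norm_chiW_le (hχ : ∀ γ, ‖((χ γ : ℂˣ) : ℂ)‖ = 1) (v : Fin 2 → ℤ) : ‖chiW Γ χ v‖ ≤ 1 := by
  unfold chiW
  split_ifs with h
  · rw [Units.val_inv_eq_inv_val, norm_inv, hχ, inv_one]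
  · simp

lemma chiW_vecMul (hpar : ∀ γ : Γ, (γ : SL(2, ℤ)) 1 0 = 0 → χ γ = 1) (γ : Γ) (v : Fin 2 → ℤ) :
    chiW Γ χ (v ᵥ* ((γ : SL(2, ℤ)) : Matrix (Fin 2) (Fin 2) ℤ)) =
      (((χ γ)⁻¹ : ℂˣ) : ℂ) * chiW Γ χ v := by
  by_cases h : ∃ δ : Γ, ((δ : SL(2, ℤ)) : Matrix (Fin 2) (Fin 2) ℤ) 1 = v
  · obtain ⟨δ, rfl⟩ := h
    have : (((δ : SL(2, ℤ)) : Matrix (Fin 2) (Fin 2) ℤ) 1) ᵥ*
        ((γ : SL(2, ℤ)) : Matrix (Fin 2) (Fin 2) ℤ) =
        (((δ * γ : Γ) : SL(2, ℤ)) : Matrix (Fin 2) (Fin 2) ℤ) 1 := (row_mul _ _).symm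
    rw [this, chiW_row hpar, chiW_row hpar, map_mul, mul_inv, Units.val_mul, mul_comm]
  · rw [chiW_of_not v h, mul_zero]
    apply chiW_of_not
    rintro ⟨δ, hδ⟩
    apply h
    refine ⟨δ * γ⁻¹, ?_⟩
    have : (((δ * γ⁻¹ : Γ) : SL(2, ℤ)) : Matrix (Fin 2) (Fin 2) ℤ) 1 =
        (((δ : SL(2, ℤ)) : Matrix (Fin 2) (Fin 2) ℤ) 1) ᵥ*
        (((γ : SL(2, ℤ))⁻¹ : SL(2, ℤ)) : Matrix (Fin 2) (Fin 2) ℤ) := row_mul _ _
    rw [this, hδ]
    exact (vecMulEquiv (γ : SL(2, ℤ))).left_inv v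

/-- The transformation law of the Eisenstein series with character. -/
theorem wE_chiW_slash (hpar : ∀ γ : Γ, (γ : SL(2, ℤ)) 1 0 = 0 → χ γ = 1) (k : ℤ) (γ : Γ) :
    wE k (chiW Γ χ) ∣[k] (γ : SL(2, ℤ)) = ((χ γ : ℂˣ) : ℂ) • wE k (chiW Γ χ) := by
  rw [wE_slash]
  funext z
  have : ∀ v : Fin 2 → ℤ,
      chiW Γ χ (v ᵥ* (((γ : SL(2, ℤ))⁻¹ : SL(2, ℤ)) : Matrix (Fin 2) (Fin 2) ℤ)) =
        ((χ γ : ℂˣ) : ℂ) * chiW Γ χ v := by
    intro v
    have := chiW_vecMul hpar γ⁻¹ v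
    rw [map_inv, inv_inv] at this
    exact this
  simp only [wE, this, Pi.smul_apply, smul_eq_mul, mul_assoc]
  rw [tsum_mul_left]

lemma chiW_of_zero (hpar : ∀ γ : Γ, (γ : SL(2, ℤ)) 1 0 = 0 → χ γ = 1) (v : Fin 2 → ℤ)
    (hv : v 0 = 0) : chiW Γ χ v = 0 ∨ (chiW Γ χ v = 1 ∧ (v 1 = 1 ∨ v 1 = -1)) := by
  by_cases h : ∃ δ : Γ, ((δ : SL(2, ℤ)) : Matrix (Fin 2) (Fin 2) ℤ) 1 = v
  · obtain ⟨δ, rfl⟩ := h
    right
    refine ⟨by rw [chiW_row hpar, hpar δ hv]; simp, ?_⟩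
    have hdet := Matrix.SpecialLinearGroup.det_coe (δ : SL(2, ℤ))
    rw [Matrix.det_fin_two, hv, mul_zero, sub_zero] at hdet
    exact Int.eq_one_or_neg_one_of_mul_eq_one' hdet |>.imp (·.2) (·.2)
  · exact Or.inl (chiW_of_not v h)

lemma chiW_zero_one (hpar : ∀ γ : Γ, (γ : SL(2, ℤ)) 1 0 = 0 → χ γ = 1) :
    chiW Γ χ ![0, 1] = 1 := by
  have h1 : (((1 : Γ) : SL(2, ℤ)) : Matrix (Fin 2) (Fin 2) ℤ) 1 = ![0, 1] := by
    funext j
    fin_cases j <;> simp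
  rw [← h1, chiW_row hpar, map_one]
  simp

/-- The constant term of the Eisenstein series with character is `1` or `2`. -/
theorem cT_chiW (hpar : ∀ γ : Γ, (γ : SL(2, ℤ)) 1 0 = 0 → χ γ = 1) {k : ℤ} (hk2 : Even k) :
    cT k (chiW Γ χ) = 1 ∨ cT k (chiW Γ χ) = 2 := by
  have hne : (![0, 1] : Fin 2 → ℤ) ≠ ![0, -1] := by
    intro h
    have := congrFun h 1
    simp at this
  have hsupp : ∀ v ∉ ({![0, 1], ![0, -1]} : Finset (Fin 2 → ℤ)),
      (if v 0 = 0 then chiW Γ χ v * (v 1 : ℂ) ^ (-k) else 0) = 0 := by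
    intro v hv
    by_cases h0 : v 0 = 0
    · rcases chiW_of_zero hpar v h0 with h | ⟨-, h | h⟩
      · simp [h]
      · exfalso
        apply hv
        have : v = ![0, 1] := by
          funext j
          fin_cases j
          · simpa using h0
          · simpa using h
        simp [this]
      · exfalso
        apply hv
        have : v = ![0, -1] := by
          funext j
          fin_cases j
          · simpa using h0
          · simpa using h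
        simp [this]
    · simp [h0]
  unfold cT
  rw [tsum_eq_sum hsupp, Finset.sum_pair hne]
  have hm : ((-1 : ℂ)) ^ (-k) = 1 := hk2.neg.neg_one_zpow
  rcases chiW_of_zero (Γ := Γ) (χ := χ) hpar ![0, -1] (by simp) with h | ⟨h, -⟩
  · left
    simp [chiW_zero_one hpar, h]
  · right
    simp [chiW_zero_one hpar, h, hm]
    norm_num

end character

/-- **Eisenstein series with character.**  For every subgroup `Γ ≤ SL(2,ℤ)`, every unitary
character `χ` of `Γ` trivial on the stabiliser of `∞` in `Γ` and every even `k ≥ 4` there is a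
holomorphic `F : ℍ → ℂ` with `F ∣[k] γ = χ γ • F` for `γ ∈ Γ`, bounded at all cusps and with
`F → 1` at `i∞`. -/
theorem exists_eisChar (Γ : Subgroup SL(2, ℤ)) (χ : Γ →* ℂˣ)
    (hχ : ∀ γ, ‖((χ γ : ℂˣ) : ℂ)‖ = 1)
    (hpar : ∀ γ : Γ, (γ : SL(2, ℤ)) 1 0 = 0 → χ γ = 1) (k : ℤ) (hk : 3 ≤ k) (hk2 : Even k) :
    ∃ F : ℍ → ℂ, MDiff F ∧
      (∀ γ : Γ, F ∣[k] (γ : SL(2, ℤ)) = ((χ γ : ℂˣ) : ℂ) • F) ∧
      (∀ g : SL(2, ℤ), IsBoundedAtImInfty (F ∣[k] g)) ∧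
      Tendsto F atImInfty (𝓝 1) := by
  have hk4 : 4 ≤ k := by
    obtain ⟨m, rfl⟩ := hk2
    omega
  have ha : ∀ v, ‖chiW Γ χ v‖ ≤ 1 := norm_chiW_le hχ
  have hc : cT k (chiW Γ χ) ≠ 0 := by
    rcases cT_chiW (Γ := Γ) (χ := χ) hpar hk2 with h | h <;> rw [h] <;> norm_num
  refine ⟨(cT k (chiW Γ χ))⁻¹ • wE k (chiW Γ χ), ?_, ?_, ?_, ?_⟩
  · exact (wE_mdifferentiable hk ha).const_smul _
  · intro γ
    rw [ModularForm.SL_smul_slash, wE_chiW_slash hpar, smul_comm]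
  · intro g
    rw [ModularForm.SL_smul_slash]
    exact (wE_slash_isBoundedAtImInfty hk ha g).const_smul_left _
  · have := (wE_tendsto hk4 ha).const_mul (cT k (chiW Γ χ))⁻¹
    rw [inv_mul_cancel₀ hc] at this
    exact this

end

end Fermat.Agent.ES.EisChar

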