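import Mathlib

/-!
# Extraction of `m`-th roots of holomorphic functions

If `f` is holomorphic on a ball (resp. on the upper half plane), not locally zero, and all its
orders of vanishing are divisible by `m`, then `f = g ^ m` with `g` holomorphic.
-/

set_option autoImplicit false

open Complex Metric Set Filter Topology

namespace Fermat.Agent.ES.Root

/-- All the orders of vanishing of `f` on `K` are finite and divisible by `m`. -/
def OrdDvd (m : ℕ) (f : ℂ → ℂ) (K : Set ℂ) : Prop :=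
  ∀ z ∈ K, ∃ a : ℕ, analyticOrderAt f z = ((m * a : ℕ) : ℕ∞)

theorem OrdDvd.mono {m : ℕ} {f : ℂ → ℂ} {K K' : Set ℂ} (h : OrdDvd m f K) (hK : K' ⊆ K) :
    OrdDvd m f K' := fun z hz => h z (hK hz)

/-- `f` has an analytic `m`-th root on `U`. -/
def HasRoot (m : ℕ) (f : ℂ → ℂ) (U : Set ℂ) : Prop :=
  ∃ g : ℂ → ℂ, AnalyticOnNhd ℂ g U ∧ ∀ z ∈ U, g z ^ m = f z

/-- A nowhere vanishing holomorphic function on a ball has an `m`-th root. -/
theorem hasRoot_of_ne_zero {c : ℂ} {r : ℝ} {f : ℂ → ℂ} (hf : DifferentiableOn ℂ f (ball c r))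
    (h0 : ∀ z ∈ ball c r, f z ≠ 0) {m : ℕ} (hm : m ≠ 0) : HasRoot m f (ball c r) := by
  by_cases hr : 0 < r
  swap
  · rw [ball_eq_empty.2 (not_lt.1 hr)]
    exact ⟨0, fun z hz => hz.elim, fun z hz => hz.elim⟩
  have hc : c ∈ ball c r := mem_ball_self hr
  have hF : DifferentiableOn ℂ (fun z => deriv f z / f z) (ball c r) :=
    (hf.deriv isOpen_ball).div hf h0
  obtain ⟨L, hL⟩ := hF.isExactOn_ball
  have hfd : ∀ z ∈ ball c r, HasDerivAt f (deriv f z) z := fun z hz =>
    (hf.differentiableAt (isOpen_ball.mem_nhds hz)).hasDerivAt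
  set φ : ℂ → ℂ := fun z => f z * cexp (-L z) with hφ
  have hφd : ∀ z ∈ ball c r, HasDerivAt φ 0 z := by
    intro z hz
    have h1 := (hfd z hz).mul ((hL z hz).neg.cexp)
    have h2 : deriv f z * cexp ((-L) z) + f z * (cexp ((-L) z) * -(deriv f z / f z)) = 0 := by
      have := h0 z hz
      field_simp
      ring
    rw [← h2]
    exact h1
  have hconst : ∀ z ∈ ball c r, φ z = φ c := by
    intro z hz
    refine isOpen_ball.is_const_of_deriv_eq_zero (convex_ball c r).isPreconnected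
      (fun w hw => (hφd w hw).differentiableAt.differentiableWithinAt)
      (fun w hw => (hφd w hw).deriv) hz hc
  set C : ℂ := φ c with hC
  have hfe : ∀ z ∈ ball c r, f z = C * cexp (L z) := by
    intro z hz
    rw [← hconst z hz, hφ]
    simp only
    rw [mul_assoc, ← Complex.exp_add]
    simp
  refine ⟨fun z => C ^ ((m : ℂ)⁻¹) * cexp (L z / m), ?_, ?_⟩
  · apply DifferentiableOn.analyticOnNhd _ isOpen_ball
    intro z hz
    have hLd : DifferentiableAt ℂ L z := (hL z hz).differentiableAt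
    exact (((hLd.div_const _).cexp).const_mul _).differentiableWithinAt
  · intro z hz
    have hm' : (m : ℂ) ≠ 0 := by exact_mod_cast hm
    rw [mul_pow, Complex.cpow_nat_inv_pow _ hm, ← Complex.exp_nat_mul, hfe z hz]
    congr 2
    field_simp

/-- Dividing out a zero. -/
theorem exists_div {K : Set ℂ} {f : ℂ → ℂ} (hf : AnalyticOnNhd ℂ f K) {w : ℂ} (hw : w ∈ K)
    {n : ℕ} (hn : analyticOrderAt f w = n) :
    ∃ f₁ : ℂ → ℂ, AnalyticOnNhd ℂ f₁ K ∧ f₁ w ≠ 0 ∧ ∀ z, f z = (z - w) ^ n * f₁ z := by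
  obtain ⟨g, hg, hgw, hev⟩ := ((hf w hw).analyticOrderAt_eq_natCast).1 hn
  refine ⟨Function.update (fun z => f z / (z - w) ^ n) w (g w), ?_, by simpa using hgw, ?_⟩
  · intro z hz
    by_cases hzw : z = w
    · subst hzw
      refine hg.congr ?_
      filter_upwards [hev] with y hy
      by_cases hyz : y = z
      · subst hyz; simp
      · rw [Function.update_of_ne hyz, hy, smul_eq_mul]
        have : (y - z) ^ n ≠ 0 := pow_ne_zero _ (sub_ne_zero.2 hyz)
        field_simp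
    · have h1 : AnalyticAt ℂ (fun z => f z / (z - w) ^ n) z := by
        refine (hf z hz).div ?_ (pow_ne_zero _ (sub_ne_zero.2 hzw))
        fun_prop
      refine h1.congr ?_
      filter_upwards [isOpen_ne.mem_nhds hzw] with y hy
      rw [Function.update_of_ne hy]
  · intro z
    by_cases hzw : z = w
    · subst hzw
      have := hev.self_of_nhds
      simpa using this
    · rw [Function.update_of_ne hzw]
      have : (z - w) ^ n ≠ 0 := pow_ne_zero _ (sub_ne_zero.2 hzw)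
      field_simp

/-- The zero set of an analytic function without zeros of infinite order on a compact set is
finite. -/
theorem finite_zeros {K : Set ℂ} (hK : IsCompact K) {f : ℂ → ℂ} (hf : AnalyticOnNhd ℂ f K)
    (hord : ∀ z ∈ K, analyticOrderAt f z ≠ ⊤) : {z ∈ K | f z = 0}.Finite := by
  by_contra hinf
  obtain ⟨x, hx, hacc⟩ := Set.Infinite.exists_accPt_of_subset_isCompact hinf hK (fun z hz => hz.1)
  rw [accPt_iff_frequently_nhdsNE] at hacc
  rcases (hf x hx).eventually_eq_zero_or_eventually_ne_zero with h | h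
  · exact hord x hx (analyticOrderAt_eq_top.2 h)
  · exact hacc (h.mono fun z hz hz' => hz hz'.2)

/-- Orders after dividing out a zero. -/
theorem ordDvd_of_div {m : ℕ} {K : Set ℂ} {f f₁ : ℂ → ℂ} (hord : OrdDvd m f K)
    (hf₁ : AnalyticOnNhd ℂ f₁ K) {w : ℂ} {n : ℕ} (hw : f₁ w ≠ 0)
    (hdiv : ∀ z, f z = (z - w) ^ n * f₁ z) : OrdDvd m f₁ K := by
  intro z hz
  by_cases hzw : z = w
  · subst hzw
    exact ⟨0, by simpa using ((hf₁ z hz).analyticOrderAt_eq_zero).2 hw⟩
  · obtain ⟨a, ha⟩ := hord z hz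
    refine ⟨a, ?_⟩
    have hfe : f = (fun z => (z - w) ^ n) * f₁ := funext hdiv
    have hp : AnalyticAt ℂ (fun z : ℂ => (z - w) ^ n) z := by fun_prop
    rw [hfe, analyticOrderAt_mul hp (hf₁ z hz),
      (hp.analyticOrderAt_eq_zero).2 (pow_ne_zero _ (sub_ne_zero.2 hzw)), zero_add] at ha
    exact ha

/-- Root extraction on a ball, when the zeros in the closed ball lie in a given finite set. -/
theorem hasRoot_of_finset {c : ℂ} {ρ : ℝ} {m : ℕ} (hm : m ≠ 0) (s : Finset ℂ) :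
    ∀ f : ℂ → ℂ, AnalyticOnNhd ℂ f (closedBall c ρ) → OrdDvd m f (closedBall c ρ) →
      (∀ z ∈ closedBall c ρ, f z = 0 → z ∈ s) → HasRoot m f (ball c ρ) := by
  classical
  induction s using Finset.induction_on with
  | empty =>
    intro f hf _ hz
    refine hasRoot_of_ne_zero (hf.differentiableOn.mono ball_subset_closedBall) ?_ hm
    intro z hz' h0
    simpa using hz z (ball_subset_closedBall hz') h0
  | insert w s _ ih =>
    intro f hf hord hz
    by_cases hw : w ∈ closedBall c ρ ∧ f w = 0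
    · obtain ⟨a, ha⟩ := hord w hw.1
      obtain ⟨f₁, hf₁, hf₁w, hdiv⟩ := exists_div hf hw.1 ha
      obtain ⟨g₁, hg₁, hg₁r⟩ := ih f₁ hf₁ (ordDvd_of_div hord hf₁ hf₁w hdiv) (by
        intro z hzK hz0
        have h1 : f z = 0 := by rw [hdiv z, hz0, mul_zero]
        rcases Finset.mem_insert.1 (hz z hzK h1) with h | h
        · subst h; exact absurd hz0 hf₁w
        · exact h)
      refine ⟨fun z => (z - w) ^ a * g₁ z, ?_, ?_⟩
      · intro z hz'
        have hp : AnalyticAt ℂ (fun z : ℂ => (z - w) ^ a) z := by fun_prop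
        exact hp.mul (hg₁ z hz')
      · intro z hz'
        rw [mul_pow, hg₁r z hz', hdiv z, ← pow_mul, mul_comm a m]
    · refine ih f hf hord ?_
      intro z hzK hz0
      rcases Finset.mem_insert.1 (hz z hzK hz0) with h | h
      · subst h; exact absurd ⟨hzK, hz0⟩ hw
      · exact h

/-- Root extraction on a ball whose closure lies in the domain. -/
theorem hasRoot_ball_of_closedBall {c : ℂ} {ρ : ℝ} {m : ℕ} (hm : m ≠ 0) {f : ℂ → ℂ}
    (hf : AnalyticOnNhd ℂ f (closedBall c ρ)) (hord : OrdDvd m f (closedBall c ρ)) :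
    HasRoot m f (ball c ρ) := by
  have hfin := finite_zeros (isCompact_closedBall c ρ) hf (fun z hz => by
    obtain ⟨a, ha⟩ := hord z hz
    rw [ha]
    exact ENat.natCast_ne_top _)
  refine hasRoot_of_finset hm hfin.toFinset f hf hord ?_
  intro z hz h0
  exact hfin.mem_toFinset.2 ⟨hz, h0⟩

/-- In a finite product of analytic functions vanishing identically on a nonempty preconnected
set, one factor vanishes identically. -/
theorem exists_eq_zero_of_prod_eq_zero {U : Set ℂ} (hU : IsPreconnected U) (hne : U.Nonempty)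
    {ι : Type*} (s : Finset ι) (F : ι → ℂ → ℂ) (hF : ∀ i ∈ s, AnalyticOnNhd ℂ (F i) U)
    (h0 : ∀ z ∈ U, ∏ i ∈ s, F i z = 0) : ∃ i ∈ s, ∀ z ∈ U, F i z = 0 := by
  classical
  induction s using Finset.induction_on with
  | empty =>
    obtain ⟨z, hz⟩ := hne
    simpa using h0 z hz
  | insert i s hi ih =>
    have h1 : AnalyticOnNhd ℂ (fun z => ∏ j ∈ s, F j z) U := by
      intro z hz
      exact Finset.analyticAt_fun_prod s (fun j hj => hF j (Finset.mem_insert_of_mem hj) z hz)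
    rcases (hF i (Finset.mem_insert_self i s)).eq_zero_or_eq_zero_of_mul_eq_zero h1
      (fun z hz => by simpa [Finset.prod_insert hi] using h0 z hz) hU with h | h
    · exact ⟨i, Finset.mem_insert_self i s, h⟩
    · obtain ⟨j, hj, hj0⟩ := ih (fun j hj => hF j (Finset.mem_insert_of_mem hj)) h
      exact ⟨j, Finset.mem_insert_of_mem hj, hj0⟩

/-- Two analytic `m`-th roots of the same function on a preconnected set differ by an `m`-th root
of unity. -/
theorem exists_root_of_unity {U : Set ℂ} (hU : IsPreconnected U) {m : ℕ} (hm : m ≠ 0)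
    {g h : ℂ → ℂ} (hg : AnalyticOnNhd ℂ g U) (hh : AnalyticOnNhd ℂ h U)
    (hgh : ∀ z ∈ U, g z ^ m = h z ^ m) : ∃ ζ : ℂ, ζ ^ m = 1 ∧ ∀ z ∈ U, g z = ζ * h z := by
  by_cases hne : U.Nonempty
  swap
  · exact ⟨1, one_pow _, fun z hz => (hne ⟨z, hz⟩).elim⟩
  have hpos : 0 < m := Nat.pos_of_ne_zero hm
  obtain ⟨ζ, hζ, hζ0⟩ := exists_eq_zero_of_prod_eq_zero hU hne (Polynomial.nthRootsFinset m (1 : ℂ))
    (fun ζ z => g z - ζ * h z) (fun ζ _ => hg.sub (analyticOnNhd_const.mul hh)) (by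
      intro z hz
      rw [← (Complex.isPrimitiveRoot_exp m hm).pow_sub_pow_eq_prod_sub_mul _ _ hpos, hgh z hz,
        sub_self])
  exact ⟨ζ, (Polynomial.mem_nthRootsFinset hpos 1).1 hζ, fun z hz => sub_eq_zero.1 (hζ0 z hz)⟩

/-- Extending a root from a preconnected set to a bigger set on which some root exists. -/
theorem extend_root {U V : Set ℂ} (hU : IsPreconnected U) (hUV : U ⊆ V) {m : ℕ} (hm : m ≠ 0)
    {f : ℂ → ℂ} (hV : HasRoot m f V) {g : ℂ → ℂ} (hg : AnalyticOnNhd ℂ g U)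
    (hgr : ∀ z ∈ U, g z ^ m = f z) :
    ∃ g' : ℂ → ℂ, (AnalyticOnNhd ℂ g' V ∧ ∀ z ∈ V, g' z ^ m = f z) ∧ ∀ z ∈ U, g' z = g z := by
  obtain ⟨h, hh, hhr⟩ := hV
  obtain ⟨ζ, hζ, hζg⟩ := exists_root_of_unity hU hm hg (hh.mono hUV)
    (fun z hz => by rw [hgr z hz, hhr z (hUV hz)])
  refine ⟨fun z => ζ * h z, ⟨analyticOnNhd_const.mul hh, fun z hz => ?_⟩,
    fun z hz => (hζg z hz).symm⟩
  rw [mul_pow, hζ, one_mul, hhr z hz]

/-- Gluing: root extraction on an increasing union of open preconnected sets. -/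
theorem hasRoot_iUnion {U : ℕ → Set ℂ} (hopen : ∀ n, IsOpen (U n))
    (hconn : ∀ n, IsPreconnected (U n)) (hmono : Monotone U) {m : ℕ} (hm : m ≠ 0) {f : ℂ → ℂ}
    (h : ∀ n, HasRoot m f (U n)) : HasRoot m f (⋃ n, U n) := by
  classical
  let T : ℕ → Type := fun n =>
    {g : ℂ → ℂ // AnalyticOnNhd ℂ g (U n) ∧ ∀ z ∈ U n, g z ^ m = f z}
  have step : ∀ n (g : T n), ∃ g' : T (n + 1), ∀ z ∈ U n, g'.1 z = g.1 z := by
    intro n g
    obtain ⟨g', hg', hgg⟩ := extend_root (hconn n) (hmono (Nat.le_succ n)) hm (h (n + 1))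
      g.2.1 g.2.2
    exact ⟨⟨g', hg'⟩, hgg⟩
  let G : ∀ n, T n := fun n => Nat.rec (motive := T) ⟨(h 0).choose, (h 0).choose_spec⟩
    (fun n g => (step n g).choose) n
  have hG : ∀ n, ∀ z ∈ U n, (G (n + 1)).1 z = (G n).1 z := fun n => (step n (G n)).choose_spec
  have hG' : ∀ n k, ∀ z ∈ U n, (G (n + k)).1 z = (G n).1 z := by
    intro n k
    induction k with
    | zero => intro z _; rfl
    | succ k ih =>
      intro z hz
      rw [← ih z hz]
      exact hG (n + k) z (hmono (Nat.le_add_right n k) hz)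
  let g : ℂ → ℂ := fun z => if hz : ∃ n, z ∈ U n then (G (Nat.find hz)).1 z else 0
  have hg : ∀ n, ∀ z ∈ U n, g z = (G n).1 z := by
    intro n z hz
    have hex : ∃ n, z ∈ U n := ⟨n, hz⟩
    have hle : Nat.find hex ≤ n := Nat.find_min' hex hz
    obtain ⟨k, hk⟩ := Nat.exists_eq_add_of_le hle
    show (if hz : ∃ n, z ∈ U n then (G (Nat.find hz)).1 z else 0) = _
    rw [dif_pos hex]
    conv_rhs => rw [hk]
    exact (hG' _ k z (Nat.find_spec hex)).symm
  refine ⟨g, ?_, ?_⟩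
  · intro z hz
    obtain ⟨n, hn⟩ := mem_iUnion.1 hz
    refine ((G n).2.1 z hn).congr ?_
    filter_upwards [(hopen n).mem_nhds hn] with y hy
    exact (hg n y hy).symm
  · intro z hz
    obtain ⟨n, hn⟩ := mem_iUnion.1 hz
    rw [hg n z hn]
    exact (G n).2.2 z hn

/-- **Root extraction on a ball.** -/
theorem hasRoot_ball {c : ℂ} {r : ℝ} {m : ℕ} (hm : m ≠ 0) {f : ℂ → ℂ}
    (hf : AnalyticOnNhd ℂ f (ball c r)) (hord : OrdDvd m f (ball c r)) :
    HasRoot m f (ball c r) := by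
  have hsub : ∀ n : ℕ, closedBall c (r - 1 / ((n : ℝ) + 1)) ⊆ ball c r := by
    intro n
    apply closedBall_subset_ball
    have : (0 : ℝ) < 1 / ((n : ℝ) + 1) := by positivity
    linarith
  have hU : (⋃ n : ℕ, ball c (r - 1 / ((n : ℝ) + 1))) = ball c r := by
    apply Subset.antisymm
    · exact iUnion_subset fun n => ball_subset_closedBall.trans (hsub n)
    · intro z hz
      rw [mem_ball] at hz
      obtain ⟨n, hn⟩ := exists_nat_one_div_lt (sub_pos.2 hz)
      refine mem_iUnion.2 ⟨n, ?_⟩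
      rw [mem_ball]
      linarith
  rw [← hU]
  refine hasRoot_iUnion (fun n => isOpen_ball) (fun n => (convex_ball _ _).isPreconnected) ?_ hm
    (fun n => hasRoot_ball_of_closedBall hm (hf.mono (hsub n)) (hord.mono (hsub n)))
  intro a b hab
  apply ball_subset_ball
  have h1 : (0 : ℝ) < (a : ℝ) + 1 := by positivity
  have h2 : (a : ℝ) + 1 ≤ (b : ℝ) + 1 := by
    have : (a : ℝ) ≤ b := by exact_mod_cast hab
    linarith
  have := one_div_le_one_div_of_le h1 h2
  linarith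

/-- **Root extraction on the upper half plane** (as a subset of `ℂ`). -/
theorem hasRoot_upperHalfPlane {m : ℕ} (hm : m ≠ 0) {f : ℂ → ℂ}
    (hf : AnalyticOnNhd ℂ f {z : ℂ | 0 < z.im}) (hord : OrdDvd m f {z : ℂ | 0 < z.im}) :
    HasRoot m f {z : ℂ | 0 < z.im} := by
  have hsub : ∀ n : ℕ, ball (((n : ℝ) + 1 : ℝ) * I) ((n : ℝ) + 1) ⊆ {z : ℂ | 0 < z.im} := by
    intro n z hz
    rw [mem_ball, dist_eq_norm] at hz
    have h1 := Complex.abs_im_le_norm (z - ((n : ℝ) + 1 : ℝ) * I)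
    have h2 : (z - ((n : ℝ) + 1 : ℝ) * I).im = z.im - ((n : ℝ) + 1) := by simp
    rw [h2] at h1
    have h3 := (abs_lt.1 (lt_of_le_of_lt h1 hz)).1
    show 0 < z.im
    linarith
  have hU : (⋃ n : ℕ, ball (((n : ℝ) + 1 : ℝ) * I) ((n : ℝ) + 1)) = {z : ℂ | 0 < z.im} := by
    apply Subset.antisymm
    · exact iUnion_subset hsub
    · intro z hz
      have hz' : 0 < z.im := hz
      obtain ⟨n, hn⟩ := exists_nat_gt ((z.re ^ 2 + z.im ^ 2) / (2 * z.im))
      refine mem_iUnion.2 ⟨n, ?_⟩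
      rw [mem_ball, dist_eq_norm]
      have hR : (0 : ℝ) < (n : ℝ) + 1 := by positivity
      rw [div_lt_iff₀ (by positivity)] at hn
      have h1 : ‖z - ((n : ℝ) + 1 : ℝ) * I‖ ^ 2 < ((n : ℝ) + 1) ^ 2 := by
        rw [Complex.sq_norm, Complex.normSq_apply]
        simp
        nlinarith
      exact lt_of_pow_lt_pow_left₀ 2 hR.le h1
  rw [← hU]
  refine hasRoot_iUnion (fun n => isOpen_ball) (fun n => (convex_ball _ _).isPreconnected) ?_ hm
    (fun n => hasRoot_ball hm (hf.mono (hsub n)) (hord.mono (hsub n)))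
  intro a b hab
  apply ball_subset_ball'
  have h1 : (a : ℝ) ≤ b := by exact_mod_cast hab
  rw [dist_eq_norm, ← sub_mul, norm_mul, Complex.norm_I, mul_one, ← Complex.ofReal_sub,
    Complex.norm_real, Real.norm_eq_abs, abs_of_nonpos (by linarith)]
  linarith

open UpperHalfPlane in
open scoped Manifold in
/-- **Root extraction on `ℍ`.** -/
theorem exists_root_UHP {m : ℕ} (hm : m ≠ 0) {f : ℍ → ℂ} (hf : MDiff f)
    (hord : ∀ τ : ℍ, ∃ a : ℕ, analyticOrderAt (f ∘ ofComplex) (τ : ℂ) = ((m * a : ℕ) : ℕ∞)) :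
    ∃ g : ℍ → ℂ, MDiff g ∧ ∀ τ, g τ ^ m = f τ := by
  have h1 : AnalyticOnNhd ℂ (f ∘ ofComplex) {z : ℂ | 0 < z.im} :=
    (UpperHalfPlane.mdifferentiable_iff.1 hf).analyticOnNhd isOpen_upperHalfPlaneSet
  obtain ⟨G, hG, hGr⟩ := hasRoot_upperHalfPlane hm h1 (fun z hz => hord ⟨z, hz⟩)
  refine ⟨fun τ => G τ, ?_, fun τ => ?_⟩
  · rw [UpperHalfPlane.mdifferentiable_iff]
    refine hG.differentiableOn.congr fun z hz => ?_
    have hz' : 0 < z.im := hz
    simp only [Function.comp_apply, ofComplex_apply_of_im_pos hz']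
  · have := hGr τ τ.2
    simpa using this

open UpperHalfPlane in
open scoped Manifold in
/-- Root extraction for a quotient `A / B` of holomorphic functions on `ℍ`: if
`m ∣ ord_τ A - ord_τ B` for all `τ`, then `A * B ^ (m - 1) = g ^ m`, so that
`(g / B) ^ m = A / B`. -/
theorem exists_root_ratio_UHP {m : ℕ} (hm : m ≠ 0) {A B : ℍ → ℂ} (hA : MDiff A) (hB : MDiff B)
    (hord : ∀ τ : ℍ, ∃ a b : ℕ, analyticOrderAt (A ∘ ofComplex) (τ : ℂ) = a ∧
      analyticOrderAt (B ∘ ofComplex) (τ : ℂ) = b ∧ (m : ℤ) ∣ (a : ℤ) - b) :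
    ∃ g : ℍ → ℂ, MDiff g ∧ ∀ τ, g τ ^ m = A τ * B τ ^ (m - 1) := by
  refine exists_root_UHP hm (f := fun τ => A τ * B τ ^ (m - 1)) (hA.mul (hB.pow _)) ?_
  intro τ
  obtain ⟨a, b, ha, hb, hab⟩ := hord τ
  have hAa : AnalyticAt ℂ (A ∘ ofComplex) (τ : ℂ) :=
    (UpperHalfPlane.mdifferentiable_iff.1 hA).analyticOnNhd isOpen_upperHalfPlaneSet τ τ.2
  have hBa : AnalyticAt ℂ (B ∘ ofComplex) (τ : ℂ) :=
    (UpperHalfPlane.mdifferentiable_iff.1 hB).analyticOnNhd isOpen_upperHalfPlaneSet τ τ.2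
  have hfun : ((fun τ => A τ * B τ ^ (m - 1)) ∘ ofComplex) =
      (A ∘ ofComplex) * (B ∘ ofComplex) ^ (m - 1) := rfl
  rw [hfun, analyticOrderAt_mul hAa (hBa.pow _), analyticOrderAt_pow hBa, ha, hb]
  have h2 : (m : ℤ) ∣ ((a + (m - 1) * b : ℕ) : ℤ) := by
    obtain ⟨m', rfl⟩ : ∃ m', m = m' + 1 := Nat.exists_eq_succ_of_ne_zero hm
    obtain ⟨c, hc⟩ := hab
    refine ⟨c + b, ?_⟩
    rw [Nat.add_sub_cancel]
    push_cast at hc ⊢
    linear_combination hc
  obtain ⟨c, hc⟩ := Int.natCast_dvd_natCast.1 h2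
  refine ⟨c, ?_⟩
  rw [← hc]
  push_cast
  rfl

end Fermat.Agent.ES.Root

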