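import Fermat.Agent.ES.Mid.Fix
import Fermat.Agent.ES.Mid.KumFormal
import Fermat.Agent.ES.Mid.KumOfDiv
import Fermat.Agent.ES.Mid.DivOfKum
import Fermat.Agent.ES.Mid.BCount
import Fermat.Agent.ES.Mid.BUnifFin
import Fermat.Agent.ES.Mid.BUnifCusp
import Fermat.Agent.ES.Mid.BFinOrd
import Fermat.Agent.ES.Mid.BCuspOrd
import Fermat.Agent.ES.Mid.KumKer
import Fermat.Agent.ES.Mid.KumSurj
import Fermat.Agent.ES.Mid.TauPE
import Fermat.Agent.ES.Mid.Finite
import Fermat.Agent.ES.Mid.InvRat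
import Fermat.Agent.ES.Mid.Root
import Fermat.Agent.ES.Mid.ValMult
import Fermat.Agent.ES.Mid.RootSeries
import Fermat.Agent.ES.Desc.Main
import Fermat.Agent.ES.Coh.Assemble
import Fermat.Agent.ES.Mid.HGlueFix
import Fermat.Agent.ES.Mid.HF1
import Fermat.Agent.ES.Mid.HF2
import Fermat.Agent.ES.Mid.HA1
import Fermat.Agent.ES.Mid.HA2
import Fermat.Agent.ES.Mid.HA3

/-!
# ES : assembly of the whole chain.  Everything follows from Claim K.
-/

set_option autoImplicit false

namespace Fermat.Agent.ES.All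

open Fermat.Agent.ES.Mid

/-- (H), unconditional. -/
theorem stmt_Hecke : Stmt_Hecke :=
  hecke' HF1.hf_mul HF1.hf_map HF1.hf_indep (HF3.hf_cong HF1.hf_map HF2.hf_char)
    ha_char ha_mdiff HA2.stmt_HA_rep HA3.ha_growth INV.invRat

/-- the middle layer, from Claim K. -/
theorem finLevel_of (hK : Fermat.Agent.S18.Stmt_ClaimK) : Stmt_FinLevel :=
  FIX.finLevel' kumMul kumInv kumPow kumUnique kumRed
    (A.kumOfDiv VAL.valMult ROOT.rootUHP)
    (B.divOfKum_of B.count B.unifFin B.unifCusp B.finOrd B.cuspOrd)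
    (E.kumKer ROOT.rootUHP INV.invRat RS.rootSeries)
    (F.kumSurj Desc.desc INV.invRat)
    TP.tauPE stmt_Hecke FIX.congInertia' (GLUE.claimK_of hK) LM.fixedOpen LM.homFinite

/-- the Eichler-Shimura module, from Claim K. -/
theorem stmt_ES_of (hK : Fermat.Agent.S18.Stmt_ClaimK) : Rep.Stmt_ES :=
  Coh.stmt_ES_of_finLevel (finLevel_of hK)

end Fermat.Agent.ES.All
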