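import Fermat.Agent.ES.All
import Fermat.Agent.ES.ClaimKFull

/-!
# ES : the Eichler-Shimura module, unconditionally
-/

set_option autoImplicit false

namespace Fermat.Agent.ES.AllFinal

/-- the middle layer, unconditionally. -/
theorem stmt_FinLevel : Fermat.Agent.ES.Mid.Stmt_FinLevel :=
  Fermat.Agent.ES.All.finLevel_of Fermat.Agent.ES.ClaimKFull.claimK

/-- the Eichler-Shimura module, unconditionally. -/
theorem stmt_ES : Fermat.Agent.ES.Rep.Stmt_ES :=
  Fermat.Agent.ES.All.stmt_ES_of Fermat.Agent.ES.ClaimKFull.claimK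

end Fermat.Agent.ES.AllFinal
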