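import Fermat.Agent.ES.Mid.All
import Fermat.Agent.ES.Coh.Assemble

/-!
# ES : the Eichler-Shimura module from the two remaining inputs
-/

set_option autoImplicit false

namespace Fermat.Agent.ES.Final

/-- Eichler-Shimura (`Rep.Stmt_ES`) from the multiplicative Hecke operator and Claim K. -/
theorem stmt_ES_of (hH : Mid.Stmt_Hecke) (hK : Fermat.Agent.S18.Stmt_ClaimK) : Rep.Stmt_ES :=
  Coh.stmt_ES_of_finLevel (Mid.ALL.finLevel_of hH hK)

end Fermat.Agent.ES.Final
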