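/-
ES chain, package (H2) (helper96): S29 (and the core of S42) from
* `FD.Stmt_FD` (Frobenius density, existence form), and
* `ResInput p N S`: for every character `ψ : 𝕋 → K` (`K` algebraically closed of characteristic `p`)
  a nonzero finite dimensional `K[G_ℚ]`-module of finite level, unramified outside `Np`, on which
  every Frobenius lift at `ℓ ∉ S` satisfies `σ² - ψ(T_ℓ) σ + ℓ = 0`.
-/
import Fermat.Agent.ES.RepGalois
import Fermat.Agent.ES.EigenChar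
import Fermat.Agent.ES.Rep23.Galois
import Fermat.Agent.FD.Interface

set_option autoImplicit false

namespace Fermat.Agent.ES.Res29

open Polynomial Fermat.Agent.ES.RepGalois Fermat.Agent.ES.Rep23

local notation "Qb" => AlgebraicClosure ℚ
local notation "GQ" => (AlgebraicClosure ℚ ≃ₐ[ℚ] AlgebraicClosure ℚ)

/-- The residual input of the Eichler–Shimura chain. -/
def ResInput (p N : ℕ) [NeZero N] (S : Set ℕ) : Prop :=
  ∀ (K : Type) [Field K] [IsAlgClosed K] [CharP K p] (ψ : CuspForm.heckeAlgebra N 2 S →+* K),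
    ∃ (W : Type) (_ : AddCommGroup W) (_ : Module K W) (_ : FiniteDimensional K W)
      (_ : Nontrivial W) (ρ : GQ →* Module.End K W),
      GaloisFactorsThroughFiniteLevel ρ ∧
      (∀ q : ℕ, q.Prime → ¬ q ∣ N → q ≠ p → ∀ A : ValuationSubring Qb, A.LiesOverPrime q →
        ∀ σ ∈ A.inertiaSubgroupIn ℚ, ρ σ = 1) ∧
      (∀ (ℓ : ℕ) (hℓ : ℓ.Prime) (hℓN : ¬ ℓ ∣ N) (hℓS : ℓ ∉ S), ℓ ≠ p →
        ∀ A : ValuationSubring Qb, A.LiesOverPrime ℓ → ∀ σ : GQ, A.IsFrobeniusAt σ ℓ →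
          ρ σ * ρ σ - ψ (CuspForm.heckeAlgebra.T hℓ hℓN hℓS) • ρ σ
            + (ℓ : K) • (1 : Module.End K W) = 0)

section EpsBar

variable (p : ℕ) [hp : Fact p.Prime] (K : Type) [Field K] [CharP K p]

theorem cast_eq_of_isCyc {g : GQ} {a b : ℕ} (ha : IsCyc p g a) (hb : IsCyc p g b) :
    (a : K) = (b : K) :=
  (CharP.natCast_eq_natCast K p).mpr (ha.modEq hp.out.pos hb)

/-- The mod `p` cyclotomic character with values in a field of characteristic `p`. -/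
noncomputable def epsBar : GQ →* K where
  toFun g := (((exists_isCyc p hp.out.pos g).choose : ℕ) : K)
  map_one' := by
    rw [cast_eq_of_isCyc p K (exists_isCyc p hp.out.pos 1).choose_spec (isCyc_one p), Nat.cast_one]
  map_mul' g h := by
    rw [cast_eq_of_isCyc p K (exists_isCyc p hp.out.pos (g * h)).choose_spec
      ((exists_isCyc p hp.out.pos g).choose_spec.mul (exists_isCyc p hp.out.pos h).choose_spec),
      Nat.cast_mul]

theorem epsBar_eq {g : GQ} {a : ℕ} (ha : IsCyc p g a) : epsBar p K g = (a : K) :=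
  cast_eq_of_isCyc p K (exists_isCyc p hp.out.pos g).choose_spec ha

end EpsBar

/-- agreement on a level field. -/
theorem eq_of_level {M : Type} [Monoid M] {ρ : GQ →* M} {L : IntermediateField ℚ Qb}
    (h : ∀ σ : GQ, (∀ x ∈ L, σ x = x) → ρ σ = 1) {g g' : GQ} (hgg' : ∀ x ∈ L, g x = g' x) :
    ρ g = ρ g' := by
  have h1 : ρ (g'⁻¹ * g) = 1 := by
    apply h
    intro x hx
    rw [AlgEquiv.mul_apply, hgg' x hx]
    exact AlgEquiv.symm_apply_apply g' x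
  have h2 : g = g' * (g'⁻¹ * g) := by group
  rw [h2, map_mul, h1, mul_one]

/-- **The residual representation attached to a character of the Hecke algebra.** -/
theorem exists_matrixRep (hFD : Fermat.Agent.FD.Stmt_FD) (p : ℕ) [hp : Fact p.Prime] (N : ℕ)
    [NeZero N] (S : Finset ℕ) (hpS : p ∈ S) (hRes : ResInput p N (↑S : Set ℕ))
    (K : Type) [Field K] [IsAlgClosed K] [CharP K p]
    (ψ : CuspForm.heckeAlgebra N 2 (↑S : Set ℕ) →+* K) :
    ∃ ρ₂ : GQ →* Matrix (Fin 2) (Fin 2) K,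
      (∃ L : IntermediateField ℚ Qb, FiniteDimensional ℚ L ∧
        ∀ σ : GQ, (∀ x ∈ L, σ x = x) → ρ₂ σ = 1) ∧
      (∀ q : ℕ, q.Prime → ¬ q ∣ N → q ≠ p → ∀ A : ValuationSubring Qb, A.LiesOverPrime q →
        ∀ σ ∈ A.inertiaSubgroupIn ℚ, ρ₂ σ = 1) ∧
      (∀ (ℓ : ℕ) (hℓ : ℓ.Prime) (hℓN : ¬ ℓ ∣ N) (hℓS : ℓ ∉ (↑S : Set ℕ)),
        ∀ A : ValuationSubring Qb, A.LiesOverPrime ℓ → ∀ σ : GQ, A.IsFrobeniusAt σ ℓ →
          (ρ₂ σ).charpoly = X ^ 2 - C (ψ (CuspForm.heckeAlgebra.T hℓ hℓN hℓS)) * X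
            + C (ℓ : K)) := by
  obtain ⟨W, _, _, _, _, ρ, ⟨L₁, hL₁, hlev⟩, hunr, hfrob⟩ := hRes K ψ
  obtain ⟨L₂, hL₂, hcyc⟩ := exists_level p hp.out.pos
  obtain ⟨L, hL, hLn, hLle⟩ := exists_normal_ge (L₁ ⊔ L₂) (IntermediateField.finiteDimensional_sup L₁ L₂)
  have hL₁L : L₁ ≤ L := le_trans le_sup_left hLle
  have hL₂L : L₂ ≤ L := le_trans le_sup_right hLle
  have hne : ∀ ℓ : ℕ, ℓ ∉ (↑S : Set ℕ) → ℓ ≠ p := fun ℓ h1 h2 => h1 (h2 ▸ hpS)
  -- the quadratic relation for all `g`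
  have hquad : ∀ g : GQ, ∃ s : K, ρ g * ρ g - s • ρ g + epsBar p K g • (1 : Module.End K W) = 0 := by
    intro g
    obtain ⟨ℓ, A, σ, k, -, hℓ, hℓS, hA, hσ, hgk, -⟩ := hFD L g (S ∪ N.primeFactors)
    have hℓS' : ℓ ∉ (↑S : Set ℕ) := fun h => hℓS (Finset.mem_union_left _ h)
    have hℓN : ¬ ℓ ∣ N := fun h => hℓS (Finset.mem_union_right _
      (Nat.mem_primeFactors.mpr ⟨hℓ, h, NeZero.ne N⟩))
    have hℓp := hne ℓ hℓS'
    obtain ⟨s', hs'⟩ := exists_quad_pow (hfrob ℓ hℓ hℓN hℓS' hℓp A hA σ hσ) k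
    have h1 : ρ g = ρ σ ^ k := by
      rw [← map_pow]
      exact eq_of_level hlev fun x hx => hgk x (hL₁L hx)
    have h2 : IsCyc p (σ ^ k) (ℓ ^ k) :=
      (isCyc_frob hℓ hA hσ (fun h => hℓp ((Nat.prime_dvd_prime_iff_eq hℓ hp.out).mp h))).pow k
    have h3 : IsCyc p g (ℓ ^ k) := hcyc (σ ^ k) g (fun x hx => (hgk x (hL₂L hx)).symm) _ h2
    refine ⟨s', ?_⟩
    rw [h1, epsBar_eq p K h3, Nat.cast_pow]
    exact hs'
  choose t ht using hquad
  have hQ : QuadRel ρ (epsBar p K) t := ht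
  obtain ⟨ρ₂, hchar, htriv⟩ := exists_rep_two_field ρ (epsBar p K) t hQ (Or.inl inferInstance)
  refine ⟨ρ₂, ⟨L, hL, fun σ hσ => htriv σ (hlev σ fun x hx => hσ x (hL₁L hx)) ?_⟩, ?_, ?_⟩
  · have h1 : IsCyc p σ 1 := hcyc 1 σ (fun x hx => (hσ x (hL₂L hx)).symm) _ (isCyc_one p)
    rw [epsBar_eq p K h1, Nat.cast_one]
  · intro q hq hqN hqp A hA σ hσ
    refine htriv σ (hunr q hq hqN hqp A hA σ hσ) ?_
    have h1 : IsCyc p σ 1 :=
      isCyc_inertia hq hA hσ (fun h => hqp ((Nat.prime_dvd_prime_iff_eq hq hp.out).mp h))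
    rw [epsBar_eq p K h1, Nat.cast_one]
  · intro ℓ hℓ hℓN hℓS A hA σ hσ
    have hℓp := hne ℓ hℓS
    have h1 : IsCyc p σ ℓ :=
      isCyc_frob hℓ hA hσ (fun h => hℓp ((Nat.prime_dvd_prime_iff_eq hℓ hp.out).mp h))
    have h2 := hfrob ℓ hℓ hℓN hℓS hℓp A hA σ hσ
    have h3 := ht σ
    rw [epsBar_eq p K h1] at h3
    -- uniqueness of the trace
    have h4 : (t σ - ψ (CuspForm.heckeAlgebra.T hℓ hℓN hℓS)) • ρ σ = 0 := by
      rw [sub_smul]
      have : t σ • ρ σ - ψ (CuspForm.heckeAlgebra.T hℓ hℓN hℓS) • ρ σ =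
          (ρ σ * ρ σ - ψ (CuspForm.heckeAlgebra.T hℓ hℓN hℓS) • ρ σ
            + (ℓ : K) • (1 : Module.End K W)) -
          (ρ σ * ρ σ - t σ • ρ σ + (ℓ : K) • (1 : Module.End K W)) := by abel
      rw [this, h2, h3, sub_zero]
    have h5 : ρ σ ≠ 0 := by
      intro h0
      have h6 : ρ σ * ρ σ⁻¹ = 1 := by rw [← map_mul, mul_inv_cancel, map_one]
      rw [h0, zero_mul] at h6
      exact zero_ne_one h6
    have h7 : t σ = ψ (CuspForm.heckeAlgebra.T hℓ hℓN hℓS) :=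
      sub_eq_zero.mp ((smul_eq_zero.mp h4).resolve_right h5)
    rw [hchar σ, h7, epsBar_eq p K h1]

end Fermat.Agent.ES.Res29
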