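/-
ES chain, package (H3) (helper96): the frozen statement S29 from `FD.Stmt_FD` and `ResInput`.
-/
import Fermat.Agent.ES.Res29

set_option autoImplicit false

namespace Fermat.Agent.ES.Res29

open Polynomial Fermat.Agent.ES.RepGalois Fermat.Agent.ES.Rep23 CongruenceSubgroup

local notation "Qb" => AlgebraicClosure ℚ
local notation "GQ" => (AlgebraicClosure ℚ ≃ₐ[ℚ] AlgebraicClosure ℚ)

/-- `ResInput` for all admissible data. -/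
def ResInputAll : Prop :=
  ∀ (p : ℕ) [Fact p.Prime] (N : ℕ) [NeZero N] (S : Finset ℕ), p ∈ S →
    (∀ q : ℕ, q.Prime → q ∣ N → q ∈ S) → ResInput p N (↑S : Set ℕ)

/-- Matrix form of S29/S42 over the residue field `ℤ̄ ⧸ 𝔪`. -/
theorem exists_matrixRep_eigenform (hFD : Fermat.Agent.FD.Stmt_FD) (hRes : ResInputAll)
    {N : ℕ} [NeZero N] {g : CuspForm (Gamma0 N) 2} (hg : g.IsNormalizedEigenform)
    {p : ℕ} (hp : p.Prime) (𝔪 : Ideal (integralClosure ℤ ℂ)) [h𝔪 : 𝔪.IsMaximal]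
    (hp𝔪 : (p : integralClosure ℤ ℂ) ∈ 𝔪) :
    ∃ ρ₂ : GQ →* Matrix (Fin 2) (Fin 2) (integralClosure ℤ ℂ ⧸ 𝔪),
      (∃ L : IntermediateField ℚ Qb, FiniteDimensional ℚ L ∧
        ∀ σ : GQ, (∀ x ∈ L, σ x = x) → ρ₂ σ = 1) ∧
      (∀ q : ℕ, q.Prime → ¬ q ∣ N → q ≠ p → ∀ A : ValuationSubring Qb, A.LiesOverPrime q →
        ∀ σ ∈ A.inertiaSubgroupIn ℚ, ρ₂ σ = 1) ∧
      (∀ ℓ : ℕ, ℓ.Prime → ¬ ℓ ∣ N → ℓ ≠ p →
        ∀ A : ValuationSubring Qb, A.LiesOverPrime ℓ → ∀ σ : GQ, A.IsFrobeniusAt σ ℓ →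
          ∃ a : integralClosure ℤ ℂ, (a : ℂ) = ModularFormClass.qCoeff g ℓ ∧
            (ρ₂ σ).charpoly = X ^ 2 - C (Ideal.Quotient.mk 𝔪 a) * X
              + C (ℓ : integralClosure ℤ ℂ ⧸ 𝔪)) := by
  let _ := Ideal.Quotient.field 𝔪
  have : Fact p.Prime := ⟨hp⟩
  have : IsAlgClosed (integralClosure ℤ ℂ ⧸ 𝔪) := isAlgClosed_quotient 𝔪
  have : CharP (integralClosure ℤ ℂ ⧸ 𝔪) p := by
    refine (CharP.charP_iff_prime_eq_zero hp).mpr ?_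
    have := Ideal.Quotient.eq_zero_iff_mem.mpr hp𝔪
    simpa using this
  set S : Finset ℕ := (N * p).primeFactors with hS
  have hNp : N * p ≠ 0 := mul_ne_zero (NeZero.ne N) hp.ne_zero
  have hpS : p ∈ S := Nat.mem_primeFactors.mpr ⟨hp, Dvd.intro_left N rfl, hNp⟩
  have hNS : ∀ q : ℕ, q.Prime → q ∣ N → q ∈ S := fun q hq hqN =>
    Nat.mem_primeFactors.mpr ⟨hq, Dvd.dvd.mul_right hqN p, hNp⟩
  obtain ⟨lam, -, hlam⟩ := EigenChar.exists_eigenChar (↑S : Set ℕ) hg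
  obtain ⟨ρ₂, h1, h2, h3⟩ := exists_matrixRep hFD p N S hpS (hRes p N S hpS hNS)
    (integralClosure ℤ ℂ ⧸ 𝔪) ((Ideal.Quotient.mk 𝔪).comp lam)
  refine ⟨ρ₂, h1, h2, ?_⟩
  intro ℓ hℓ hℓN hℓp A hA σ hσ
  have hℓS : ℓ ∉ (↑S : Set ℕ) := by
    intro h
    have h4 := (Nat.mem_primeFactors.mp (Finset.mem_coe.mp h)).2.1
    rcases (Nat.Prime.dvd_mul hℓ).mp h4 with h5 | h5
    · exact hℓN h5
    · exact hℓp ((Nat.prime_dvd_prime_iff_eq hℓ hp).mp h5)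
  exact ⟨lam (CuspForm.heckeAlgebra.T hℓ hℓN hℓS), hlam ℓ hℓ hℓN hℓS, h3 ℓ hℓ hℓN hℓS A hA σ hσ⟩

/-- **S29** from Frobenius density and the residual Eichler–Shimura input. -/
theorem S29_of (hFD : Fermat.Agent.FD.Stmt_FD) (hRes : ResInputAll)
    {N : ℕ} {g : CuspForm (Gamma0 N) 2} (hg : g.IsNormalizedEigenform)
    {p : ℕ} (hp : p.Prime) {k : Type} [Field k] [CharP k p]
    (φ : integralClosure ℤ ℂ →+* k) :
    ∃ ρ : ResidualGaloisRep k, ρ.IsAttachedTo g φ ∧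
      ∀ ℓ : ℕ, ℓ.Prime → ¬ ℓ ∣ N * p → ρ.IsUnramifiedAt ℓ := by
  rcases Nat.eq_zero_or_pos N with rfl | hN
  · -- level `0`: everything is vacuous
    refine ⟨residualOfMatrix (1 : GQ →* Matrix (Fin 2) (Fin 2) k)
      ⟨⊥, inferInstance, fun _ _ => rfl⟩, ?_, ?_⟩
    · intro ℓ _ hℓ
      exact absurd (dvd_zero ℓ) hℓ
    · intro ℓ _ hℓ
      exact absurd (by simp) hℓ
  have : NeZero N := ⟨hN.ne'⟩
  have h𝔪 : (RingHom.ker φ).IsMaximal := isMaximal_ker hp φ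
  have hp𝔪 : (p : integralClosure ℤ ℂ) ∈ RingHom.ker φ := by
    rw [RingHom.mem_ker, map_natCast]
    exact CharP.cast_eq_zero k p
  obtain ⟨ρ₂, ⟨L, hL, h1⟩, h2, h3⟩ := exists_matrixRep_eigenform hFD hRes hg hp (RingHom.ker φ) hp𝔪
  let ι : integralClosure ℤ ℂ ⧸ RingHom.ker φ →+* k := RingHom.kerLift φ
  have hfin : ∃ L : IntermediateField ℚ Qb, FiniteDimensional ℚ L ∧
      ∀ σ : GQ, (∀ x ∈ L, σ x = x) → mapMatrixRep ι ρ₂ σ = 1 :=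
    ⟨L, hL, fun σ hσ => mapMatrixRep_eq_one ι (h1 σ hσ)⟩
  refine ⟨residualOfMatrix (mapMatrixRep ι ρ₂) hfin, ?_, ?_⟩
  · intro ℓ hℓ hℓN hℓk A hA σ hσ
    have hℓp : ℓ ≠ p := fun h => hℓk (h ▸ CharP.cast_eq_zero k p)
    obtain ⟨a, ha, hchar⟩ := h3 ℓ hℓ hℓN hℓp A hA σ hσ
    refine ⟨a, ha, ?_⟩
    rw [charpoly_residualOfMatrix, charpoly_mapMatrixRep, hchar]
    have hι : ι (Ideal.Quotient.mk (RingHom.ker φ) a) = φ a := RingHom.kerLift_mk φ a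
    rw [Polynomial.map_add, Polynomial.map_sub, Polynomial.map_mul, Polynomial.map_pow,
      Polynomial.map_X, Polynomial.map_C, Polynomial.map_C, map_natCast, hι]
  · intro ℓ hℓ hℓNp A hA σ hσ
    have hℓN : ¬ ℓ ∣ N := fun h => hℓNp (Dvd.dvd.mul_right h p)
    have hℓp : ℓ ≠ p := fun h => hℓNp (h ▸ Dvd.intro_left N rfl)
    exact residualOfMatrix_eq_one _ hfin (mapMatrixRep_eq_one ι (h2 ℓ hℓ hℓN hℓp A hA σ hσ))

end Fermat.Agent.ES.Res29
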