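/-
ES chain, package (H4) (helper96): the frozen statement S42 from `FD.Stmt_FD` and `ResInput`.
-/
import Fermat.Agent.ES.Glue29
import Fermat.Agent.S13.Assembly
import Fermat.Agent.S13.TFinal
import Fermat.Prelude.Def_FreyPackage_EigenformResidualAttachment

set_option autoImplicit false

namespace Fermat.Agent.ES.Res29

open Polynomial Fermat.Agent.ES.RepGalois Fermat.Agent.ES.Rep23 CongruenceSubgroup
open WeierstrassCurve WeierstrassCurve.Affine.Point

local notation "Qb" => AlgebraicClosure ℚ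
local notation "GQ" => (AlgebraicClosure ℚ ≃ₐ[ℚ] AlgebraicClosure ℚ)

/-- The `p`-torsion of the Frey curve has finite level. -/
theorem frey_finiteLevel (P : FreyPackage) :
    ∃ L : IntermediateField ℚ Qb, FiniteDimensional ℚ L ∧ ∀ σ : GQ, (∀ x ∈ L, σ x = x) →
      galoisRepModuleEnd (S := ℚ) (K := Qb) P.freyCurve P.p σ = 1 := by
  have hcard := Fermat.Agent.S13.stmt_card_final P
  have hfin : Finite (Fermat.Agent.S13.Tors P) := Nat.finite_of_card_ne_zero (by
    rw [hcard]; exact pow_ne_zero 2 P.pp.ne_zero)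
  have hopen := Fermat.Agent.S13.asm_isOpen_of_fix_le (P := P)
    (galoisRepModuleEnd (S := ℚ) (K := Qb) P.freyCurve P.p).ker (fun σ hσ => by
      rw [MonoidHom.mem_ker]
      ext x
      exact congrArg Subtype.val (hσ x))
  have hnhds : (((galoisRepModuleEnd (S := ℚ) (K := Qb) P.freyCurve P.p).ker : Subgroup GQ) :
      Set GQ) ∈ nhds (1 : GQ) := hopen.mem_nhds (Subgroup.one_mem _)
  rw [krullTopology_mem_nhds_one_iff] at hnhds
  obtain ⟨E, hE, hsub⟩ := hnhds
  refine ⟨E, hE, fun σ hσ => ?_⟩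
  have : σ ∈ (E.fixingSubgroup : Set GQ) := by
    rw [SetLike.mem_coe, IntermediateField.mem_fixingSubgroup_iff]
    exact hσ
  exact MonoidHom.mem_ker.mp (hsub this)

theorem trace_det_of_charpoly {K : Type} [Field K] (M : Matrix (Fin 2) (Fin 2) K) {t d : K}
    (h : M.charpoly = X ^ 2 - C t * X + C d) : M.trace = t ∧ M.det = d := by
  rw [Matrix.charpoly_fin_two] at h
  have h1 := congrArg (fun f => Polynomial.coeff f 1) h
  have h0 := congrArg (fun f => Polynomial.coeff f 0) h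
  simp only [coeff_add, coeff_sub, coeff_X_pow, coeff_C_mul, coeff_X_one, coeff_C,
    coeff_X_zero] at h1 h0
  norm_num at h1 h0
  exact ⟨h1, h0⟩

/-- **S42** from Frobenius density and the residual Eichler–Shimura input. -/
theorem S42_of (hFD : Fermat.Agent.FD.Stmt_FD) (hRes : ResInputAll) (P : FreyPackage) :
    ∀ M : ℕ, 0 < M → P.EigenformResidualAttachmentAt M := by
  intro M hM g hg 𝔪 h𝔪 hp𝔪
  have : NeZero M := ⟨hM.ne'⟩
  obtain ⟨ρ₂, ⟨L, hL, h1⟩, -, h3⟩ := exists_matrixRep_eigenform hFD hRes hg P.pp 𝔪 hp𝔪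
  letI := Ideal.Quotient.field 𝔪
  have hchar : CharP (integralClosure ℤ ℂ ⧸ 𝔪) P.p := by
    refine (CharP.charP_iff_prime_eq_zero P.pp).mpr ?_
    have := Ideal.Quotient.eq_zero_iff_mem.mpr hp𝔪
    simpa using this
  obtain ⟨L', hL', h4⟩ := frey_finiteLevel P
  obtain ⟨F, hF, hFn, hle⟩ := exists_normal_ge (L ⊔ L') (IntermediateField.finiteDimensional_sup L L')
  have hNF : NumberField F := { to_charZero := inferInstance, to_finiteDimensional := hF }
  have hGal : IsGalois ℚ F := { }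
  have hfix : ∀ σ : GQ, σ ∈ (AlgEquiv.restrictNormalHom (F := ℚ) (K₁ := Qb) F).ker →
      ∀ x ∈ F, σ x = x := by
    intro σ hσ x hx
    have h5 := AlgEquiv.restrictNormal_commutes σ F ⟨x, hx⟩
    have h6 : σ.restrictNormal F = 1 := MonoidHom.mem_ker.mp hσ
    rw [h6] at h5
    exact h5.symm
  refine ⟨integralClosure ℤ ℂ ⧸ 𝔪, inferInstance, ZMod.algebra _ P.p, Fin 2 → (integralClosure ℤ ℂ ⧸ 𝔪),
    inferInstance, inferInstance, linOfMatrix ρ₂, Ideal.Quotient.mk 𝔪, F, inferInstance, hNF, hGal,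
    inferInstance, inferInstance, ?_, Module.finrank_fin_fun _, ?_, ?_, ?_⟩
  · intro x hx
    exact Ideal.Quotient.eq_zero_iff_mem.mpr hx
  · intro σ hσ
    have h7 := hfix σ hσ
    refine Subgroup.mem_inf.mpr ⟨?_, ?_⟩
    · exact MonoidHom.mem_ker.mpr (h4 σ fun x hx => h7 x (hle (le_sup_right (a := L) hx)))
    · exact MonoidHom.mem_ker.mpr
        (linOfMatrix_eq_one (h1 σ fun x hx => h7 x (hle (le_sup_left (b := L') hx))))
  · intro ℓ hℓ hℓM hℓp A hA τ hτ
    obtain ⟨a, ha, hc⟩ := h3 ℓ hℓ hℓM hℓp A hA τ hτ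
    refine ⟨a, ha, ?_⟩
    rw [linOfMatrix_apply, Matrix.trace_toLin'_eq]
    exact (trace_det_of_charpoly _ hc).1
  · intro ℓ hℓ hℓM hℓp A hA τ hτ
    obtain ⟨a, ha, hc⟩ := h3 ℓ hℓ hℓM hℓp A hA τ hτ
    rw [linOfMatrix_apply, LinearMap.det_toLin']
    exact (trace_det_of_charpoly _ hc).2

end Fermat.Agent.ES.Res29
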