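/-
ES chain, package (H5) (helper96): `Rep.Stmt_ES → ResInputAll`
(the residual Eichler–Shimura input from helper85's `ESModule`).

For `ψ : 𝕋 → K` we use `W = {f ∈ Hom_{ℤ_p}(Λ, K) : f ∘ T = ψ(T) f}` with the action
`σ f = ε̄(σ) f ∘ ρ(σ)⁻¹`.  It is nonzero by Nakayama (`H` is a faithful finite `𝕋`-module).
-/
import Fermat.Agent.ES.Glue29
import Fermat.Agent.ES.RepInterface

set_option autoImplicit false

namespace Fermat.Agent.ES.Res29

open Fermat.Agent.ES.RepGalois Fermat.Agent.ES.Rep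

local notation "Qb" => AlgebraicClosure ℚ

section Functional

/-- the kernel of a ring homomorphism from a ring integral over `ℤ` to a field of positive
characteristic is maximal. -/
theorem isMaximal_ker_of_integral {R k : Type*} [CommRing R] [Algebra.IsIntegral ℤ R] [Field k]
    {p : ℕ} (hp : p.Prime) [CharP k p] (φ : R →+* k) : (RingHom.ker φ).IsMaximal := by
  have hprime : (RingHom.ker φ).IsPrime := RingHom.ker_isPrime φ
  have hcomap : (RingHom.ker φ).comap (algebraMap ℤ R) = Ideal.span {(p : ℤ)} := by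
    ext n
    rw [Ideal.mem_comap, RingHom.mem_ker, Ideal.mem_span_singleton]
    have : φ (algebraMap ℤ R n) = (n : k) := by simp
    rw [this]
    exact CharP.intCast_eq_zero_iff k p n
  have hmax : ((RingHom.ker φ).comap (algebraMap ℤ R)).IsMaximal := by
    rw [hcomap]
    have hp' : Prime (p : ℤ) := Nat.prime_iff_prime_int.mp hp
    exact PrincipalIdealRing.isMaximal_of_irreducible hp'.irreducible
  exact Ideal.isMaximal_of_isIntegral_of_isMaximal_comap _ hmax

/-- **Eigenfunctional**: a character of a ring acting faithfully on a finite `ℤ`-module occurs in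
the dual. -/
theorem exists_eigenfunctional {R H K : Type*} [CommRing R] [Algebra.IsIntegral ℤ R]
    [AddCommGroup H] [Module.Finite ℤ H] (Θ : R →+* Module.End ℤ H) (hΘ : Function.Injective Θ)
    [Field K] {p : ℕ} (hp : p.Prime) [CharP K p] (ψ : R →+* K) :
    ∃ f₀ : H →ₗ[ℤ] K, f₀ ≠ 0 ∧ ∀ x h, f₀ (Θ x h) = ψ x * f₀ h := by
  letI : Module R H := Module.compHom H Θ
  have hsmul : ∀ (x : R) (h : H), x • h = Θ x h := fun _ _ => rfl
  have : Module.Finite R H := Module.Finite.of_restrictScalars_finite ℤ R H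
  have hmax : (RingHom.ker ψ).IsMaximal := isMaximal_ker_of_integral hp ψ
  set 𝔪 := RingHom.ker ψ with h𝔪
  have hne : 𝔪 • (⊤ : Submodule R H) ≠ ⊤ := by
    intro htop
    obtain ⟨r, hr1, hr0⟩ := Submodule.exists_sub_one_mem_and_smul_eq_zero_of_fg_of_le_smul 𝔪
      (⊤ : Submodule R H) Module.Finite.fg_top (le_of_eq htop.symm)
    have hr : r = 0 := by
      apply hΘ
      rw [map_zero]
      ext h
      exact hr0 h Submodule.mem_top
    rw [hr, zero_sub] at hr1
    exact hmax.ne_top ((Ideal.eq_top_iff_one _).mpr (by simpa using 𝔪.neg_mem hr1))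
  letI := Ideal.Quotient.field 𝔪
  have hnt : Nontrivial (H ⧸ 𝔪 • (⊤ : Submodule R H)) :=
    Submodule.Quotient.nontrivial_iff.mpr hne
  obtain ⟨v, hv⟩ := exists_ne (0 : H ⧸ 𝔪 • (⊤ : Submodule R H))
  obtain ⟨φ, hφ⟩ : ∃ φ : Module.Dual (R ⧸ 𝔪) (H ⧸ 𝔪 • (⊤ : Submodule R H)), φ v ≠ 0 := by
    by_contra hcon
    push Not at hcon
    exact hv ((Module.forall_dual_apply_eq_zero_iff (R ⧸ 𝔪) v).mp hcon)
  let ψb : R ⧸ 𝔪 →+* K := RingHom.kerLift ψ
  let f₁ : H →+ K :=
    { toFun := fun h => ψb (φ (Submodule.Quotient.mk h))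
      map_zero' := by simp
      map_add' := fun a b => by simp }
  refine ⟨f₁.toIntLinearMap, ?_, ?_⟩
  · intro h0
    obtain ⟨h, rfl⟩ := Submodule.Quotient.mk_surjective _ v
    have h1 : ψb (φ (Submodule.Quotient.mk h)) = 0 := by
      have := LinearMap.congr_fun h0 h
      exact this
    exact hφ ((map_eq_zero ψb).mp h1)
  · intro x h
    show ψb (φ (Submodule.Quotient.mk (Θ x h))) = ψ x * ψb (φ (Submodule.Quotient.mk h))
    have h1 : (Submodule.Quotient.mk (Θ x h) : H ⧸ 𝔪 • (⊤ : Submodule R H)) =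
        (Ideal.Quotient.mk 𝔪 x) • (Submodule.Quotient.mk h : H ⧸ 𝔪 • (⊤ : Submodule R H)) := by
      rw [← hsmul, Module.Quotient.mk_smul_mk]
    rw [h1, map_smul, smul_eq_mul, map_mul]
    rfl

end Functional

section Main

/-- `K` as a `ℤ_[p]`-algebra. -/
@[instance_reducible]
noncomputable def padicAlgebra (p : ℕ) [Fact p.Prime] (K : Type) [Field K] [CharP K p] :
    Algebra ℤ_[p] K :=
  ((ZMod.castHom (dvd_refl p) K).comp PadicInt.toZMod).toAlgebra

attribute [local instance] padicAlgebra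

variable {p : ℕ} [hp : Fact p.Prime] (K : Type) [Field K] [CharP K p]
  {Λ : Type} [AddCommGroup Λ] [Module ℤ_[p] Λ]

theorem p_smul_eq_zero (c : K) : (p : ℤ_[p]) • c = 0 := by
  rw [Algebra.smul_def, map_natCast, CharP.cast_eq_zero K p, zero_mul]

/-- precomposition, as a `K`-linear endomorphism of `Hom(Λ, K)`. -/
noncomputable def precomp (a : Module.End ℤ_[p] Λ) : Module.End K (Λ →ₗ[ℤ_[p]] K) where
  toFun f := f ∘ₗ a
  map_add' f g := LinearMap.add_comp _ _ _
  map_smul' c f := LinearMap.smul_comp _ _ _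

theorem precomp_apply (a : Module.End ℤ_[p] Λ) (f : Λ →ₗ[ℤ_[p]] K) (v : Λ) :
    precomp K a f v = f (a v) := rfl

theorem precomp_one : precomp K (1 : Module.End ℤ_[p] Λ) = 1 := rfl

theorem precomp_mul (a b : Module.End ℤ_[p] Λ) :
    precomp K (a * b) = precomp K b * precomp K a := rfl

/-- the twisted contragredient action on `Hom(Λ, K)`. -/
noncomputable def dualAct (ρ : GQ →* Module.End ℤ_[p] Λ) :
    GQ →* Module.End K (Λ →ₗ[ℤ_[p]] K) where
  toFun σ := epsBar p K σ • precomp K (ρ σ⁻¹)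
  map_one' := by rw [map_one, inv_one, map_one, precomp_one, one_smul]
  map_mul' σ τ := by
    rw [map_mul, mul_inv_rev, map_mul, precomp_mul, smul_mul_smul_comm]

theorem dualAct_apply (ρ : GQ →* Module.End ℤ_[p] Λ) (σ : GQ) (f : Λ →ₗ[ℤ_[p]] K) (v : Λ) :
    dualAct K ρ σ f v = epsBar p K σ * f (ρ σ⁻¹ v) := rfl

/-- the `ψ`-eigenspace in `Hom(Λ, K)`. -/
noncomputable def eigenSpace {R : Type*} [CommRing R] (Θ : R →+* Module.End ℤ_[p] Λ) (ψ : R →+* K) :
    Submodule K (Λ →ₗ[ℤ_[p]] K) where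
  carrier := {f | ∀ x v, f (Θ x v) = ψ x * f v}
  add_mem' := by
    intro f g hf hg x v
    rw [LinearMap.add_apply, LinearMap.add_apply, hf, hg, mul_add]
  zero_mem' := by
    intro x v
    simp
  smul_mem' := by
    intro c f hf x v
    rw [LinearMap.smul_apply, LinearMap.smul_apply, hf, smul_eq_mul, smul_eq_mul]
    ring

/-- restriction of a representation to a stable subspace. -/
def restrictRep {G V : Type*} [Group G] [AddCommGroup V] [Module K V] (ρ : G →* Module.End K V)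
    (W : Submodule K V) (h : ∀ g, ∀ x ∈ W, ρ g x ∈ W) : G →* Module.End K W where
  toFun g := (ρ g).restrict (h g)
  map_one' := by
    ext x
    simp
  map_mul' g g' := by
    ext x
    simp

theorem restrictRep_apply {G V : Type*} [Group G] [AddCommGroup V] [Module K V]
    (ρ : G →* Module.End K V) (W : Submodule K V) (h : ∀ g, ∀ x ∈ W, ρ g x ∈ W) (g : G) (x : W) :
    ((restrictRep K ρ W h g x : W) : V) = ρ g x := rfl

theorem restrict_dualAct_eq_one (ρ : GQ →* Module.End ℤ_[p] Λ)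
    (W : Submodule K (Λ →ₗ[ℤ_[p]] K)) (h : ∀ σ, ∀ x ∈ W, dualAct K ρ σ x ∈ W) (σ : GQ)
    (hε : epsBar p K σ = 1) (hg : ∀ g ∈ W, ∀ v, g (ρ σ⁻¹ v) = g v) :
    restrictRep K (dualAct K ρ) W h σ = 1 := by
  apply LinearMap.ext
  intro g
  apply Subtype.ext
  apply LinearMap.ext
  intro v
  show epsBar p K σ * g.1 (ρ σ⁻¹ v) = g.1 v
  rw [hε, one_mul, hg g.1 g.2]

theorem restrictRep_quad {G V : Type*} [Group G] [AddCommGroup V] [Module K V]
    (ρ : G →* Module.End K V) (W : Submodule K V) (h : ∀ g, ∀ x ∈ W, ρ g x ∈ W) (σ : G) (e t : K)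
    (hq : ∀ x ∈ W, ρ σ (ρ σ x) - t • ρ σ x + e • x = 0) :
    restrictRep K ρ W h σ * restrictRep K ρ W h σ
      - t • restrictRep K ρ W h σ + e • (1 : Module.End K W) = 0 := by
  apply LinearMap.ext
  intro x
  apply Subtype.ext
  exact hq x.1 x.2

theorem dualAct_quad (ρ : GQ →* Module.End ℤ_[p] Λ) (σ : GQ) (e t : K) (hε : epsBar p K σ = e)
    (g : Λ →ₗ[ℤ_[p]] K)
    (hg : ∀ v, e * g (ρ σ⁻¹ (ρ σ⁻¹ v)) - t * g (ρ σ⁻¹ v) + g v = 0) :
    dualAct K ρ σ (dualAct K ρ σ g) - t • dualAct K ρ σ g + e • g = 0 := by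
  apply LinearMap.ext
  intro v
  show epsBar p K σ * (epsBar p K σ * g (ρ σ⁻¹ (ρ σ⁻¹ v))) - t * (epsBar p K σ * g (ρ σ⁻¹ v))
    + e * g v = 0
  rw [hε]
  linear_combination e * hg v

/-- **The residual input from an `ESModule`.** -/
theorem resInput_of_esModule {N : ℕ} [NeZero N] {S : Set ℕ} (X : ESModule p N S) :
    ResInput p N S := by
  intro K _ _ _ ψ
  have hint : Algebra.IsIntegral ℤ (CuspForm.heckeAlgebra N 2 S) := by
    have : Module.Finite ℤ (CuspForm.heckeAlgebra N 2 S) := Fermat.Agent.S22.result N 2 S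
    infer_instance
  -- the eigenfunctional
  obtain ⟨f₀, hf₀, hf₀Θ⟩ := exists_eigenfunctional X.Θ X.Θ_injective hp.out ψ
  let f : X.Λ →ₗ[ℤ_[p]] K := X.isBaseChange.lift f₀
  have hfι : ∀ h, f (X.ι h) = f₀ h := fun h => X.isBaseChange.lift_eq f₀ h
  have hfmem : f ∈ eigenSpace K X.ΘΛ ψ := by
    intro x
    have h1 : f ∘ₗ X.ΘΛ x = ψ x • f := by
      refine X.isBaseChange.algHom_ext _ _ fun h => ?_
      rw [LinearMap.comp_apply, X.ΘΛ_ι, hfι, hf₀Θ, LinearMap.smul_apply, hfι, smul_eq_mul]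
    intro v
    have := LinearMap.congr_fun h1 v
    rwa [LinearMap.comp_apply, LinearMap.smul_apply, smul_eq_mul] at this
  have hfne : f ≠ 0 := by
    intro h0
    apply hf₀
    ext h
    rw [← hfι, h0]
    simp
  -- stability
  have hstab : ∀ σ : GQ, ∀ g ∈ eigenSpace K X.ΘΛ ψ, dualAct K X.ρ σ g ∈ eigenSpace K X.ΘΛ ψ := by
    intro σ g hg x v
    rw [dualAct_apply, dualAct_apply]
    have h1 : X.ρ σ⁻¹ (X.ΘΛ x v) = X.ΘΛ x (X.ρ σ⁻¹ v) :=
      LinearMap.congr_fun (X.comm σ⁻¹ x) v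
    rw [h1, hg]
    ring
  -- finite dimensionality
  have hfd : FiniteDimensional K (X.Λ →ₗ[ℤ_[p]] K) := by
    let b := Module.Free.chooseBasis ℤ X.H
    let ev : (X.Λ →ₗ[ℤ_[p]] K) →ₗ[K] (Module.Free.ChooseBasisIndex ℤ X.H → K) :=
      { toFun := fun g i => g (X.ι (b i))
        map_add' := fun _ _ => rfl
        map_smul' := fun _ _ => rfl }
    refine FiniteDimensional.of_injective ev ?_
    rw [← LinearMap.ker_eq_bot, LinearMap.ker_eq_bot']
    intro g hg
    refine X.isBaseChange.algHom_ext _ _ fun h => ?_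
    have h1 : (g.restrictScalars ℤ) ∘ₗ X.ι = 0 := by
      refine b.ext fun i => ?_
      exact congrFun hg i
    have := LinearMap.congr_fun h1 h
    simpa using this
  have hnt : Nontrivial (eigenSpace K X.ΘΛ ψ) :=
    ⟨⟨⟨f, hfmem⟩, 0, fun h => hfne (congrArg Subtype.val h)⟩⟩
  refine ⟨eigenSpace K X.ΘΛ ψ, inferInstance, inferInstance, inferInstance, hnt,
    restrictRep K (dualAct K X.ρ) _ hstab, ?_, ?_, ?_⟩
  · -- finite level
    obtain ⟨L₁, hL₁, h1⟩ := X.continuous 1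
    obtain ⟨L₂, hL₂, h2⟩ := exists_level p hp.out.pos
    refine ⟨L₁ ⊔ L₂, IntermediateField.finiteDimensional_sup L₁ L₂, fun σ hσ => ?_⟩
    have hσ1 : ∀ x ∈ L₁, σ⁻¹ x = x := by
      intro x hx
      have := hσ x (le_sup_left (b := L₂) hx)
      calc σ⁻¹ x = σ⁻¹ (σ x) := by rw [this]
        _ = x := AlgEquiv.symm_apply_apply σ x
    have hε : epsBar p K σ = 1 := by
      have h3 : IsCyc p σ 1 :=
        h2 1 σ (fun x hx => (hσ x (le_sup_right (a := L₁) hx)).symm) _ (isCyc_one p)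
      rw [epsBar_eq p K h3, Nat.cast_one]
    refine restrict_dualAct_eq_one K X.ρ _ hstab σ hε fun g _ v => ?_
    obtain ⟨w, hw⟩ := h1 σ⁻¹ hσ1 v
    have h4 : X.ρ σ⁻¹ v = v + (p : ℤ_[p]) ^ 1 • w := by rw [← hw]; abel
    rw [h4, map_add, map_smul, pow_one, p_smul_eq_zero, add_zero]
  · -- unramified
    intro q hq hqN hqp A hA σ hσ
    have hε : epsBar p K σ = 1 := by
      have h3 : IsCyc p σ 1 :=
        isCyc_inertia hq hA hσ (fun h => hqp ((Nat.prime_dvd_prime_iff_eq hq hp.out).mp h))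
      rw [epsBar_eq p K h3, Nat.cast_one]
    have h5 : X.ρ σ⁻¹ = 1 := by
      have h6 : X.ρ σ⁻¹ * X.ρ σ = 1 := by rw [← map_mul, inv_mul_cancel, map_one]
      rwa [X.unramified q hq hqN hqp A hA σ hσ, mul_one] at h6
    refine restrict_dualAct_eq_one K X.ρ _ hstab σ hε fun g _ v => ?_
    rw [h5, Module.End.one_apply]
  · -- Eichler–Shimura
    intro ℓ hℓ hℓN hℓS hℓp A hA σ hσ
    have hε : epsBar p K σ = (ℓ : K) := by
      have h3 : IsCyc p σ ℓ :=
        isCyc_frob hℓ hA hσ (fun h => hℓp ((Nat.prime_dvd_prime_iff_eq hℓ hp.out).mp h))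
      rw [epsBar_eq p K h3]
    have hES := X.eichlerShimura ℓ hℓ hℓN hℓS hℓp A hA σ hσ
    have hinv : ∀ v, X.ρ σ (X.ρ σ⁻¹ v) = v := by
      intro v
      have h6 : X.ρ σ * X.ρ σ⁻¹ = 1 := by rw [← map_mul, mul_inv_cancel, map_one]
      exact LinearMap.congr_fun h6 v
    refine restrictRep_quad K _ _ hstab σ _ _ fun g hg => dualAct_quad K X.ρ σ _ _ hε g fun v => ?_
    -- apply the relation to `u = ρ σ⁻¹ (ρ σ⁻¹ v)`
    set u := X.ρ σ⁻¹ (X.ρ σ⁻¹ v) with hu
    have h7 := LinearMap.congr_fun hES u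
    simp only [LinearMap.add_apply, LinearMap.sub_apply, Module.End.mul_apply,
      LinearMap.smul_apply, Module.End.one_apply, LinearMap.zero_apply] at h7
    rw [hu, hinv, hinv] at h7
    have h8 := congrArg g h7
    rw [map_add, map_sub, map_zero, hg, map_smul, Algebra.smul_def, map_natCast] at h8
    linear_combination h8

/-- `Stmt_ES → ResInputAll`. -/
theorem resInputAll_of (h : Stmt_ES) : ResInputAll := by
  intro p _ N _ S hpS hNS
  obtain ⟨X⟩ := h p N S hpS hNS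
  exact resInput_of_esModule X

end Main

end Fermat.Agent.ES.Res29
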