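import Fermat.Agent.ES.All
import Fermat.Agent.ES.Glue29
import Fermat.Agent.ES.Glue42
import Fermat.Agent.ES.ResOfES
import Fermat.Agent.FD.Main

/-!
# ES : S29 and S42 from Claim K
-/

set_option autoImplicit false

namespace Fermat.Agent.ES.Final2942

open CuspForm CuspForm.IsNormalizedEigenform FreyPackage

theorem resInputAll_of_claimK (hK : Fermat.Agent.S18.Stmt_ClaimK) : Fermat.Agent.ES.Res29.ResInputAll :=
  Fermat.Agent.ES.Res29.resInputAll_of (Fermat.Agent.ES.All.stmt_ES_of hK)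

theorem S29_of_claimK (hK : Fermat.Agent.S18.Stmt_ClaimK)
    {N : ℕ} {g : CuspForm (CongruenceSubgroup.Gamma0 N) 2} (hg : g.IsNormalizedEigenform)
    {p : ℕ} (hp : p.Prime) {k : Type} [Field k] [CharP k p]
    (φ : integralClosure ℤ ℂ →+* k) :
    ∃ ρ : ResidualGaloisRep k, ρ.IsAttachedTo g φ ∧
      ∀ ℓ : ℕ, ℓ.Prime → ¬ ℓ ∣ N * p → ρ.IsUnramifiedAt ℓ :=
  Fermat.Agent.ES.Res29.S29_of Fermat.Agent.FD.stmt_FD (resInputAll_of_claimK hK) hg hp φ

theorem S42_of_claimK (hK : Fermat.Agent.S18.Stmt_ClaimK) (P : FreyPackage) :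
    ∀ M : ℕ, 0 < M → P.EigenformResidualAttachmentAt M :=
  Fermat.Agent.ES.Res29.S42_of Fermat.Agent.FD.stmt_FD (resInputAll_of_claimK hK) P

end Fermat.Agent.ES.Final2942
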