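import Fermat.Agent.ES.Rep23.Basic

/-!
# ES / REP : the density step (pure algebra)

If an endomorphism of a finite free module is a scalar modulo `I ^ n` for all `n` (and
`⨅ n, I ^ n = ⊥`) then it is a scalar.  Consequently the quadratic relation
`ρ g ^ 2 - t g • ρ g + ε g = 0` propagates from an `I`-adically dense subset of `G` to all of `G`.
-/

set_option autoImplicit false

namespace Fermat.Agent.ES.Rep

open Fermat.Agent.ES.Rep23

section Scalar

variable {O : Type*} [CommRing O] {M : Type*} [AddCommGroup M] [Module O M]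

theorem repr_mem_of_mem_smul_top' {ι : Type*} (b : Module.Basis ι O M) (I : Ideal O) {x : M}
    (hx : x ∈ I • (⊤ : Submodule O M)) (i : ι) : b.repr x i ∈ I := by
  induction hx using Submodule.smul_induction_on' with
  | smul r hr n _ =>
    rw [map_smul, Finsupp.smul_apply, smul_eq_mul]
    exact I.mul_mem_right _ hr
  | add x _ y _ hx hy =>
    rw [map_add, Finsupp.add_apply]
    exact I.add_mem hx hy

theorem map_mem_smul_top (I : Ideal O) (f : Module.End O M) {x : M}
    (hx : x ∈ I • (⊤ : Submodule O M)) : f x ∈ I • (⊤ : Submodule O M) := by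
  induction hx using Submodule.smul_induction_on' with
  | smul r hr n _ =>
    rw [map_smul]
    exact Submodule.smul_mem_smul hr Submodule.mem_top
  | add x _ y _ hx hy =>
    rw [map_add]
    exact Submodule.add_mem _ hx hy

variable [Module.Free O M]

theorem scalar_of_scalar_mod (I : Ideal O) (hI : ⨅ n : ℕ, I ^ n = ⊥) (B : Module.End O M)
    (h : ∀ n : ℕ, ∃ s : O, ∀ v, B v - s • v ∈ (I ^ n) • (⊤ : Submodule O M)) :
    ∃ t : O, B = t • 1 := by
  classical
  let b := Module.Free.chooseBasis O M
  by_cases hemp : IsEmpty (Module.Free.ChooseBasisIndex O M)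
  · refine ⟨0, ?_⟩
    apply b.ext
    intro i
    exact (hemp.false i).elim
  · rw [not_isEmpty_iff] at hemp
    obtain ⟨i0⟩ := hemp
    refine ⟨b.repr (B (b i0)) i0, ?_⟩
    apply b.ext
    intro j
    apply b.repr.injective
    ext i
    rw [← sub_eq_zero, ← Ideal.mem_bot, ← hI, Submodule.mem_iInf]
    intro n
    obtain ⟨s, hs⟩ := h n
    have h1 := repr_mem_of_mem_smul_top' b (I ^ n) (hs (b j)) i
    have h2 := repr_mem_of_mem_smul_top' b (I ^ n) (hs (b i0)) i0
    simp only [map_sub, map_smul, Finsupp.sub_apply, Finsupp.smul_apply, Module.Basis.repr_self,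
      Finsupp.single_eq_same, smul_eq_mul, mul_one] at h1 h2
    simp only [LinearMap.smul_apply, Module.End.one_apply, map_smul, Finsupp.smul_apply,
      Module.Basis.repr_self, smul_eq_mul]
    have : (b.repr (B (b j))) i - (b.repr (B (b i0))) i0 * (Finsupp.single j (1 : O)) i =
        ((b.repr (B (b j))) i - s * (Finsupp.single j (1 : O)) i) -
          ((b.repr (B (b i0))) i0 - s) * (Finsupp.single j (1 : O)) i := by ring
    rw [this]
    exact (I ^ n).sub_mem h1 ((I ^ n).mul_mem_right _ h2)

variable {G : Type*} [Group G]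

/-- The quadratic relation propagates from a dense subset. -/
theorem quadRel_of_dense (ρ : G →* Module.End O M) (ε : G →* O) (I : Ideal O)
    (hI : ⨅ n : ℕ, I ^ n = ⊥)
    (hd : ∀ (g : G) (n : ℕ), ∃ (h : G) (s : O),
      ρ h * ρ h - s • ρ h + ε h • (1 : Module.End O M) = 0 ∧
      (∀ v, ρ g v - ρ h v ∈ (I ^ n) • (⊤ : Submodule O M)) ∧ ε g - ε h ∈ I ^ n) :
    ∃ t : G → O, QuadRel ρ ε t := by
  have key : ∀ g : G, ∃ t : O, ρ g + ε g • ρ g⁻¹ = t • 1 := by
    intro g
    apply scalar_of_scalar_mod I hI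
    intro n
    obtain ⟨h, s, hq, hρ, hε⟩ := hd g n
    refine ⟨s, fun v => ?_⟩
    set w := ρ g⁻¹ v with hw
    have hv : v = ρ g w := by
      rw [hw, ← Module.End.mul_apply, ← map_mul, mul_inv_cancel, map_one, Module.End.one_apply]
    have hq' : ρ h (ρ h w) - s • ρ h w + ε h • w = 0 := by
      have := congrArg (fun f : Module.End O M => f w) hq
      simpa using this
    have e : (ρ g + ε g • ρ g⁻¹) v - s • v =
        (ρ g (ρ g w) - ρ h (ρ g w)) + ρ h (ρ g w - ρ h w) - s • (ρ g w - ρ h w)
          + (ε g - ε h) • w := by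
      have e1 : (ρ g + ε g • ρ g⁻¹) v - s • v = ρ g (ρ g w) + ε g • w - s • ρ g w := by
        rw [LinearMap.add_apply, LinearMap.smul_apply, ← hw, hv]
      rw [e1, map_sub, smul_sub, sub_smul]
      have : ρ g (ρ g w) + ε g • w - s • ρ g w =
          ρ g (ρ g w) + ε g • w - s • ρ g w - (ρ h (ρ h w) - s • ρ h w + ε h • w) := by
        rw [hq', sub_zero]
      rw [this]
      abel
    rw [e]
    refine Submodule.add_mem _ (Submodule.sub_mem _ (Submodule.add_mem _ (hρ _) ?_) ?_) ?_
    · exact map_mem_smul_top _ _ (hρ w)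
    · exact Submodule.smul_mem _ _ (hρ w)
    · exact Submodule.smul_mem_smul hε Submodule.mem_top
  choose t ht using key
  refine ⟨t, fun g => ?_⟩
  have h1 := congrArg (· * ρ g) (ht g)
  simp only [add_mul, smul_mul_assoc, one_mul] at h1
  rw [← map_mul ρ g⁻¹ g, inv_mul_cancel, map_one] at h1
  rw [← h1]
  abel

end Scalar

end Fermat.Agent.ES.Rep
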