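import Fermat.Agent.ES.Rep23.Galois
import Fermat.Agent.ES.RepGalois
import Fermat.Agent.ES.RepDense
import Fermat.Agent.FD.Interface

/-!
# ES / REP : from a Galois module with Eichler--Shimura relations to a `GaloisRepAdic`

`exists_galoisRepAdic` : let `𝒪` be a discrete valuation ring of characteristic zero receiving
`ℤ_[p]`, `M ≠ 0` a finite free `𝒪`-module with a continuous action `ρ` of `G_ℚ` such that every
Frobenius lift `σ` at a prime `ℓ ∉ S` satisfies `ρ σ ^ 2 - a ℓ • ρ σ + ℓ = 0`.  Then (assuming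
Frobenius density) there is a `GaloisRepAdic 𝒪` with characteristic polynomial
`X ^ 2 - a ℓ X + ℓ` at all those Frobenius lifts, and which is trivial on every inertia element at
`q ≠ p` acting trivially on `M`.
-/

set_option autoImplicit false

namespace Fermat.Agent.ES.Rep

open Fermat.Agent.ES.Rep23 Fermat.Agent.ES.RepGalois Polynomial

local notation "Qb" => AlgebraicClosure ℚ
local notation "GQ'" => (AlgebraicClosure ℚ ≃ₐ[ℚ] AlgebraicClosure ℚ)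

section

variable (p : ℕ) [Fact p.Prime]
  {𝒪 : Type} [CommRing 𝒪] [IsDomain 𝒪] [IsDiscreteValuationRing 𝒪] [CharZero 𝒪]

/-- The cyclotomic character with values in `𝒪`. -/
noncomputable def epsO (φ : ℤ_[p] →+* 𝒪) : GQ' →* 𝒪 :=
  (φ : ℤ_[p] →* 𝒪).comp ((Units.coeHom ℤ_[p]).comp (eps p))

theorem epsO_apply (φ : ℤ_[p] →+* 𝒪) (g : GQ') : epsO p φ g = φ ((eps p g : ℤ_[p]ˣ) : ℤ_[p]) := rfl

theorem map_span_pow_le (φ : ℤ_[p] →+* 𝒪) (hp : (p : 𝒪) ∈ IsLocalRing.maximalIdeal 𝒪) (n : ℕ)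
    {x : ℤ_[p]} (hx : x ∈ (Ideal.span {(p : ℤ_[p]) ^ n} : Ideal ℤ_[p])) :
    φ x ∈ IsLocalRing.maximalIdeal 𝒪 ^ n := by
  obtain ⟨y, rfl⟩ := Ideal.mem_span_singleton'.1 hx
  rw [map_mul, map_pow, map_natCast]
  exact Ideal.mul_mem_left _ _ (Ideal.pow_mem_pow hp n)

theorem exists_galoisRepAdic (hFD : Fermat.Agent.FD.Stmt_FD)
    (hp : (p : 𝒪) ∈ IsLocalRing.maximalIdeal 𝒪) (φ : ℤ_[p] →+* 𝒪)
    (M : Type) [AddCommGroup M] [Module 𝒪 M] [Module.Free 𝒪 M] [Module.Finite 𝒪 M] [Nontrivial M]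
    (ρ : GQ' →* Module.End 𝒪 M)
    (hcont : ∀ n : ℕ, ∃ L : IntermediateField ℚ Qb, FiniteDimensional ℚ L ∧
      ∀ σ : GQ', (∀ x ∈ L, σ x = x) →
        ∀ v : M, ρ σ v - v ∈ (IsLocalRing.maximalIdeal 𝒪 ^ n) • (⊤ : Submodule 𝒪 M))
    (S : Finset ℕ) (hpS : p ∈ S) (a : ℕ → 𝒪)
    (hES : ∀ ℓ : ℕ, ℓ.Prime → ℓ ∉ S → ∀ A : ValuationSubring Qb, A.LiesOverPrime ℓ →
      ∀ σ : GQ', A.IsFrobeniusAt σ ℓ →
        ρ σ * ρ σ - a ℓ • ρ σ + (ℓ : 𝒪) • (1 : Module.End 𝒪 M) = 0) :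
    ∃ r : GaloisRepAdic 𝒪,
      (∀ ℓ : ℕ, ℓ.Prime → ℓ ∉ S → ∀ A : ValuationSubring Qb, A.LiesOverPrime ℓ →
        ∀ σ : GQ', A.IsFrobeniusAt σ ℓ →
          LinearMap.charpoly (r.ρ σ) = X ^ 2 - C (a ℓ) * X + C (ℓ : 𝒪)) ∧
      (∀ q : ℕ, q.Prime → q ≠ p → ∀ P : ValuationSubring Qb, P.LiesOverPrime q →
        ∀ σ ∈ P.inertiaSubgroupIn ℚ, ρ σ = 1 → r.ρ σ = 1) := by
  classical
  set 𝔪 := IsLocalRing.maximalIdeal 𝒪 with h𝔪
  set ε : GQ' →* 𝒪 := epsO p φ with hε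
  have hKrull : ⨅ n : ℕ, 𝔪 ^ n = ⊥ :=
    Ideal.iInf_pow_eq_bot_of_isLocalRing 𝔪 (Ideal.IsPrime.ne_top inferInstance)
  have hεfrob : ∀ ℓ : ℕ, ℓ.Prime → ℓ ∉ S → ∀ A : ValuationSubring Qb, A.LiesOverPrime ℓ →
      ∀ σ : GQ', A.IsFrobeniusAt σ ℓ → ε σ = (ℓ : 𝒪) := by
    intro ℓ hℓ hℓS A hA σ hσ
    have hℓp : ℓ ≠ p := fun h => hℓS (h ▸ hpS)
    rw [hε, epsO_apply, eps_frob p hℓ hℓp hA hσ, map_natCast]
  -- common level
  have hlevel : ∀ n : ℕ, ∃ L : IntermediateField ℚ Qb, FiniteDimensional ℚ L ∧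
      (∀ σ : GQ', (∀ x ∈ L, σ x = x) → ∀ v : M, ρ σ v - v ∈ (𝔪 ^ n) • (⊤ : Submodule 𝒪 M)) ∧
      (∀ g h : GQ', (∀ x ∈ L, g x = h x) → ε g - ε h ∈ 𝔪 ^ n) := by
    intro n
    obtain ⟨L1, hL1, h1⟩ := hcont n
    obtain ⟨L2, hL2, h2⟩ := eps_level' p n
    refine ⟨L1 ⊔ L2, IntermediateField.finiteDimensional_sup L1 L2, ?_, ?_⟩
    · intro σ hσ
      exact h1 σ fun x hx => hσ x ((le_sup_left : L1 ≤ L1 ⊔ L2) hx)
    · intro g h hgh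
      have := h2 g h fun x hx => hgh x ((le_sup_right : L2 ≤ L1 ⊔ L2) hx)
      rw [hε, epsO_apply, epsO_apply, ← map_sub]
      exact map_span_pow_le p φ hp n this
  -- density
  have hd : ∀ (g : GQ') (n : ℕ), ∃ (h : GQ') (s : 𝒪),
      ρ h * ρ h - s • ρ h + ε h • (1 : Module.End 𝒪 M) = 0 ∧
      (∀ v, ρ g v - ρ h v ∈ (𝔪 ^ n) • (⊤ : Submodule 𝒪 M)) ∧ ε g - ε h ∈ 𝔪 ^ n := by
    intro g n
    obtain ⟨L, hL, h1, h2⟩ := hlevel n
    obtain ⟨L', hL', hL'n, hLL'⟩ := exists_normal_ge L hL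
    obtain ⟨ℓ, A, σ, k, -, hℓ, hℓS, hA, hσ, hgk, -⟩ := @hFD L' hL' hL'n g S
    obtain ⟨s, hs⟩ := exists_quad_pow (hES ℓ hℓ hℓS A hA σ hσ) k
    refine ⟨σ ^ k, s, ?_, ?_, ?_⟩
    · rw [map_pow, map_pow, hεfrob ℓ hℓ hℓS A hA σ hσ]
      exact hs
    · intro v
      have hfix : ∀ x ∈ L, ((σ ^ k)⁻¹ * g) x = x := by
        intro x hx
        rw [AlgEquiv.mul_apply, hgk x (hLL' hx)]
        exact (σ ^ k).symm_apply_apply x
      have h3 := h1 _ hfix v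
      have h4 : ρ g v - ρ (σ ^ k) v = ρ (σ ^ k) (ρ ((σ ^ k)⁻¹ * g) v - v) := by
        rw [map_sub, ← Module.End.mul_apply, ← map_mul, mul_inv_cancel_left]
      rw [h4]
      exact map_mem_smul_top _ _ h3
    · exact h2 g (σ ^ k) fun x hx => hgk x (hLL' hx)
  obtain ⟨t, ht⟩ := quadRel_of_dense ρ ε 𝔪 hKrull hd
  obtain ⟨c, hcc, -, -, hcε⟩ := exists_conj_eps
  have hcase : IsAlgClosed (FractionRing 𝒪) ∨
      ((2 : FractionRing 𝒪) ≠ 0 ∧ ∃ c, ρ c * ρ c = 1 ∧ ε c = -1) := by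
    refine Or.inr ⟨two_ne_zero, c, ?_, ?_⟩
    · rw [← map_mul, hcc, map_one]
    · rw [hε, epsO_apply, hcε p]
      simp
  obtain ⟨ρ₂, hchar, hctrl⟩ := exists_rep_two_module (FractionRing 𝒪) ρ ε t ht hcase
  have hcont₂ : ∀ n : ℕ, ∃ L : IntermediateField ℚ (AlgebraicClosure ℚ), FiniteDimensional ℚ L ∧
      ∀ σ : GQ', (∀ x ∈ L, σ x = x) → ∀ i j, (ρ₂ σ - 1) i j ∈ IsLocalRing.maximalIdeal 𝒪 ^ n := by
    intro n
    obtain ⟨L, hL, h1, h2⟩ := hlevel n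
    refine ⟨L, hL, fun σ hσ => hctrl _ σ (h1 σ hσ) ?_⟩
    have := h2 σ 1 (fun x hx => by rw [hσ x hx]; rfl)
    rwa [map_one] at this
  refine ⟨adicOfMatrix ρ₂ hcont₂, ?_, ?_⟩
  · intro ℓ hℓ hℓS A hA σ hσ
    rw [charpoly_adicOfMatrix, hchar, hεfrob ℓ hℓ hℓS A hA σ hσ]
    have h1 := ht σ
    have h2 := hES ℓ hℓ hℓS A hA σ hσ
    rw [hεfrob ℓ hℓ hℓS A hA σ hσ] at h1
    have h3 : (t σ - a ℓ) • ρ σ = 0 := by
      rw [sub_smul]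
      have : t σ • ρ σ - a ℓ • ρ σ =
          (ρ σ * ρ σ - a ℓ • ρ σ + (ℓ : 𝒪) • (1 : Module.End 𝒪 M)) -
            (ρ σ * ρ σ - t σ • ρ σ + (ℓ : 𝒪) • (1 : Module.End 𝒪 M)) := by abel
      rw [this, h1, h2, sub_zero]
    have h4 : (t σ - a ℓ) • (1 : Module.End 𝒪 M) = 0 := by
      have := congrArg (· * ρ σ⁻¹) h3
      simp only [smul_mul_assoc, zero_mul] at this
      rwa [← map_mul, mul_inv_cancel, map_one] at this
    have h5 : t σ = a ℓ := by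
      obtain ⟨v, hv⟩ := exists_ne (0 : M)
      have := congrArg (fun f : Module.End 𝒪 M => f v) h4
      simp only [LinearMap.smul_apply, Module.End.one_apply, LinearMap.zero_apply] at this
      exact sub_eq_zero.1 ((smul_eq_zero.1 this).resolve_right hv)
    rw [h5]
  · intro q hq hqp P hP σ hσ hρσ
    apply adicOfMatrix_eq_one
    apply eq_one_of_forall_mem_bot
    apply hctrl ⊥ σ
    · intro x
      rw [hρσ, Module.End.one_apply, sub_self]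
      exact Submodule.zero_mem _
    · rw [hε, epsO_apply, eps_inertia p hq hqp hP hσ, Units.val_one, map_one, sub_self]
      exact Submodule.zero_mem _

end

end Fermat.Agent.ES.Rep
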