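import Mathlib

/-! # ES / M3 : extraction of `m`-th roots of holomorphic functions

`f` holomorphic on a ball (resp. on an increasing union of balls, e.g. the upper half plane), not
identically zero, all of whose zeros have multiplicity divisible by `m`, is the `m`-th power of a
holomorphic function. -/

set_option autoImplicit false

open Complex Metric Set Filter Topology

namespace Fermat.Agent.ES.Root25

/-- A nowhere vanishing holomorphic function on a ball has a holomorphic logarithm. -/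
theorem exists_log_ball {c : ℂ} {r : ℝ} {g : ℂ → ℂ} (hg : DifferentiableOn ℂ g (ball c r))
    (hne : ∀ z ∈ ball c r, g z ≠ 0) :
    ∃ L : ℂ → ℂ, DifferentiableOn ℂ L (ball c r) ∧ ∀ z ∈ ball c r, exp (L z) = g z := by
  rcases le_or_gt r 0 with hr | hr
  · exact ⟨0, by simp [ball_eq_empty.2 hr], by simp [ball_eq_empty.2 hr]⟩
  have hc : c ∈ ball c r := mem_ball_self hr
  have hd : DifferentiableOn ℂ (fun z => deriv g z / g z) (ball c r) :=
    (hg.deriv isOpen_ball).div hg hne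
  obtain ⟨L, hLc, hL⟩ := hd.isExactOn_ball.with_val_at c (Complex.log (g c))
  have hLd : DifferentiableOn ℂ L (ball c r) :=
    fun z hz => (hL z hz).differentiableAt.differentiableWithinAt
  refine ⟨L, hLd, ?_⟩
  -- `F = g * exp (-L)` has zero derivative
  have hF : ∀ z ∈ ball c r, HasDerivAt (fun w => g w * exp (-L w)) 0 z := by
    intro z hz
    have h1 : HasDerivAt g (deriv g z) z :=
      (hg.differentiableAt (isOpen_ball.mem_nhds hz)).hasDerivAt
    have h2 : HasDerivAt (fun w => exp (-L w)) (exp (-L z) * -(deriv g z / g z)) z :=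
      (hL z hz).neg.cexp
    have h3 := h1.fun_mul h2
    have h4 : deriv g z * exp (-L z) + g z * (exp (-L z) * -(deriv g z / g z)) = 0 := by
      have := hne z hz
      rw [mul_neg, mul_neg, mul_comm (exp (-L z)), ← mul_assoc, mul_div_cancel₀ _ this]
      ring
    rwa [h4] at h3
  have hFd : DifferentiableOn ℂ (fun w => g w * exp (-L w)) (ball c r) :=
    fun z hz => (hF z hz).differentiableAt.differentiableWithinAt
  intro z hz
  have hconst := isOpen_ball.is_const_of_deriv_eq_zero (convex_ball c r).isPreconnected hFd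
    (fun w hw => (hF w hw).deriv) hz hc
  rw [hLc, Complex.exp_neg, Complex.exp_neg, Complex.exp_log (hne c hc),
    mul_inv_cancel₀ (hne c hc)] at hconst
  have hne' : exp (L z) ≠ 0 := Complex.exp_ne_zero _
  field_simp at hconst
  exact hconst.symm

/-- A nowhere vanishing holomorphic function on a ball has a holomorphic `m`-th root. -/
theorem exists_root_ball_of_ne_zero {c : ℂ} {r : ℝ} {g : ℂ → ℂ}
    (hg : DifferentiableOn ℂ g (ball c r)) (hne : ∀ z ∈ ball c r, g z ≠ 0) {m : ℕ} (hm : 0 < m) :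
    ∃ e : ℂ → ℂ, DifferentiableOn ℂ e (ball c r) ∧ ∀ z ∈ ball c r, e z ^ m = g z := by
  obtain ⟨L, hLd, hL⟩ := exists_log_ball hg hne
  refine ⟨fun z => exp (L z / m), (hLd.div_const _).cexp, fun z hz => ?_⟩
  have hm' : (m : ℂ) ≠ 0 := by exact_mod_cast hm.ne'
  rw [← Complex.exp_nat_mul, mul_div_cancel₀ _ hm', hL z hz]

/-- Uniqueness: two holomorphic `m`-th roots of the same function on a preconnected open set which
agree (and do not vanish) at one point are equal. -/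
theorem eqOn_of_pow_eq {V : Set ℂ} (hVc : IsPreconnected V) {a b : ℂ → ℂ}
    (ha : AnalyticOnNhd ℂ a V) (hb : AnalyticOnNhd ℂ b V) {m : ℕ} (hm : 0 < m)
    (hab : ∀ z ∈ V, a z ^ m = b z ^ m) (hVo : IsOpen V) {z₀ : ℂ} (hz₀ : z₀ ∈ V) (h0 : a z₀ = b z₀)
    (hne : a z₀ ≠ 0) : EqOn a b V := by
  refine ha.eqOn_of_preconnected_of_eventuallyEq hb hVc hz₀ ?_
  set S : ℂ → ℂ := fun z => ∑ i ∈ Finset.range m, a z ^ i * b z ^ (m - 1 - i) with hS
  have hScont : ContinuousAt S z₀ := by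
    have h1 := (ha z₀ hz₀).continuousAt
    have h2 := (hb z₀ hz₀).continuousAt
    simp only [hS]
    fun_prop
  have hS0 : S z₀ ≠ 0 := by
    have : S z₀ = m * a z₀ ^ (m - 1) := by
      simp only [hS, ← h0]
      rw [Finset.sum_congr rfl (fun i hi => ?_), Finset.sum_const, Finset.card_range, nsmul_eq_mul]
      rw [← pow_add]
      congr 1
      have := Finset.mem_range.1 hi
      omega
    rw [this]
    exact mul_ne_zero (by exact_mod_cast hm.ne') (pow_ne_zero _ hne)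
  filter_upwards [hScont.eventually_ne hS0, hVo.mem_nhds hz₀] with z hz hzV
  have := (Commute.all (a z) (b z)).geom_sum₂_mul m
  rw [hab z hzV, sub_self] at this
  rcases mul_eq_zero.1 this with h | h
  · exact absurd h hz
  · exact sub_eq_zero.1 h

/-- Two holomorphic functions with the same `m`-th power on a preconnected open set differ by an
`m`-th root of unity. -/
theorem exists_rootOfUnity_of_pow_eq {V : Set ℂ} (hVo : IsOpen V) (hVc : IsPreconnected V)
    {a b : ℂ → ℂ} (ha : AnalyticOnNhd ℂ a V) (hb : AnalyticOnNhd ℂ b V) {m : ℕ} (hm : 0 < m)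
    (hab : ∀ z ∈ V, a z ^ m = b z ^ m) (hne : ∃ z ∈ V, b z ≠ 0) :
    ∃ ζ : ℂ, ζ ^ m = 1 ∧ EqOn a (fun z => ζ * b z) V := by
  obtain ⟨z₀, hz₀, hbz₀⟩ := hne
  have hζ : (a z₀ / b z₀) ^ m = 1 := by
    rw [div_pow, hab z₀ hz₀, div_self (pow_ne_zero _ hbz₀)]
  refine ⟨a z₀ / b z₀, hζ, ?_⟩
  refine eqOn_of_pow_eq hVc ha (analyticOnNhd_const.mul hb) hm (fun z hz => ?_) hVo hz₀ ?_ ?_
  · rw [mul_pow, hζ, one_mul, hab z hz]
  · field_simp
  · intro h0
    have := hab z₀ hz₀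
    rw [h0, zero_pow hm.ne'] at this
    exact pow_ne_zero _ hbz₀ this.symm

/-- Root extraction on an open ball whose closure lies in the domain of analyticity. -/
theorem exists_root_of_closedBall {c : ℂ} {ρ : ℝ} {f : ℂ → ℂ}
    (hf : AnalyticOnNhd ℂ f (closedBall c ρ))
    (hne : ∀ z ∈ closedBall c ρ, analyticOrderAt f z ≠ ⊤) {m : ℕ} (hm : 0 < m)
    (hord : ∀ z ∈ ball c ρ, ∃ k : ℕ, analyticOrderAt f z = ((m * k : ℕ) : ℕ∞)) :
    ∃ g : ℂ → ℂ, AnalyticOnNhd ℂ g (ball c ρ) ∧ ∀ z ∈ ball c ρ, g z ^ m = f z := by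
  set U := ball c ρ with hU
  have hUo : IsOpen U := isOpen_ball
  have hfU : AnalyticOnNhd ℂ f U := hf.mono ball_subset_closedBall
  have h₁f : MeromorphicOn f U := hfU.meromorphicOn
  have h₂f : ∀ u : U, meromorphicOrderAt f u ≠ ⊤ := by
    intro u
    rw [(hfU u u.2).meromorphicOrderAt_eq]
    have := hne u (ball_subset_closedBall u.2)
    lift analyticOrderAt f u to ℕ using this with n
    simp
  have h₃f : (MeromorphicOn.divisor f U).support.Finite :=
    MeromorphicOn.divisor_ball_support_finite hf.meromorphicOn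
  obtain ⟨g₀, hg₀a, hg₀ne, hfg⟩ := h₁f.extract_zeros_poles h₂f h₃f
  set D := MeromorphicOn.divisor f U with hDdef
  have hD : ∀ u, ∃ k : ℕ, D u = (k : ℤ) * m := by
    intro u
    by_cases hu : u ∈ U
    · obtain ⟨k, hk⟩ := hord u hu
      refine ⟨k, ?_⟩
      rw [hDdef, MeromorphicOn.AnalyticOnNhd.divisor_apply hfU hu, hk]
      simp [mul_comm]
    · exact ⟨0, by simpa using D.apply_eq_zero_of_notMem hu⟩
  choose d hd using hD
  set φ' : ℂ → ℂ := ∏ᶠ u, (· - u) ^ ((d u : ℤ)) with hφ'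
  have hsupp : (fun u : ℂ => ((· - u) ^ ((d u : ℤ)) : ℂ → ℂ)).HasFiniteMulSupport := by
    have h1 := Function.FactorizedRational.mulSupport (𝕜 := ℂ) (fun u => (d u : ℤ))
    unfold Function.HasFiniteMulSupport
    rw [h1]
    refine h₃f.subset fun u hu => ?_
    simp only [Function.mem_support] at hu ⊢
    rw [hd u]
    exact mul_ne_zero hu (by exact_mod_cast hm.ne')
  have hφpow : φ' ^ m = ∏ᶠ u, (· - u) ^ D u := by
    rw [hφ', finprod_pow hsupp]
    refine finprod_congr fun u => ?_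
    rw [hd u, zpow_mul, zpow_natCast, zpow_natCast]
  obtain ⟨e, hed, he⟩ := exists_root_ball_of_ne_zero (c := c) (r := ρ) (g := g₀)
    hg₀a.differentiableOn (fun z hz => hg₀ne ⟨z, hz⟩) hm
  have hea : AnalyticOnNhd ℂ e U := hed.analyticOnNhd hUo
  have hφa : AnalyticOnNhd ℂ φ' U := fun x _ =>
    Function.FactorizedRational.analyticAt (d := fun u => (d u : ℤ)) (by positivity)
  have hga : AnalyticOnNhd ℂ (fun z => φ' z * e z) U := fun x hx => (hφa x hx).mul (hea x hx)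
  refine ⟨fun z => φ' z * e z, hga, fun z hz => ?_⟩
  have hGa : AnalyticAt ℂ (fun z => (φ' z * e z) ^ m) z := (hga z hz).pow m
  have hev : (fun z => (φ' z * e z) ^ m) =ᶠ[𝓝[≠] z] f := by
    have h1 := (mem_codiscreteWithin_iff_forall_mem_nhdsNE.1 hfg) z hz
    filter_upwards [h1, mem_nhdsWithin_of_mem_nhds (hUo.mem_nhds hz)] with w hw hwU
    rcases hw with hw | hw
    · have hw' : f w = ((∏ᶠ u, (· - u) ^ D u) • g₀) w := hw
      rw [hw', ← hφpow, mul_pow, he w hwU]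
      simp
    · exact absurd hwU hw
  exact ((hGa.continuousAt.eventuallyEq_nhds_iff_eventuallyEq_nhdsNE
    (hfU z hz).continuousAt).1 hev).eq_of_nhds

/-- Gluing along an increasing exhaustion by preconnected open sets. -/
theorem exists_root_iUnion {U : ℕ → Set ℂ} (hUo : ∀ n, IsOpen (U n))
    (hUc : ∀ n, IsPreconnected (U n)) (hmono : Monotone U) {f : ℂ → ℂ} {m : ℕ} (hm : 0 < m)
    {z₀ : ℂ} (hz₀ : z₀ ∈ U 0) (hfz₀ : f z₀ ≠ 0)
    (h : ∀ n, ∃ g : ℂ → ℂ, AnalyticOnNhd ℂ g (U n) ∧ ∀ z ∈ U n, g z ^ m = f z) :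
    ∃ g : ℂ → ℂ, AnalyticOnNhd ℂ g (⋃ n, U n) ∧ ∀ z ∈ ⋃ n, U n, g z ^ m = f z := by
  obtain ⟨w₀, hw₀⟩ := IsAlgClosed.exists_pow_nat_eq (f z₀) hm
  have hw₀ne : w₀ ≠ 0 := by
    rintro rfl
    rw [zero_pow hm.ne'] at hw₀
    exact hfz₀ hw₀.symm
  have h' : ∀ n, ∃ g : ℂ → ℂ, AnalyticOnNhd ℂ g (U n) ∧ (∀ z ∈ U n, g z ^ m = f z) ∧
      g z₀ = w₀ := by
    intro n
    obtain ⟨g, hga, hg⟩ := h n
    have hz₀n : z₀ ∈ U n := hmono (Nat.zero_le n) hz₀
    have hgz₀ : g z₀ ≠ 0 := by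
      intro h0
      have := hg z₀ hz₀n
      rw [h0, zero_pow hm.ne'] at this
      exact hfz₀ this.symm
    refine ⟨fun z => (w₀ / g z₀) * g z, analyticOnNhd_const.mul hga, fun z hz => ?_, ?_⟩
    · rw [mul_pow, div_pow, hw₀, hg z₀ hz₀n, div_self hfz₀, one_mul, hg z hz]
    · field_simp
  choose G hGa hG hG0 using h'
  have hcompat : ∀ {n k : ℕ}, n ≤ k → EqOn (G n) (G k) (U n) := by
    intro n k hnk
    exact eqOn_of_pow_eq (hUc n) (hGa n) ((hGa k).mono (hmono hnk)) hm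
      (fun z hz => by rw [hG n z hz, hG k z (hmono hnk hz)]) (hUo n)
      (hmono (Nat.zero_le n) hz₀) (by rw [hG0, hG0]) (by rw [hG0]; exact hw₀ne)
  classical
  let idx : ℂ → ℕ := fun z => if hz : ∃ n, z ∈ U n then Nat.find hz else 0
  have hidx : ∀ {z : ℂ} {n : ℕ}, z ∈ U n → z ∈ U (idx z) ∧ idx z ≤ n := by
    intro z n hn
    have hz : ∃ n, z ∈ U n := ⟨n, hn⟩
    simp only [idx, dif_pos hz]
    exact ⟨Nat.find_spec hz, Nat.find_min' hz hn⟩
  refine ⟨fun z => G (idx z) z, ?_, ?_⟩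
  · intro z hz
    obtain ⟨n, hn⟩ := mem_iUnion.1 hz
    refine (hGa n z hn).congr ?_
    filter_upwards [(hUo n).mem_nhds hn] with w hw
    obtain ⟨h1, h2⟩ := hidx hw
    exact (hcompat h2 h1).symm
  · intro z hz
    obtain ⟨n, hn⟩ := mem_iUnion.1 hz
    exact hG _ z (hidx hn).1

/-- conversion of the divisibility hypothesis -/
theorem exists_eq_mul_of_dvd {m : ℕ} (hm : 0 < m) {x : ℕ∞} (hx : x ≠ ⊤) (h : (m : ℕ∞) ∣ x) :
    ∃ k : ℕ, x = ((m * k : ℕ) : ℕ∞) := by
  obtain ⟨y, rfl⟩ := h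
  have hy : y ≠ ⊤ := by
    rintro rfl
    apply hx
    rw [ENat.mul_top]
    exact_mod_cast hm.ne'
  lift y to ℕ using hy
  exact ⟨y, by push_cast; rfl⟩

/-- **Root extraction on a ball.** -/
theorem exists_root_ball {c : ℂ} {r : ℝ} {f : ℂ → ℂ} (hf : AnalyticOnNhd ℂ f (ball c r))
    (hne : ∃ z ∈ ball c r, f z ≠ 0) {m : ℕ} (hm : 0 < m)
    (hord : ∀ z ∈ ball c r, (m : ℕ∞) ∣ analyticOrderAt f z) :
    ∃ g : ℂ → ℂ, AnalyticOnNhd ℂ g (ball c r) ∧ ∀ z ∈ ball c r, g z ^ m = f z := by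
  obtain ⟨z₀, hz₀, hfz₀⟩ := hne
  have htop : ∀ z ∈ ball c r, analyticOrderAt f z ≠ ⊤ := by
    intro z hz
    refine hf.analyticOrderAt_ne_top_of_isPreconnected (convex_ball c r).isPreconnected hz₀ hz ?_
    rw [(hf z₀ hz₀).analyticOrderAt_eq_zero.2 hfz₀]
    simp
  set δ : ℝ := r - dist z₀ c with hδ
  have hδpos : 0 < δ := sub_pos.2 hz₀
  set ρ : ℕ → ℝ := fun n => r - δ / (n + 2) with hρ
  have hρlt : ∀ n, ρ n < r := fun n => by
    simp only [hρ]
    have : 0 < δ / ((n : ℝ) + 2) := by positivity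
    linarith
  have hρmono : Monotone ρ := by
    intro a b hab
    simp only [hρ]
    have hab' : (a : ℝ) ≤ b := by exact_mod_cast hab
    have : δ / ((b : ℝ) + 2) ≤ δ / ((a : ℝ) + 2) := by gcongr
    linarith
  have hunion : (⋃ n, ball c (ρ n)) = ball c r := by
    ext z
    simp only [mem_iUnion, mem_ball]
    constructor
    · rintro ⟨n, hn⟩
      exact hn.trans (hρlt n)
    · intro hz
      have hε : 0 < r - dist z c := sub_pos.2 hz
      obtain ⟨n, hn⟩ := exists_nat_gt (δ / (r - dist z c))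
      refine ⟨n, ?_⟩
      simp only [hρ]
      have h1 : δ / ((n : ℝ) + 2) < r - dist z c := by
        rw [div_lt_iff₀ (by positivity)]
        rw [div_lt_iff₀ hε] at hn
        nlinarith
      linarith
  rw [← hunion]
  refine exists_root_iUnion (fun n => isOpen_ball) (fun n => (convex_ball c _).isPreconnected)
    (fun a b hab => ball_subset_ball (hρmono hab)) hm (z₀ := z₀) ?_ hfz₀ fun n => ?_
  · simp only [mem_ball, hρ]
    have : δ / (((0 : ℕ) : ℝ) + 2) = δ / 2 := by norm_num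
    rw [this]
    linarith
  · have hsub : closedBall c (ρ n) ⊆ ball c r := closedBall_subset_ball (hρlt n)
    exact exists_root_of_closedBall (hf.mono hsub) (fun z hz => htop z (hsub hz)) hm
      fun z hz => exists_eq_mul_of_dvd hm (htop z (hsub (ball_subset_closedBall hz)))
        (hord z (hsub (ball_subset_closedBall hz)))

/-- **Root extraction on an increasing union of balls.** -/
theorem exists_root_iUnion_ball {c : ℕ → ℂ} {r : ℕ → ℝ}
    (hmono : Monotone fun n => ball (c n) (r n)) {f : ℂ → ℂ}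
    (hf : AnalyticOnNhd ℂ f (⋃ n, ball (c n) (r n)))
    (hne : ∃ z ∈ ⋃ n, ball (c n) (r n), f z ≠ 0) {m : ℕ} (hm : 0 < m)
    (hord : ∀ z ∈ ⋃ n, ball (c n) (r n), (m : ℕ∞) ∣ analyticOrderAt f z) :
    ∃ g : ℂ → ℂ, AnalyticOnNhd ℂ g (⋃ n, ball (c n) (r n)) ∧
      ∀ z ∈ ⋃ n, ball (c n) (r n), g z ^ m = f z := by
  obtain ⟨z₀, hz₀, hfz₀⟩ := hne
  obtain ⟨N₀, hN₀⟩ := mem_iUnion.1 hz₀
  have hunion : (⋃ n, ball (c (n + N₀)) (r (n + N₀))) = ⋃ n, ball (c n) (r n) := by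
    apply Subset.antisymm
    · exact iUnion_subset fun n => subset_iUnion (fun n => ball (c n) (r n)) (n + N₀)
    · exact iUnion_subset fun n => (hmono (Nat.le_add_right n N₀)).trans
        (subset_iUnion (fun n => ball (c (n + N₀)) (r (n + N₀))) n)
  rw [← hunion]
  refine exists_root_iUnion (fun n => isOpen_ball) (fun n => (convex_ball _ _).isPreconnected)
    (fun a b hab => hmono (Nat.add_le_add_right hab N₀)) hm (z₀ := z₀) (by simpa using hN₀) hfz₀
    fun n => ?_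
  have hsub : ball (c (n + N₀)) (r (n + N₀)) ⊆ ⋃ n, ball (c n) (r n) :=
    subset_iUnion (fun n => ball (c n) (r n)) (n + N₀)
  exact exists_root_ball (hf.mono hsub) ⟨z₀, hmono (Nat.le_add_left N₀ n) hN₀, hfz₀⟩ hm
    fun z hz => hord z (hsub hz)

/-! ### The upper half plane -/

theorem mem_ballH {z : ℂ} {n : ℕ} :
    z ∈ ball (((n : ℂ) + 1) * I) ((n : ℝ) + 1) ↔ z.re ^ 2 + z.im ^ 2 < 2 * ((n : ℝ) + 1) * z.im := by
  have hn : (0 : ℝ) ≤ (n : ℝ) + 1 := by positivity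
  rw [mem_ball, dist_eq_norm, ← sq_lt_sq₀ (norm_nonneg _) hn, Complex.sq_norm,
    Complex.normSq_apply]
  simp only [sub_re, mul_re, add_re, natCast_re, one_re, I_re, mul_zero, add_im, natCast_im,
    one_im, add_zero, I_im, mul_one, sub_self, sub_zero, sub_im, mul_im]
  constructor <;> intro h <;> nlinarith

theorem iUnion_ballH : (⋃ n : ℕ, ball (((n : ℂ) + 1) * I) ((n : ℝ) + 1)) = {z : ℂ | 0 < z.im} := by
  ext z
  simp only [mem_iUnion, mem_ballH]
  show (∃ n : ℕ, z.re ^ 2 + z.im ^ 2 < 2 * ((n : ℝ) + 1) * z.im) ↔ 0 < z.im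
  constructor
  · rintro ⟨n, hn⟩
    have hn' : (0 : ℝ) < 2 * ((n : ℝ) + 1) := by positivity
    by_contra h
    have : 2 * ((n : ℝ) + 1) * z.im ≤ 0 := mul_nonpos_of_nonneg_of_nonpos hn'.le (not_lt.1 h)
    nlinarith [sq_nonneg z.re, sq_nonneg z.im]
  · intro hz
    obtain ⟨n, hn⟩ := exists_nat_gt ((z.re ^ 2 + z.im ^ 2) / z.im)
    refine ⟨n, ?_⟩
    rw [div_lt_iff₀ hz] at hn
    nlinarith

theorem monotone_ballH : Monotone fun n : ℕ => ball (((n : ℂ) + 1) * I) ((n : ℝ) + 1) := by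
  intro a b hab z hz
  have hz' : z ∈ ball (((a : ℂ) + 1) * I) ((a : ℝ) + 1) := hz
  have him : 0 < z.im := by
    have : z ∈ ⋃ n : ℕ, ball (((n : ℂ) + 1) * I) ((n : ℝ) + 1) := mem_iUnion.2 ⟨a, hz'⟩
    rw [iUnion_ballH] at this
    exact this
  show z ∈ ball (((b : ℂ) + 1) * I) ((b : ℝ) + 1)
  rw [mem_ballH] at hz' ⊢
  have hab' : (a : ℝ) ≤ b := by exact_mod_cast hab
  nlinarith

/-- **Root extraction on the set `{0 < im z}`.** -/
theorem exists_root_upperHalfPlaneSet {f : ℂ → ℂ} (hf : AnalyticOnNhd ℂ f {z : ℂ | 0 < z.im})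
    (hne : ∃ z : ℂ, 0 < z.im ∧ f z ≠ 0) {m : ℕ} (hm : 0 < m)
    (hord : ∀ z : ℂ, 0 < z.im → (m : ℕ∞) ∣ analyticOrderAt f z) :
    ∃ g : ℂ → ℂ, AnalyticOnNhd ℂ g {z : ℂ | 0 < z.im} ∧ ∀ z : ℂ, 0 < z.im → g z ^ m = f z := by
  have := exists_root_iUnion_ball monotone_ballH (f := f) (m := m)
  rw [iUnion_ballH] at this
  exact this hf hne hm hord

open UpperHalfPlane in
open scoped Manifold in
/-- **Root extraction for holomorphic functions on `ℍ`.** -/
theorem exists_root_upperHalfPlane {f : ℍ → ℂ} (hf : MDiff f) (hne : ∃ z : ℍ, f z ≠ 0) {m : ℕ}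
    (hm : 0 < m) (hord : ∀ z : ℍ, (m : ℕ∞) ∣ analyticOrderAt (f ∘ ofComplex) (z : ℂ)) :
    ∃ g : ℍ → ℂ, MDiff g ∧ ∀ z : ℍ, g z ^ m = f z := by
  have hfa : AnalyticOnNhd ℂ (f ∘ ofComplex) {z : ℂ | 0 < z.im} :=
    (UpperHalfPlane.mdifferentiable_iff.1 hf).analyticOnNhd isOpen_upperHalfPlaneSet
  obtain ⟨z₀, hz₀⟩ := hne
  obtain ⟨G, hGa, hG⟩ := exists_root_upperHalfPlaneSet hfa
    ⟨z₀, z₀.im_pos, by simpa using hz₀⟩ hm (fun z hz => hord ⟨z, hz⟩)
  refine ⟨fun z => G z, ?_, fun z => ?_⟩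
  · rw [UpperHalfPlane.mdifferentiable_iff]
    refine hGa.differentiableOn.congr fun z hz => ?_
    simp [Function.comp_apply, ofComplex_apply_of_im_pos hz]
  · have := hG z z.im_pos
    simpa using this

open UpperHalfPlane in
open scoped Manifold in
/-- Two holomorphic functions on `ℍ` with the same `m`-th power differ by an `m`-th root of
unity. -/
theorem exists_rootOfUnity_of_pow_eq_upperHalfPlane {a b : ℍ → ℂ} (ha : MDiff a) (hb : MDiff b)
    {m : ℕ} (hm : 0 < m) (hab : ∀ z : ℍ, a z ^ m = b z ^ m) (hne : ∃ z : ℍ, b z ≠ 0) :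
    ∃ ζ : ℂ, ζ ^ m = 1 ∧ ∀ z : ℍ, a z = ζ * b z := by
  have haa : AnalyticOnNhd ℂ (a ∘ ofComplex) {z : ℂ | 0 < z.im} :=
    (UpperHalfPlane.mdifferentiable_iff.1 ha).analyticOnNhd isOpen_upperHalfPlaneSet
  have hba : AnalyticOnNhd ℂ (b ∘ ofComplex) {z : ℂ | 0 < z.im} :=
    (UpperHalfPlane.mdifferentiable_iff.1 hb).analyticOnNhd isOpen_upperHalfPlaneSet
  obtain ⟨z₀, hz₀⟩ := hne
  have hconv : IsPreconnected {z : ℂ | 0 < z.im} := (convex_halfSpace_im_gt 0).isPreconnected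
  obtain ⟨ζ, hζ, h⟩ := exists_rootOfUnity_of_pow_eq isOpen_upperHalfPlaneSet hconv haa hba hm
    (fun z hz => by simpa using hab (ofComplex z)) ⟨z₀, z₀.im_pos, by simpa using hz₀⟩
  refine ⟨ζ, hζ, fun z => ?_⟩
  have := h z.im_pos
  simpa using this

end Fermat.Agent.ES.Root25
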