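import Fermat.Agent.ES.RepS30
import Fermat.Agent.FD.Main
import Fermat.Agent.ES.Coh.Assemble
import Fermat.Agent.ES.Mid.All

/-!
# ES : `Stmt_ES` and the frozen `S30` from the two remaining inputs
(the multiplicative Hecke operator `Mid.Stmt_Hecke` and Claim K `S18.Stmt_ClaimK`).
-/

set_option autoImplicit false

namespace Fermat.Agent.ES

theorem stmt_ES_of (hH : Mid.Stmt_Hecke) (hK : Fermat.Agent.S18.Stmt_ClaimK) : Rep.Stmt_ES :=
  Coh.stmt_ES_of_finLevel (Mid.ALL.finLevel_of hH hK)

end Fermat.Agent.ES
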